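import Mathlib

set_option autoImplicit false

namespace Fermat.Agent.S23

open UpperHalfPlane SlashInvariantForm
open scoped ModularForm MatrixGroups Manifold

section

variable {𝒢 : Subgroup (GL (Fin 2) ℝ)} {k : ℤ}
variable {F : Type*} [FunLike F ℍ ℂ]

local notation "𝒬" => 𝒮ℒ ⧸ (𝒢.subgroupOf 𝒮ℒ)

/-- The `i`-th elementary symmetric function of the level one conjugates of `f`. -/
noncomputable def h96_esymm [𝒢.IsArithmetic] [SlashInvariantFormClass F 𝒢 k] (f : F) (i : ℕ) :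
    ℍ → ℂ :=
  letI := Fintype.ofFinite 𝒬
  ∑ s ∈ Finset.powersetCard i (Finset.univ : Finset 𝒬), ∏ q ∈ s, quotientFunc f q

theorem h96_esymm_slash [𝒢.IsArithmetic] [SlashInvariantFormClass F 𝒢 k] (f : F) (i : ℕ)
    {h : GL (Fin 2) ℝ} (hh : h ∈ 𝒮ℒ) :
    h96_esymm f i ∣[k * (i : ℤ)] h = h96_esymm f i := by
  classical
  let _ := Fintype.ofFinite 𝒬
  unfold h96_esymm
  rw [SlashAction.sum_slash]
  have hdet : |(h.det : ℝ)| = 1 := Subgroup.HasDetPlusMinusOne.abs_det hh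
  have key : ∀ s ∈ Finset.powersetCard i (Finset.univ : Finset 𝒬),
      (∏ q ∈ s, quotientFunc f q) ∣[k * (i : ℤ)] h =
        ∏ q ∈ s.map (MulAction.toPerm ((⟨h, hh⟩ : 𝒮ℒ)⁻¹)).toEmbedding, quotientFunc f q := by
    intro s hs
    have hcard : s.card = i := (Finset.mem_powersetCard.mp hs).2
    rw [← hcard, ModularForm.prod_slash, hdet, one_zpow, one_smul, Finset.prod_map]
    refine Finset.prod_congr rfl fun q _ => ?_
    rw [quotientFunc_smul f hh]
    rfl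
  rw [Finset.sum_congr rfl key]
  refine Finset.sum_bij (fun s _ => s.map (MulAction.toPerm ((⟨h, hh⟩ : 𝒮ℒ)⁻¹)).toEmbedding)
    ?_ ?_ ?_ ?_
  · intro s hs
    rw [Finset.mem_powersetCard] at hs ⊢
    exact ⟨Finset.subset_univ _, by rw [Finset.card_map]; exact hs.2⟩
  · intro s _ t _ hst
    exact Finset.map_injective _ hst
  · intro t ht
    refine ⟨t.map (MulAction.toPerm ((⟨h, hh⟩ : 𝒮ℒ)⁻¹)).symm.toEmbedding, ?_, ?_⟩
    · rw [Finset.mem_powersetCard] at ht ⊢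
      exact ⟨Finset.subset_univ _, by rw [Finset.card_map]; exact ht.2⟩
    · rw [Finset.map_map]
      ext q
      simp
  · intro s _
    rfl

theorem h96_quotientFunc_mdiff [ModularFormClass F 𝒢 k] (f : F) (q : 𝒬) :
    MDiff (quotientFunc f q) := by
  induction q using Quotient.inductionOn with
  | h r => exact (ModularForm.translate f r.val⁻¹).holo'

theorem h96_quotientFunc_bdd [𝒢.IsArithmetic] [ModularFormClass F 𝒢 k] (f : F) (q : 𝒬)
    {c : OnePoint ℝ} (hc : IsCusp c 𝒮ℒ) (γ : GL (Fin 2) ℝ) (hγ : γ • OnePoint.infty = c) :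
    IsBoundedAtImInfty (quotientFunc f q ∣[k] γ) := by
  induction q using Quotient.inductionOn with
  | h r =>
    refine (ModularForm.translate f r.val⁻¹).bdd_at_cusps' ?_ γ hγ
    simpa using hc.of_isFiniteRelIndex_conj (𝒢 := 𝒢) r.2

theorem h96_quotientFunc_zero [𝒢.IsArithmetic] [CuspFormClass F 𝒢 k] (f : F) (q : 𝒬)
    {c : OnePoint ℝ} (hc : IsCusp c 𝒮ℒ) (γ : GL (Fin 2) ℝ) (hγ : γ • OnePoint.infty = c) :
    IsZeroAtImInfty (quotientFunc f q ∣[k] γ) := by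
  induction q using Quotient.inductionOn with
  | h r =>
    refine (CuspForm.translate f r.val⁻¹).zero_at_cusps' ?_ γ hγ
    simpa using hc.of_isFiniteRelIndex_conj (𝒢 := 𝒢) r.2

theorem h96_esymm_mdiff [𝒢.IsArithmetic] [ModularFormClass F 𝒢 k] (f : F) (i : ℕ) :
    MDiff (h96_esymm f i) := by
  classical
  let _ := Fintype.ofFinite 𝒬
  unfold h96_esymm
  exact .sum fun s _ => .prod fun q _ => h96_quotientFunc_mdiff f q

theorem h96_prod_slash_bdd [𝒢.IsArithmetic] [ModularFormClass F 𝒢 k] (f : F) (s : Finset 𝒬)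
    {c : OnePoint ℝ} (hc : IsCusp c 𝒮ℒ) (γ : GL (Fin 2) ℝ) (hγ : γ • OnePoint.infty = c) :
    IsBoundedAtImInfty ((∏ q ∈ s, quotientFunc f q) ∣[k * (s.card : ℤ)] γ) := by
  rw [ModularForm.prod_slash]
  exact Filter.BoundedAtFilter.smul _
    (Filter.BoundedAtFilter.prod s fun q _ => h96_quotientFunc_bdd f q hc γ hγ)

theorem h96_prod_slash_zero [𝒢.IsArithmetic] [CuspFormClass F 𝒢 k] (f : F) (s : Finset 𝒬)
    (hs : s.Nonempty)
    {c : OnePoint ℝ} (hc : IsCusp c 𝒮ℒ) (γ : GL (Fin 2) ℝ) (hγ : γ • OnePoint.infty = c) :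
    IsZeroAtImInfty ((∏ q ∈ s, quotientFunc f q) ∣[k * (s.card : ℤ)] γ) := by
  classical
  rw [ModularForm.prod_slash]
  refine Filter.ZeroAtFilter.smul _ ?_
  obtain ⟨q0, hq0⟩ := hs
  rw [← Finset.mul_prod_erase s _ hq0]
  refine Filter.ZeroAtFilter.mul_boundedAtFilter (h96_quotientFunc_zero f q0 hc γ hγ) ?_
  exact Filter.BoundedAtFilter.prod _ fun q _ =>
    (h96_quotientFunc_zero f q hc γ hγ).boundedAtFilter

theorem h96_esymm_bdd [𝒢.IsArithmetic] [ModularFormClass F 𝒢 k] (f : F) (i : ℕ)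
    {c : OnePoint ℝ} (hc : IsCusp c 𝒮ℒ) : c.IsBoundedAt (h96_esymm f i) (k * (i : ℤ)) := by
  classical
  let _ := Fintype.ofFinite 𝒬
  intro γ hγ
  unfold h96_esymm
  rw [SlashAction.sum_slash]
  refine (Filter.boundedFilterSubmodule ℂ atImInfty).sum_mem fun s hs => ?_
  have hcard : s.card = i := (Finset.mem_powersetCard.mp hs).2
  have := h96_prod_slash_bdd f s hc γ hγ
  rwa [hcard] at this

theorem h96_esymm_zero [𝒢.IsArithmetic] [CuspFormClass F 𝒢 k] (f : F) (i : ℕ) (hi : i ≠ 0)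
    {c : OnePoint ℝ} (hc : IsCusp c 𝒮ℒ) : c.IsZeroAt (h96_esymm f i) (k * (i : ℤ)) := by
  classical
  let _ := Fintype.ofFinite 𝒬
  intro γ hγ
  unfold h96_esymm
  rw [SlashAction.sum_slash]
  refine (Filter.zeroAtFilterSubmodule ℂ atImInfty).sum_mem fun s hs => ?_
  have hcard : s.card = i := (Finset.mem_powersetCard.mp hs).2
  have hne : s.Nonempty := Finset.card_pos.mp (by omega)
  have := h96_prod_slash_zero f s hne hc γ hγ
  rwa [hcard] at this

/-- Elementary symmetric function of the conjugates, bundled as a level one modular form. -/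
noncomputable def h96_esymmModular [𝒢.IsArithmetic] [ModularFormClass F 𝒢 k] (f : F) (i : ℕ)
    (w : ℤ) (hw : w = k * (i : ℤ)) : ModularForm 𝒮ℒ w where
  toFun := h96_esymm f i
  slash_action_eq' h hh := by subst hw; exact h96_esymm_slash f i hh
  holo' := h96_esymm_mdiff f i
  bdd_at_cusps' hc := by subst hw; exact h96_esymm_bdd f i hc

/-- Elementary symmetric function of positive degree of the conjugates of a cusp form, bundled as
a level one cusp form. -/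
noncomputable def h96_esymmCusp [𝒢.IsArithmetic] [CuspFormClass F 𝒢 k] (f : F) (i : ℕ)
    (hi : i ≠ 0) (w : ℤ) (hw : w = k * (i : ℤ)) : CuspForm 𝒮ℒ w where
  toFun := h96_esymm f i
  slash_action_eq' h hh := by subst hw; exact h96_esymm_slash f i hh
  holo' := h96_esymm_mdiff f i
  zero_at_cusps' hc := by subst hw; exact h96_esymm_zero f i hi hc

theorem h96_esymmModular_apply [𝒢.IsArithmetic] [ModularFormClass F 𝒢 k] (f : F) (i : ℕ)
    (w : ℤ) (hw : w = k * (i : ℤ)) (τ : ℍ) :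
    h96_esymmModular f i w hw τ = h96_esymm f i τ := rfl

theorem h96_esymmCusp_apply [𝒢.IsArithmetic] [CuspFormClass F 𝒢 k] (f : F) (i : ℕ)
    (hi : i ≠ 0) (w : ℤ) (hw : w = k * (i : ℤ)) (τ : ℍ) :
    h96_esymmCusp f i hi w hw τ = h96_esymm f i τ := rfl

/-- The characteristic polynomial identity satisfied by `f` over level one. -/
theorem h96_charpoly_eq [𝒢.IsArithmetic] [SlashInvariantFormClass F 𝒢 k] (f : F) (τ : ℍ) :
    f τ ^ Nat.card 𝒬 + ∑ i ∈ Finset.range (Nat.card 𝒬),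
      ((-1 : ℂ) ^ (i + 1) * h96_esymm f (i + 1) τ) * f τ ^ (Nat.card 𝒬 - 1 - i) = 0 := by
  classical
  let _ := Fintype.ofFinite 𝒬
  have hcard : Nat.card 𝒬 = (Finset.univ : Finset 𝒬).card := by
    rw [Finset.card_univ, Nat.card_eq_fintype_card]
  have h0 : ∏ q : 𝒬, (-(quotientFunc f q τ) + f τ) = 0 := by
    refine Finset.prod_eq_zero (Finset.mem_univ (⟦1⟧ : 𝒬)) ?_
    rw [quotientFunc_mk]
    simp
  rw [Finset.prod_add, Finset.sum_powerset] at h0
  rw [← hcard] at h0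
  rw [Finset.sum_range_succ'] at h0
  have hterm : ∀ j ∈ Finset.range (Nat.card 𝒬 + 1),
      ∑ t ∈ Finset.powersetCard j (Finset.univ : Finset 𝒬),
        (∏ q ∈ t, -(quotientFunc f q τ)) * ∏ q ∈ Finset.univ \ t, f τ =
      ((-1 : ℂ) ^ j * h96_esymm f j τ) * f τ ^ (Nat.card 𝒬 - j) := by
    intro j _
    unfold h96_esymm
    rw [Finset.sum_apply, Finset.mul_sum, Finset.sum_mul]
    refine Finset.sum_congr rfl fun t ht => ?_
    have htc : t.card = j := (Finset.mem_powersetCard.mp ht).2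
    rw [Finset.prod_const, Finset.card_sdiff_of_subset (Finset.subset_univ t), ← hcard, htc,
      Finset.prod_neg, htc, Finset.prod_apply]
  rw [Finset.sum_congr rfl (fun i hi => hterm (i + 1)
    (by rw [Finset.mem_range] at hi ⊢; omega)), hterm 0 (by simp)] at h0
  have he0 : h96_esymm f 0 τ = 1 := by
    unfold h96_esymm
    simp
  rw [he0, pow_zero, one_mul, one_mul, Nat.sub_zero, add_comm] at h0
  rw [← h0]
  congr 1
  refine Finset.sum_congr rfl fun i _ => ?_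
  rw [Nat.sub_sub, Nat.add_comm 1 i]

end

/-- A cusp form on an arithmetic subgroup satisfies a monic equation whose coefficients are
level one cusp forms. -/
theorem h96_exists_monic_cusp {Γ : Subgroup (GL (Fin 2) ℝ)} [Γ.IsArithmetic] {k : ℤ}
    (f : CuspForm Γ k) :
    ∃ (μ : ℕ) (e : (i : Fin μ) → CuspForm 𝒮ℒ (((i : ℕ) + 1 : ℤ) * k)), 0 < μ ∧
      ∀ τ : ℍ, f τ ^ μ + ∑ i : Fin μ, e i τ * f τ ^ (μ - 1 - (i : ℕ)) = 0 := by
  refine ⟨Nat.card (𝒮ℒ ⧸ (Γ.subgroupOf 𝒮ℒ)),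
    fun i => (-1 : ℂ) ^ ((i : ℕ) + 1) •
      h96_esymmCusp f ((i : ℕ) + 1) (Nat.succ_ne_zero _) _ (by push_cast; ring),
    Nat.card_pos, fun τ => ?_⟩
  have h := h96_charpoly_eq f τ
  rw [← Fin.sum_univ_eq_sum_range
    (fun i => ((-1 : ℂ) ^ (i + 1) * h96_esymm f (i + 1) τ) *
      f τ ^ (Nat.card (𝒮ℒ ⧸ (Γ.subgroupOf 𝒮ℒ)) - 1 - i))] at h
  exact h

/-- A modular form on an arithmetic subgroup satisfies a monic equation whose coefficients are
level one modular forms. -/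
theorem h96_exists_monic_modular {Γ : Subgroup (GL (Fin 2) ℝ)} [Γ.IsArithmetic] {k : ℤ}
    (f : ModularForm Γ k) :
    ∃ (μ : ℕ) (e : (i : Fin μ) → ModularForm 𝒮ℒ (((i : ℕ) + 1 : ℤ) * k)), 0 < μ ∧
      ∀ τ : ℍ, f τ ^ μ + ∑ i : Fin μ, e i τ * f τ ^ (μ - 1 - (i : ℕ)) = 0 := by
  refine ⟨Nat.card (𝒮ℒ ⧸ (Γ.subgroupOf 𝒮ℒ)),
    fun i => (-1 : ℂ) ^ ((i : ℕ) + 1) •
      h96_esymmModular f ((i : ℕ) + 1) _ (by push_cast; ring),
    Nat.card_pos, fun τ => ?_⟩
  have h := h96_charpoly_eq f τ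
  rw [← Fin.sum_univ_eq_sum_range
    (fun i => ((-1 : ℂ) ^ (i + 1) * h96_esymm f (i + 1) τ) *
      f τ ^ (Nat.card (𝒮ℒ ⧸ (Γ.subgroupOf 𝒮ℒ)) - 1 - i))] at h
  exact h

end Fermat.Agent.S23
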