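import Mathlib

set_option autoImplicit false

open UpperHalfPlane ModularForm Filter Topology
open scoped MatrixGroups ModularForm Manifold

namespace Fermat.Agent.S23

/-- Cauchy-type bound for the roots of a monic polynomial. -/
lemma h97_norm_le_of_monic {μ : ℕ} {x : ℂ} {e : Fin μ → ℂ}
    (h : x ^ μ + ∑ i : Fin μ, e i * x ^ (μ - 1 - (i : ℕ)) = 0) {ε : ℝ} (hε : 0 < ε) :
    ‖x‖ ≤ ε + ∑ i : Fin μ, ‖e i‖ / ε ^ (i : ℕ) := by
  have hsum_nonneg : 0 ≤ ∑ i : Fin μ, ‖e i‖ / ε ^ (i : ℕ) :=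
    Finset.sum_nonneg fun i _ => div_nonneg (norm_nonneg _) (pow_nonneg hε.le _)
  by_cases hx : ‖x‖ ≤ ε
  · linarith
  push Not at hx
  have hx0 : 0 < ‖x‖ := hε.trans hx
  have hμ : μ ≠ 0 := by
    rintro rfl
    simp at h
  have hpow : 0 < ‖x‖ ^ (μ - 1) := pow_pos hx0 _
  have h1 : ‖x‖ * ‖x‖ ^ (μ - 1) ≤ (∑ i : Fin μ, ‖e i‖ / ε ^ (i : ℕ)) * ‖x‖ ^ (μ - 1) := by
    have h2 : ‖x‖ * ‖x‖ ^ (μ - 1) = ‖∑ i : Fin μ, e i * x ^ (μ - 1 - (i : ℕ))‖ := by
      rw [← pow_succ', Nat.sub_add_cancel (Nat.pos_of_ne_zero hμ), ← norm_pow,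
        eq_neg_of_add_eq_zero_left h, norm_neg]
    rw [h2, Finset.sum_mul]
    refine (norm_sum_le _ _).trans (Finset.sum_le_sum fun i _ => ?_)
    rw [norm_mul, norm_pow]
    have hi : (i : ℕ) ≤ μ - 1 := by have := i.2; omega
    have h3 : ‖x‖ ^ (μ - 1) = ‖x‖ ^ (μ - 1 - (i : ℕ)) * ‖x‖ ^ (i : ℕ) := by
      rw [← pow_add, Nat.sub_add_cancel hi]
    have h4 : ε ^ (i : ℕ) ≤ ‖x‖ ^ (i : ℕ) := pow_le_pow_left₀ hε.le hx.le _
    have h5 : 0 < ε ^ (i : ℕ) := pow_pos hε _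
    rw [h3, div_mul_eq_mul_div, le_div_iff₀ h5, mul_assoc]
    gcongr
  have := le_of_mul_le_mul_right h1 hpow
  linarith

/-- Dividing the homogeneous monic equation by `b ^ μ`. -/
lemma h97_monic_of_mul {μ : ℕ} {a b x : ℂ} {e : Fin μ → ℂ} (hb : b ≠ 0) (hx : x * b = a)
    (h : a ^ μ + ∑ i : Fin μ, e i * a ^ (μ - 1 - (i : ℕ)) * b ^ ((i : ℕ) + 1) = 0) :
    x ^ μ + ∑ i : Fin μ, e i * x ^ (μ - 1 - (i : ℕ)) = 0 := by
  have hbμ : b ^ μ ≠ 0 := pow_ne_zero _ hb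
  apply mul_left_cancel₀ hbμ
  rw [mul_zero, ← h, ← hx, mul_add, Finset.mul_sum]
  congr 1
  · ring
  · refine Finset.sum_congr rfl fun i _ => ?_
    have hi : b ^ μ = b ^ (μ - 1 - (i : ℕ)) * b ^ ((i : ℕ) + 1) := by
      rw [← pow_add]
      congr 1
      have := i.2
      omega
    rw [hi]
    ring

/-- The zeros of a nonzero holomorphic function on the upper half plane are isolated. -/
lemma h97_eventually_ne_zero {B : ℍ → ℂ} (hB : MDiff B) (hB0 : B ≠ 0) {z : ℂ} (hz : 0 < z.im) :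
    ∀ᶠ w in 𝓝[≠] z, (B ∘ ofComplex) w ≠ 0 := by
  have hd : DifferentiableOn ℂ (B ∘ ofComplex) {z : ℂ | 0 < z.im} := mdifferentiable_iff.mp hB
  have han : AnalyticOnNhd ℂ (B ∘ ofComplex) {z : ℂ | 0 < z.im} :=
    hd.analyticOnNhd isOpen_upperHalfPlaneSet
  have hpre : IsPreconnected {z : ℂ | 0 < z.im} := (convex_halfSpace_im_gt 0).isPreconnected
  by_contra hcon
  rw [not_eventually] at hcon
  have hfreq : ∃ᶠ w in 𝓝[≠] z, (B ∘ ofComplex) w = 0 := hcon.mono fun w hw => not_not.mp hw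
  have h0 := han.eqOn_zero_of_preconnected_of_frequently_eq_zero hpre hz hfreq
  apply hB0
  funext τ
  have := h0 τ.im_pos
  simpa using this

/-- A continuous function on the upper half plane vanishing off the zero set of a nonzero
holomorphic function vanishes identically. -/
lemma h97_eq_zero_of_continuous {B : ℍ → ℂ} (hB : MDiff B) (hB0 : B ≠ 0) {F : ℍ → ℂ}
    (hF : Continuous F) (h : ∀ τ, B τ ≠ 0 → F τ = 0) : F = 0 := by
  funext τ
  by_contra hne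
  have h1 : ∀ᶠ σ in 𝓝 τ, F σ ≠ 0 := hF.continuousAt.eventually_ne hne
  have h2 : ∀ᶠ σ in 𝓝 τ, B σ = 0 := h1.mono fun σ hσ => by
    by_contra hb
    exact hσ (h σ hb)
  have h3 : ∀ᶠ w in 𝓝 (τ : ℂ), (B ∘ ofComplex) w = 0 := by
    rw [← UpperHalfPlane.isOpenEmbedding_coe.map_nhds_eq τ, eventually_map]
    exact h2.mono fun σ hσ => by simpa using hσ
  have h4 := h97_eventually_ne_zero hB hB0 τ.im_pos
  have h5 : ∀ᶠ w in 𝓝[≠] (τ : ℂ), False := by
    filter_upwards [h4, h3.filter_mono nhdsWithin_le_nhds] with w hw hw'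
    exact hw hw'
  exact (NeBot.ne (f := 𝓝[≠] (τ : ℂ)) inferInstance) (eventually_false_iff_eq_bot.mp h5)

/-- The quotient `A / B`, as a function on `ℂ`. -/
noncomputable def h97_F (A B : ℍ → ℂ) : ℂ → ℂ :=
  fun w => (A ∘ ofComplex) w / (B ∘ ofComplex) w

/-- The quotient `A / B` with the removable singularities removed. -/
noncomputable def h97_G (A B : ℍ → ℂ) : ℂ → ℂ :=
  fun z => limUnder (𝓝[≠] z) (h97_F A B)

lemma h97_continuousAt_comp_ofComplex {f : ℍ → ℂ} (hf : Continuous f) {z : ℂ} (hz : 0 < z.im) :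
    ContinuousAt (f ∘ ofComplex) z :=
  hf.continuousAt.comp (contMDiffAt_ofComplex (n := 0) hz).continuousAt

lemma h97_differentiableAt_comp_ofComplex {f : ℍ → ℂ} (hf : MDiff f) {z : ℂ} (hz : 0 < z.im) :
    DifferentiableAt ℂ (f ∘ ofComplex) z :=
  (mdifferentiable_iff.mp hf z hz).differentiableAt (isOpen_upperHalfPlaneSet.mem_nhds hz)

lemma h97_F_differentiableAt {A B : ℍ → ℂ} (hA : MDiff A) (hB : MDiff B) {z : ℂ}
    (hz : 0 < z.im) (hBz : (B ∘ ofComplex) z ≠ 0) : DifferentiableAt ℂ (h97_F A B) z :=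
  (h97_differentiableAt_comp_ofComplex hA hz).div (h97_differentiableAt_comp_ofComplex hB hz) hBz

lemma h97_G_eq_F {A B : ℍ → ℂ} (hA : MDiff A) (hB : MDiff B) {z : ℂ}
    (hz : 0 < z.im) (hBz : (B ∘ ofComplex) z ≠ 0) : h97_G A B z = h97_F A B z := by
  have hc : ContinuousAt (h97_F A B) z := (h97_F_differentiableAt hA hB hz hBz).continuousAt
  exact (hc.tendsto.mono_left nhdsWithin_le_nhds).limUnder_eq

/-- Local form of the removable singularity argument. -/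
lemma h97_local {A B : ℍ → ℂ} (hA : MDiff A) (hB : MDiff B) (hB0 : B ≠ 0)
    {μ : ℕ} {e : Fin μ → ℍ → ℂ} (he : ∀ i, Continuous (e i))
    (h : ∀ τ : ℍ, A τ ^ μ + ∑ i : Fin μ, e i τ * A τ ^ (μ - 1 - (i : ℕ)) * B τ ^ ((i : ℕ) + 1) = 0)
    {z₀ : ℂ} (hz₀ : 0 < z₀.im) :
    DifferentiableAt ℂ (h97_G A B) z₀ ∧
      h97_G A B z₀ * (B ∘ ofComplex) z₀ = (A ∘ ofComplex) z₀ := by
  have hev : ∀ᶠ w in 𝓝 z₀, w ∈ ({z₀}ᶜ : Set ℂ) → (B ∘ ofComplex) w ≠ 0 :=
    eventually_nhdsWithin_iff.mp (h97_eventually_ne_zero hB hB0 hz₀)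
  have hH : ∀ᶠ w in 𝓝 z₀, 0 < w.im := isOpen_upperHalfPlaneSet.mem_nhds hz₀
  have hbd : ∀ᶠ w in 𝓝 z₀, ∀ i : Fin μ, ‖(e i ∘ ofComplex) w‖ < ‖(e i ∘ ofComplex) z₀‖ + 1 := by
    rw [eventually_all]
    intro i
    have hc : ContinuousAt (fun w => ‖(e i ∘ ofComplex) w‖) z₀ :=
      (h97_continuousAt_comp_ofComplex (he i) hz₀).norm
    exact hc.eventually_lt continuousAt_const (by simp)
  obtain ⟨t, hts, hto, hzt⟩ := mem_nhds_iff.mp (hev.and (hH.and hbd))
  have htn : t ∈ 𝓝 z₀ := hto.mem_nhds hzt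
  have hF : ∀ w ∈ t, w ≠ z₀ → h97_F A B w * (B ∘ ofComplex) w = (A ∘ ofComplex) w := by
    intro w hw hne
    exact div_mul_cancel₀ _ ((hts hw).1 hne)
  have hd : DifferentiableOn ℂ (h97_F A B) (t \ {z₀}) := fun w hw =>
    (h97_F_differentiableAt hA hB (hts hw.1).2.1 ((hts hw.1).1 hw.2)).differentiableWithinAt
  have hb : BddAbove (norm ∘ h97_F A B '' (t \ {z₀})) := by
    refine ⟨1 + ∑ i : Fin μ, (‖(e i ∘ ofComplex) z₀‖ + 1) / 1 ^ (i : ℕ), ?_⟩
    rintro _ ⟨w, hw, rfl⟩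
    have hwim : 0 < w.im := (hts hw.1).2.1
    have hBw : (B ∘ ofComplex) w ≠ 0 := (hts hw.1).1 hw.2
    have hmon := h97_monic_of_mul (e := fun i => e i (ofComplex w)) hBw (hF w hw.1 hw.2)
      (h (ofComplex w))
    refine (h97_norm_le_of_monic hmon one_pos).trans ?_
    gcongr with i _
    exact ((hts hw.1).2.2 i).le
  have hdiff := Complex.differentiableOn_update_limUnder_of_bddAbove htn hd hb
  have hGeq : ∀ w ∈ t, h97_G A B w =
      Function.update (h97_F A B) z₀ (limUnder (𝓝[≠] z₀) (h97_F A B)) w := by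
    intro w hw
    by_cases hne : w = z₀
    · subst hne
      rw [Function.update_self]
      rfl
    · rw [Function.update_of_ne hne]
      exact h97_G_eq_F hA hB (hts hw).2.1 ((hts hw).1 hne)
  have hGd : DifferentiableOn ℂ (h97_G A B) t := hdiff.congr hGeq
  refine ⟨hGd.differentiableAt htn, ?_⟩
  -- the identity at `z₀` by continuity
  have hcont : ContinuousAt (fun w => h97_G A B w * (B ∘ ofComplex) w - (A ∘ ofComplex) w) z₀ :=
    (((hGd.differentiableAt htn).continuousAt).mul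
      (h97_differentiableAt_comp_ofComplex hB hz₀).continuousAt).sub
      (h97_differentiableAt_comp_ofComplex hA hz₀).continuousAt
  have hzero : ∀ᶠ w in 𝓝[≠] z₀,
      h97_G A B w * (B ∘ ofComplex) w - (A ∘ ofComplex) w = 0 := by
    rw [eventually_nhdsWithin_iff]
    filter_upwards [htn] with w hw hne
    rw [h97_G_eq_F hA hB (hts hw).2.1 ((hts hw).1 hne), hF w hw hne, sub_self]
  have hlim1 := hcont.tendsto.mono_left (nhdsWithin_le_nhds (s := {z₀}ᶜ))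
  have hlim2 : Tendsto (fun w => h97_G A B w * (B ∘ ofComplex) w - (A ∘ ofComplex) w)
      (𝓝[≠] z₀) (𝓝 0) := (tendsto_congr' hzero).mpr tendsto_const_nhds
  exact sub_eq_zero.mp (tendsto_nhds_unique hlim1 hlim2)

/-- Core of the quotient lemma: the function `A / B`, its holomorphy, invariance and the monic
equation satisfied by all its `SL(2, ℤ)`-translates. -/
theorem h97_quot_core
    {Γ : Subgroup (GL (Fin 2) ℝ)} (hΓ : Γ ≤ 𝒮ℒ)
    {k b : ℤ} (A : ModularForm Γ (k + b)) (B : ModularForm 𝒮ℒ b) (hB : B ≠ 0)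
    (μ : ℕ) (e : Fin μ → ℍ → ℂ)
    (he_cont : ∀ i, Continuous (e i))
    (he_slash : ∀ (i : Fin μ) (γ : SL(2, ℤ)), e i ∣[((i : ℕ) + 1 : ℤ) * k] γ = e i)
    (h : ∀ τ : ℍ, A τ ^ μ + ∑ i : Fin μ, e i τ * A τ ^ (μ - 1 - (i : ℕ)) * B τ ^ ((i : ℕ) + 1) = 0) :
    ∃ g : ℍ → ℂ, MDiff g ∧ (∀ τ : ℍ, g τ * B τ = A τ) ∧ (∀ γ ∈ Γ, g ∣[k] γ = g) ∧
      ∀ (δ : SL(2, ℤ)) (τ : ℍ), ((g ∣[k] δ) τ) ^ μ +
        ∑ i : Fin μ, e i τ * ((g ∣[k] δ) τ) ^ (μ - 1 - (i : ℕ)) = 0 := by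
  have hA : MDiff (A : ℍ → ℂ) := A.holo'
  have hBh : MDiff (B : ℍ → ℂ) := B.holo'
  have hB0 : (B : ℍ → ℂ) ≠ 0 := fun h0 => hB (DFunLike.coe_injective h0)
  set g : ℍ → ℂ := fun τ => h97_G A B (τ : ℂ) with hg
  have hloc := fun (z : ℂ) (hz : 0 < z.im) => h97_local hA hBh hB0 he_cont h hz
  have hmul : ∀ τ : ℍ, g τ * B τ = A τ := by
    intro τ
    have := (hloc τ τ.im_pos).2
    simpa [hg] using this
  have hgd : MDiff g := by
    rw [mdifferentiable_iff]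
    intro z hz
    have := ((hloc z hz).1).differentiableWithinAt (s := {z : ℂ | 0 < z.im})
    refine this.congr (fun w hw => ?_) ?_
    · simp [hg, ofComplex_apply_of_im_pos hw]
    · simp [hg, ofComplex_apply_of_im_pos hz]
  have hgc : Continuous g := hgd.continuous
  have hmon : ∀ τ : ℍ, g τ ^ μ + ∑ i : Fin μ, e i τ * g τ ^ (μ - 1 - (i : ℕ)) = 0 := by
    have hF : Continuous
        (fun τ : ℍ => g τ ^ μ + ∑ i : Fin μ, e i τ * g τ ^ (μ - 1 - (i : ℕ))) :=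
      (hgc.pow μ).add (continuous_finsetSum _ fun i _ => (he_cont i).mul (hgc.pow _))
    have := h97_eq_zero_of_continuous hBh hB0 hF
      (fun τ hτ => h97_monic_of_mul hτ (hmul τ) (h τ))
    exact fun τ => congrFun this τ
  have hprod : g * (B : ℍ → ℂ) = A := funext hmul
  refine ⟨g, hgd, hmul, ?_, ?_⟩
  · intro γ hγ
    obtain ⟨γ', rfl⟩ := hΓ hγ
    have hAγ : (A : ℍ → ℂ) ∣[k + b] γ' = A := SlashInvariantFormClass.slash_action_eq A _ hγ
    have hBγ : (B : ℍ → ℂ) ∣[b] γ' = B :=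
      SlashInvariantFormClass.slash_action_eq B _ ⟨γ', rfl⟩
    have h1 : (g ∣[k] γ') * (B : ℍ → ℂ) = A := by
      have := mul_slash_SL2 k b γ' g B
      rw [hprod, hAγ, hBγ] at this
      exact this.symm
    have hF : Continuous (g ∣[k] γ' - g) := ((hgd.slash k _).continuous).sub hgc
    have := h97_eq_zero_of_continuous hBh hB0 hF (fun τ hτ => by
      have h2 := congrFun h1 τ
      simp only [Pi.mul_apply] at h2
      have h3 : (g ∣[k] γ') τ * B τ = g τ * B τ := by rw [h2, hmul τ]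
      have h4 := mul_right_cancel₀ hτ h3
      simp [h4])
    exact sub_eq_zero.mp this
  · intro δ τ
    have h1 := hmon (δ • τ)
    have he : ∀ i : Fin μ,
        e i τ = e i (δ • τ) * denom δ τ ^ (-(((i : ℕ) + 1 : ℤ) * k)) := by
      intro i
      have := congrFun (he_slash i δ) τ
      rw [SL_slash_apply] at this
      exact this.symm
    rw [SL_slash_apply]
    have key : (g (δ • τ) * denom δ τ ^ (-k)) ^ μ +
        ∑ i : Fin μ, e i τ * (g (δ • τ) * denom δ τ ^ (-k)) ^ (μ - 1 - (i : ℕ)) =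
        (denom δ τ ^ (-k)) ^ μ * (g (δ • τ) ^ μ +
          ∑ i : Fin μ, e i (δ • τ) * g (δ • τ) ^ (μ - 1 - (i : ℕ))) := by
      rw [mul_add, Finset.mul_sum, mul_pow]
      congr 1
      · ring
      · refine Finset.sum_congr rfl fun i _ => ?_
        rw [he i, mul_pow]
        have h2 : denom δ τ ^ (-(((i : ℕ) + 1 : ℤ) * k)) =
            (denom δ τ ^ (-k)) ^ ((i : ℕ) + 1) := by
          rw [← zpow_natCast, ← zpow_mul]
          congr 1
          push_cast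
          ring
        have hi : (denom δ τ ^ (-k)) ^ μ =
            (denom δ τ ^ (-k)) ^ (μ - 1 - (i : ℕ)) * (denom δ τ ^ (-k)) ^ ((i : ℕ) + 1) := by
          rw [← pow_add]
          congr 1
          have := i.2
          omega
        rw [h2, hi]
        ring
    rw [key, h1, mul_zero]

/-- Quotient lemma, cusp form version: `A / B` is a cusp form as soon as it is integral over
level-one cusp forms. -/
theorem h97_exists_cuspForm_mul_eq
    {Γ : Subgroup (GL (Fin 2) ℝ)} [Γ.IsArithmetic] (hΓ : Γ ≤ 𝒮ℒ)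
    {k b : ℤ} (A : ModularForm Γ (k + b)) (B : ModularForm 𝒮ℒ b) (hB : B ≠ 0)
    (μ : ℕ) (e : Fin μ → ℍ → ℂ)
    (he_cont : ∀ i, Continuous (e i))
    (he_slash : ∀ (i : Fin μ) (γ : SL(2, ℤ)), e i ∣[((i : ℕ) + 1 : ℤ) * k] γ = e i)
    (he_zero : ∀ i, IsZeroAtImInfty (e i))
    (h : ∀ τ : ℍ, A τ ^ μ + ∑ i : Fin μ, e i τ * A τ ^ (μ - 1 - (i : ℕ)) * B τ ^ ((i : ℕ) + 1) = 0) :
    ∃ g : CuspForm Γ k, ∀ τ : ℍ, g τ * B τ = A τ := by
  obtain ⟨g, hgd, hmul, hslash, hid⟩ := h97_quot_core hΓ A B hB μ e he_cont he_slash h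
  have hcusp : ∀ δ : SL(2, ℤ), IsZeroAtImInfty (g ∣[k] δ) := by
    intro δ
    rw [IsZeroAtImInfty, ZeroAtFilter, Metric.tendsto_nhds]
    intro ε hε
    have hsum : Tendsto (fun τ : ℍ => ∑ i : Fin μ, ‖e i τ‖ / (ε / 2) ^ (i : ℕ))
        atImInfty (𝓝 0) := by
      have h0 : (0 : ℝ) = ∑ i : Fin μ, (0 : ℝ) / (ε / 2) ^ (i : ℕ) := by simp
      rw [h0]
      refine tendsto_finsetSum _ fun i _ => Tendsto.div_const ?_ _
      have := (he_zero i)
      rw [IsZeroAtImInfty, ZeroAtFilter] at this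
      simpa using this.norm
    filter_upwards [hsum.eventually_lt_const (half_pos hε)] with τ hτ
    have := h97_norm_le_of_monic (hid δ τ) (half_pos hε)
    rw [dist_zero_right]
    linarith
  refine ⟨{ toFun := g
            slash_action_eq' := hslash
            holo' := hgd
            zero_at_cusps' := ?_ }, hmul⟩
  intro c hc
  have hc' : IsCusp c 𝒮ℒ := (Subgroup.IsArithmetic.isCusp_iff_isCusp_SL2Z Γ).mp hc
  rw [OnePoint.isZeroAt_iff_forall_SL2Z hc']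
  intro γ _
  exact hcusp γ

/-- Quotient lemma, modular form version: `A / B` is a modular form as soon as it is integral
over level-one modular forms. -/
theorem h97_exists_modularForm_mul_eq
    {Γ : Subgroup (GL (Fin 2) ℝ)} [Γ.IsArithmetic] (hΓ : Γ ≤ 𝒮ℒ)
    {k b : ℤ} (A : ModularForm Γ (k + b)) (B : ModularForm 𝒮ℒ b) (hB : B ≠ 0)
    (μ : ℕ) (e : Fin μ → ℍ → ℂ)
    (he_cont : ∀ i, Continuous (e i))
    (he_slash : ∀ (i : Fin μ) (γ : SL(2, ℤ)), e i ∣[((i : ℕ) + 1 : ℤ) * k] γ = e i)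
    (he_bdd : ∀ i, IsBoundedAtImInfty (e i))
    (h : ∀ τ : ℍ, A τ ^ μ + ∑ i : Fin μ, e i τ * A τ ^ (μ - 1 - (i : ℕ)) * B τ ^ ((i : ℕ) + 1) = 0) :
    ∃ g : ModularForm Γ k, ∀ τ : ℍ, g τ * B τ = A τ := by
  obtain ⟨g, hgd, hmul, hslash, hid⟩ := h97_quot_core hΓ A B hB μ e he_cont he_slash h
  have hcusp : ∀ δ : SL(2, ℤ), IsBoundedAtImInfty (g ∣[k] δ) := by
    intro δ
    have hb : ∀ i : Fin μ, ∃ C : ℝ, ∀ᶠ τ in atImInfty, ‖e i τ‖ ≤ C := by
      intro i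
      have := he_bdd i
      rw [IsBoundedAtImInfty, BoundedAtFilter, Asymptotics.isBigO_iff] at this
      obtain ⟨C, hC⟩ := this
      exact ⟨C, hC.mono fun τ hτ => by simpa using hτ⟩
    choose C hC using hb
    rw [IsBoundedAtImInfty, BoundedAtFilter, Asymptotics.isBigO_iff]
    refine ⟨1 + ∑ i : Fin μ, C i / 1 ^ (i : ℕ), ?_⟩
    filter_upwards [eventually_all.mpr hC] with τ hτ
    have := h97_norm_le_of_monic (hid δ τ) one_pos
    simp only [Pi.one_apply, norm_one, mul_one]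
    refine this.trans ?_
    gcongr with i _
    exact hτ i
  refine ⟨{ toFun := g
            slash_action_eq' := hslash
            holo' := hgd
            bdd_at_cusps' := ?_ }, hmul⟩
  intro c hc
  have hc' : IsCusp c 𝒮ℒ := (Subgroup.IsArithmetic.isCusp_iff_isCusp_SL2Z Γ).mp hc
  rw [OnePoint.isBoundedAt_iff_forall_SL2Z hc']
  intro γ _
  exact hcusp γ

end Fermat.Agent.S23
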