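import Fermat.Agent.S23.h40_Conj
import Fermat.Prelude.Def_ModularForm_HeckeOperator

namespace Fermat.Agent.S23

open UpperHalfPlane ModularForm Filter Complex
open scoped MatrixGroups Real Topology Manifold

local notation "Δ" => ModularForm.discriminant

/-- `h40_alpha N` is the Prelude's `ModularForm.heckeDiagMatrix N = diag(N,1)`. -/
lemma h40_alpha_eq_heckeDiagMatrix (N : ℕ) [NeZero N] :
    h40_alpha N = ModularForm.heckeDiagMatrix N := by
  apply Units.ext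
  rw [ModularForm.val_heckeDiagMatrix (NeZero.ne N)]
  simp [h40_alpha, h40_upper, Matrix.GeneralLinearGroup.mkOfDetNeZero]

/-- The stabiliser in `SL(2, ℤ)` of `Δ ∣[12] diag(N,1)` is contained in `Γ₀(N)`
(Prelude matrix version). -/
theorem h40_mem_Gamma0_of_slash_heckeDiag_eq (N : ℕ) [NeZero N] (γ : SL(2, ℤ))
    (h : (Δ ∣[(12 : ℤ)] ModularForm.heckeDiagMatrix N) ∣[(12 : ℤ)] γ =
      Δ ∣[(12 : ℤ)] ModularForm.heckeDiagMatrix N) :
    γ ∈ CongruenceSubgroup.Gamma0 N := by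
  rw [← h40_alpha_eq_heckeDiagMatrix] at h
  exact h40_mem_Gamma0_of_slash_alpha_eq N γ h

/-- Stabiliser statement for any nonzero multiple of `Δ ∣[12] diag(N,1)`. -/
theorem h40_mem_Gamma0_of_slash_eq_of_eq_smul (N : ℕ) [NeZero N] {x : ℍ → ℂ} {c : ℂ} (hc : c ≠ 0)
    (hx : x = c • (Δ ∣[(12 : ℤ)] ModularForm.heckeDiagMatrix N)) (γ : SL(2, ℤ))
    (h : x ∣[(12 : ℤ)] γ = x) : γ ∈ CongruenceSubgroup.Gamma0 N := by
  subst hx
  rw [ModularForm.SL_smul_slash] at h
  exact h40_mem_Gamma0_of_slash_heckeDiag_eq N γ (smul_right_injective _ hc h)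

/-- Distinct conjugates (Prelude matrix version of `h40_quotientFunc_injective`). -/
theorem h40_quotientFunc_injective_heckeDiag (N : ℕ) [NeZero N] {F : Type*} [FunLike F ℍ ℂ]
    [SlashInvariantFormClass F
      ((CongruenceSubgroup.Gamma0 N : Subgroup SL(2, ℤ)) : Subgroup (GL (Fin 2) ℝ)) 12]
    (f : F) {c : ℂ} (hc : c ≠ 0)
    (hf : (f : ℍ → ℂ) = c • (Δ ∣[(12 : ℤ)] ModularForm.heckeDiagMatrix N)) :
    Function.Injective (SlashInvariantForm.quotientFunc (ℋ := 𝒮ℒ)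
      (𝒢 := ((CongruenceSubgroup.Gamma0 N : Subgroup SL(2, ℤ)) : Subgroup (GL (Fin 2) ℝ)))
      (k := 12) f) := by
  rw [← h40_alpha_eq_heckeDiagMatrix] at hf
  exact h40_quotientFunc_injective N f hc hf

/-- Holomorphy of the conjugates of a modular form. -/
lemma h40_mdiff_quotientFunc {𝒢 ℋ : Subgroup (GL (Fin 2) ℝ)} {F : Type*} [FunLike F ℍ ℂ] {k : ℤ}
    [ModularFormClass F 𝒢 k] (f : F) (q : ℋ ⧸ 𝒢.subgroupOf ℋ) :
    MDiff (SlashInvariantForm.quotientFunc f q) := by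
  induction q using Quotient.inductionOn with
  | h r => exact (ModularForm.translate f r.val⁻¹).holo'

/-- **A point separating all conjugates.** If the conjugates `quotientFunc f q` of a modular
form are pairwise distinct functions, there is a point `τ` at which they take pairwise
distinct values. -/
theorem h40_exists_injective_of_injective {𝒢 ℋ : Subgroup (GL (Fin 2) ℝ)} [𝒢.IsFiniteRelIndex ℋ]
    {F : Type*} [FunLike F ℍ ℂ] {k : ℤ} [ModularFormClass F 𝒢 k] (f : F)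
    (hinj : Function.Injective (SlashInvariantForm.quotientFunc (ℋ := ℋ) (𝒢 := 𝒢) (k := k) f)) :
    ∃ τ : ℍ, Function.Injective
      (fun q : ℋ ⧸ 𝒢.subgroupOf ℋ => SlashInvariantForm.quotientFunc f q τ) := by
  classical
  let _ := Fintype.ofFinite (ℋ ⧸ 𝒢.subgroupOf ℋ)
  set S : Finset ((ℋ ⧸ 𝒢.subgroupOf ℋ) × (ℋ ⧸ 𝒢.subgroupOf ℋ)) :=
    Finset.univ.filter (fun p => p.1 ≠ p.2) with hS
  set G : (ℋ ⧸ 𝒢.subgroupOf ℋ) × (ℋ ⧸ 𝒢.subgroupOf ℋ) → ℍ → ℂ :=
    fun p => SlashInvariantForm.quotientFunc f p.1 - SlashInvariantForm.quotientFunc f p.2 with hG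
  have hne : ∏ p ∈ S, G p ≠ 0 := by
    intro h0
    rw [UpperHalfPlane.prod_eq_zero_iff] at h0
    · obtain ⟨p, hp, hp0⟩ := h0
      simp only [hS, Finset.mem_filter, Finset.mem_univ, true_and] at hp
      exact hp (hinj (sub_eq_zero.mp hp0))
    · intro p _
      exact (h40_mdiff_quotientFunc f p.1).sub (h40_mdiff_quotientFunc f p.2)
  obtain ⟨τ, hτ⟩ : ∃ τ, (∏ p ∈ S, G p) τ ≠ 0 := by
    by_contra hcon
    push Not at hcon
    exact hne (funext hcon)
  refine ⟨τ, fun q₁ q₂ hq => ?_⟩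
  by_contra hq12
  apply hτ
  rw [Finset.prod_apply]
  refine Finset.prod_eq_zero (i := (q₁, q₂)) ?_ ?_
  · simp [hS, hq12]
  · simp only [hG, Pi.sub_apply]
    exact sub_eq_zero.mpr hq

/-- **Distinct conjugates of `Δ(Nτ)` at a point.** For `f` a weight 12 modular form on `Γ₀(N)`
equal to a nonzero multiple of `Δ ∣[12] diag(N,1)`, there is `τ` such that the values at `τ`
of the conjugates of `f` (indexed by `SL(2,ℤ) ⧸ Γ₀(N)`) are pairwise distinct. Consequently the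
Vandermonde determinant of the conjugates is not identically zero. -/
theorem h40_exists_injective_quotientFunc (N : ℕ) [NeZero N] {F : Type*} [FunLike F ℍ ℂ]
    [ModularFormClass F
      ((CongruenceSubgroup.Gamma0 N : Subgroup SL(2, ℤ)) : Subgroup (GL (Fin 2) ℝ)) 12]
    (f : F) {c : ℂ} (hc : c ≠ 0)
    (hf : (f : ℍ → ℂ) = c • (Δ ∣[(12 : ℤ)] ModularForm.heckeDiagMatrix N)) :
    ∃ τ : ℍ, Function.Injective
      (fun q : 𝒮ℒ ⧸ ((CongruenceSubgroup.Gamma0 N : Subgroup SL(2, ℤ)) :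
        Subgroup (GL (Fin 2) ℝ)).subgroupOf 𝒮ℒ => SlashInvariantForm.quotientFunc f q τ) :=
  h40_exists_injective_of_injective f (h40_quotientFunc_injective_heckeDiag N f hc hf)

/-- A point separating all conjugates, from the stabiliser hypothesis (generic form). -/
theorem h40_exists_injective_quotientFunc_of_stab (Γ : Subgroup SL(2, ℤ)) [Γ.FiniteIndex]
    {k : ℤ} {F : Type*} [FunLike F ℍ ℂ] [ModularFormClass F (Γ : Subgroup (GL (Fin 2) ℝ)) k]
    (f : F) (hstab : ∀ γ : SL(2, ℤ), (f : ℍ → ℂ) ∣[k] γ = (f : ℍ → ℂ) → γ ∈ Γ) :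
    ∃ τ : ℍ, Function.Injective
      (fun q : 𝒮ℒ ⧸ (Γ : Subgroup (GL (Fin 2) ℝ)).subgroupOf 𝒮ℒ =>
        SlashInvariantForm.quotientFunc f q τ) :=
  h40_exists_injective_of_injective f (h40_quotientFunc_injective_of_stab Γ f hstab)

/-- A point separating all conjugates of a weight 12 modular form on `Γ₀(N)` of the shape
`τ ↦ c * Δ(Nτ)`, `c ≠ 0`. -/
theorem h40_exists_injective_quotientFunc_of_eq (N : ℕ) [NeZero N] {F : Type*} [FunLike F ℍ ℂ]
    [ModularFormClass F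
      ((CongruenceSubgroup.Gamma0 N : Subgroup SL(2, ℤ)) : Subgroup (GL (Fin 2) ℝ)) 12]
    (f : F) (c : ℂ) (hc : c ≠ 0)
    (hf : ∀ τ : ℍ, f τ = c * ModularForm.discriminant
      (UpperHalfPlane.ofComplex ((N : ℂ) * (τ : ℂ)))) :
    ∃ τ : ℍ, Function.Injective
      (fun q : 𝒮ℒ ⧸ ((CongruenceSubgroup.Gamma0 N : Subgroup SL(2, ℤ)) :
        Subgroup (GL (Fin 2) ℝ)).subgroupOf 𝒮ℒ => SlashInvariantForm.quotientFunc f q τ) :=
  h40_exists_injective_of_injective f (h40_quotientFunc_injective_of_eq N f c hc hf)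

end Fermat.Agent.S23
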