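import Mathlib
import Fermat.Prelude.Def_ModularForm_HeckeOperator
import Fermat.Prelude.Thm_ModularForm_heckeT_slash_eq_self_of_mem_Gamma0
import Fermat.Prelude.Thm_CongruenceSubgroup_one_mem_strictPeriods_Gamma0

set_option autoImplicit false

namespace Fermat.Agent.S23

open UpperHalfPlane ModularForm CongruenceSubgroup Matrix.SpecialLinearGroup
open scoped ModularForm MatrixGroups Manifold Pointwise

local notation "Δ" => ModularForm.discriminant

/-- `Γ₀(N)` lies in the conjugate of `SL(2, ℤ)` by `diag(N, 1)`. -/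
theorem h96_Gamma0_le_conj (N : ℕ) [NeZero N] :
    (Gamma0 N : Subgroup (GL (Fin 2) ℝ)) ≤
      ConjAct.toConjAct (heckeDiagMatrix N)⁻¹ • (𝒮ℒ : Subgroup (GL (Fin 2) ℝ)) := by
  rintro x ⟨g, hg, rfl⟩
  have hcN : (N : ℤ) ∣ g 1 0 :=
    (ZMod.intCast_zmod_eq_zero_iff_dvd _ _).mp (Gamma0_mem.mp hg)
  obtain ⟨e, he⟩ := hcN
  obtain ⟨g', -, hmul⟩ :=
    P2MW.S_ModularForm_heckeT_slash_eq_self_of_mem_Gamma0.ModularForm.HeckeSlashInvariance.heckeDiagMatrix_mul_of_eq'
      (NeZero.ne N) g e he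
  rw [Subgroup.mem_pointwise_smul_iff_inv_smul_mem]
  refine ⟨g', ?_⟩
  simp only [ConjAct.smul_def, map_inv, ConjAct.ofConjAct_toConjAct, inv_inv]
  rw [hmul]
  simp

/-- The cusp form `τ ↦ N ^ 11 * Δ (N τ)` of weight 12 on `Γ₀(N)`. -/
noncomputable def h96_DeltaN (N : ℕ) [NeZero N] : CuspForm (Gamma0 N) 12 where
  toFun := CuspForm.translate CuspForm.discriminant (heckeDiagMatrix N)
  slash_action_eq' γ hγ :=
    (CuspForm.translate CuspForm.discriminant (heckeDiagMatrix N)).slash_action_eq' γ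
      (h96_Gamma0_le_conj N hγ)
  holo' := (CuspForm.translate CuspForm.discriminant (heckeDiagMatrix N)).holo'
  zero_at_cusps' hc :=
    (CuspForm.translate CuspForm.discriminant (heckeDiagMatrix N)).zero_at_cusps'
      (hc.mono (h96_Gamma0_le_conj N))

theorem h96_DeltaN_coe (N : ℕ) [NeZero N] :
    ⇑(h96_DeltaN N) = Δ ∣[(12 : ℤ)] heckeDiagMatrix N := rfl

theorem h96_DeltaN_apply (N : ℕ) [NeZero N] (τ : ℍ) :
    h96_DeltaN N τ = (N : ℂ) ^ 11 * Δ (heckeDiagMatrix N • τ) := by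
  rw [h96_DeltaN_coe, slash_heckeDiagMatrix_apply 12 (NeZero.ne N)]
  norm_num

theorem h96_qParam_heckeDiag (N : ℕ) [NeZero N] (τ : ℍ) :
    Function.Periodic.qParam 1 ((heckeDiagMatrix N • τ : ℍ) : ℂ) =
      Function.Periodic.qParam 1 (τ : ℂ) ^ N := by
  rw [coe_heckeDiagMatrix_smul (NeZero.ne N)]
  simp only [Function.Periodic.qParam, Complex.ofReal_one, div_one, ← Complex.exp_nat_mul]
  congr 1
  ring

/-- The `q`-expansion of `Δ_N`, as a convergent series. -/
theorem h96_DeltaN_hasSum (N : ℕ) [NeZero N] (τ : ℍ) :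
    HasSum (fun n : ℕ =>
      (if N ∣ n then (N : ℂ) ^ 11 * (qExpansion 1 Δ).coeff (n / N) else 0) •
        Function.Periodic.qParam 1 (τ : ℂ) ^ n) (h96_DeltaN N τ) := by
  have hN : 0 < N := Nat.pos_of_ne_zero (NeZero.ne N)
  have h1 := ModularForm.hasSum_qExpansion (f := CuspForm.discriminant) (h := 1) one_pos
    one_mem_strictPeriods_SL (heckeDiagMatrix N • τ)
  rw [h96_qParam_heckeDiag] at h1
  have h2 := h1.mul_left ((N : ℂ) ^ 11)
  rw [h96_DeltaN_apply]
  have hinj : Function.Injective (fun m : ℕ => N * m) := fun a b hab =>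
    Nat.eq_of_mul_eq_mul_left hN hab
  refine (hinj.hasSum_iff ?_).mp ?_
  · intro n hn
    have : ¬ N ∣ n := fun ⟨m, hm⟩ => hn ⟨m, hm.symm⟩
    rw [if_neg this, zero_smul]
  · have hfun : ((fun n : ℕ =>
        (if N ∣ n then (N : ℂ) ^ 11 * (qExpansion 1 Δ).coeff (n / N) else 0) •
          Function.Periodic.qParam 1 (τ : ℂ) ^ n) ∘ fun m : ℕ => N * m) =
        fun i : ℕ => (N : ℂ) ^ 11 * ((qExpansion 1 ⇑CuspForm.discriminant).coeff i *
          (Function.Periodic.qParam 1 (τ : ℂ) ^ N) ^ i) := by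
      funext m
      simp only [Function.comp_apply, dvd_mul_right, if_true, Nat.mul_div_cancel_left _ hN,
        smul_eq_mul, pow_mul, CuspForm.coe_discriminant]
      ring
    rw [hfun]
    exact h2

theorem h96_DeltaN_qExpansion_coeff (N : ℕ) [NeZero N] (n : ℕ) :
    (qExpansion 1 (h96_DeltaN N)).coeff n =
      if N ∣ n then (N : ℂ) ^ 11 * (qExpansion 1 Δ).coeff (n / N) else 0 :=
  (ModularFormClass.qExpansion_coeff_unique one_pos
    (CongruenceSubgroup.one_mem_strictPeriods_Gamma0 N) (f := h96_DeltaN N)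
    (h96_DeltaN_hasSum N) n).symm

/-- A complex power series all of whose coefficients are rational numbers. -/
def h96_IsRat (p : PowerSeries ℂ) : Prop := ∀ n : ℕ, ∃ r : ℚ, p.coeff n = (r : ℂ)

theorem h96_isRat_iff (p : PowerSeries ℂ) :
    h96_IsRat p ↔ p ∈ (PowerSeries.map (algebraMap ℚ ℂ)).range := by
  constructor
  · intro h
    choose r hr using h
    refine ⟨PowerSeries.mk r, ?_⟩
    ext n
    rw [PowerSeries.coeff_map, PowerSeries.coeff_mk, hr n]
    rfl
  · rintro ⟨φ, rfl⟩ n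
    exact ⟨φ.coeff n, by rw [PowerSeries.coeff_map]; rfl⟩

theorem h96_IsRat.add {p q : PowerSeries ℂ} (hp : h96_IsRat p) (hq : h96_IsRat q) :
    h96_IsRat (p + q) := by
  rw [h96_isRat_iff] at *
  exact add_mem hp hq

theorem h96_IsRat.sub {p q : PowerSeries ℂ} (hp : h96_IsRat p) (hq : h96_IsRat q) :
    h96_IsRat (p - q) := by
  rw [h96_isRat_iff] at *
  exact sub_mem hp hq

theorem h96_IsRat.mul {p q : PowerSeries ℂ} (hp : h96_IsRat p) (hq : h96_IsRat q) :
    h96_IsRat (p * q) := by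
  rw [h96_isRat_iff] at *
  exact mul_mem hp hq

theorem h96_IsRat.pow {p : PowerSeries ℂ} (hp : h96_IsRat p) (n : ℕ) :
    h96_IsRat (p ^ n) := by
  rw [h96_isRat_iff] at *
  exact pow_mem hp n

theorem h96_IsRat.smul_rat {p : PowerSeries ℂ} (hp : h96_IsRat p) (r : ℚ) :
    h96_IsRat ((r : ℂ) • p) := by
  intro n
  obtain ⟨s, hs⟩ := hp n
  exact ⟨r * s, by rw [PowerSeries.coeff_smul, hs, smul_eq_mul]; push_cast; ring⟩

theorem h96_isRat_zero : h96_IsRat 0 := fun n => ⟨0, by simp⟩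

theorem h96_isRat_one : h96_IsRat 1 := by
  rw [h96_isRat_iff]
  exact one_mem _

open EisensteinSeries in
theorem h96_E_isRat {k : ℕ} (hk : 3 ≤ k) (hk2 : Even k) : h96_IsRat (qExpansion 1 (E hk)) := by
  intro m
  rw [E_qExpansion_coeff hk hk2 m]
  refine ⟨if m = 0 then 1 else -(2 * k / bernoulli k) * (ArithmeticFunction.sigma (k - 1) m), ?_⟩
  split_ifs <;> push_cast <;> rfl

open EisensteinSeries in
theorem h96_discriminant_qExpansion :
    qExpansion 1 Δ = (1 / 1728 : ℂ) • (qExpansion 1 E₄ ^ 3 - qExpansion 1 E₆ ^ 2) := by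
  set g : ModularForm 𝒮ℒ 12 :=
    ModularForm.mcast (by decide) (E₄.pow 3) - ModularForm.mcast (by decide) (E₆.pow 2) with hg
  have hΔ : (Δ : ℍ → ℂ) = ⇑((1 / 1728 : ℂ) • g) := by
    funext z
    rw [ModularForm.discriminant_eq_E₄_cube_sub_E₆_sq z]
    simp only [hg, _root_.smul_apply, sub_apply, coe_mcast, ModularForm.coe_pow,
      Pi.pow_apply, smul_eq_mul]
    ring
  rw [hΔ, show (⇑((1 / 1728 : ℂ) • g) : ℍ → ℂ) = (1 / 1728 : ℂ) • ⇑g from rfl,
    ModularForm.qExpansion_smul one_pos one_mem_strictPeriods_SL]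
  congr 1
  simp only [hg, FunLike.coe_sub, coe_mcast,
    ModularForm.qExpansion_sub one_pos one_mem_strictPeriods_SL,
    ModularForm.qExpansion_pow one_pos one_mem_strictPeriods_SL]

theorem h96_discriminant_isRat : h96_IsRat (qExpansion 1 Δ) := by
  rw [h96_discriminant_qExpansion]
  have h := ((h96_E_isRat (by norm_num : 3 ≤ 4) ⟨2, rfl⟩).pow 3).sub
    ((h96_E_isRat (by norm_num : 3 ≤ 6) ⟨3, rfl⟩).pow 2)
  have h2 := h.smul_rat (1 / 1728)
  convert h2 using 2
  push_cast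
  rfl

theorem h96_discriminant_coeff_rat (n : ℕ) :
    ∃ r : ℚ, (qExpansion 1 Δ).coeff n = (r : ℂ) := h96_discriminant_isRat n

theorem h96_DeltaN_isRat (N : ℕ) [NeZero N] : h96_IsRat (qExpansion 1 (h96_DeltaN N)) := by
  intro n
  rw [h96_DeltaN_qExpansion_coeff]
  split_ifs
  · obtain ⟨r, hr⟩ := h96_discriminant_isRat (n / N)
    exact ⟨(N : ℚ) ^ 11 * r, by rw [hr]; push_cast; ring⟩
  · exact ⟨0, by simp⟩

theorem h96_DeltaN_coeff_rat (N : ℕ) [NeZero N] (n : ℕ) :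
    ∃ r : ℚ, (qExpansion 1 (h96_DeltaN N)).coeff n = (r : ℂ) := h96_DeltaN_isRat N n

end Fermat.Agent.S23
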