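import Mathlib
import Fermat.Statements.S23
import Fermat.Prelude.Thm_CongruenceSubgroup_one_mem_strictPeriods_Gamma0

set_option autoImplicit false

open UpperHalfPlane ModularForm
open scoped MatrixGroups ModularForm Manifold

namespace Fermat.Agent.S23

/-- Holomorphic, `1`-periodic and bounded at `i∞`: the class of functions on which
`qExpansion 1` is an injective ring homomorphism. -/
structure h22_Nice (F : ℍ → ℂ) : Prop where
  mdiff : MDiff F
  per : Function.Periodic (F ∘ ofComplex) 1
  bdd : IsBoundedAtImInfty F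

namespace h22_Nice

variable {F G : ℍ → ℂ}

theorem analytic (hF : h22_Nice F) : AnalyticAt ℂ (cuspFunction 1 F) 0 :=
  analyticAt_cuspFunction_zero one_pos hF.per hF.mdiff hF.bdd

theorem zero : h22_Nice (0 : ℍ → ℂ) where
  mdiff := mdifferentiable_const
  per := fun _ => rfl
  bdd := by
    simpa [IsBoundedAtImInfty] using (Filter.const_boundedAtFilter atImInfty (0 : ℂ))

theorem const (c : ℂ) : h22_Nice (fun _ : ℍ => c) where
  mdiff := mdifferentiable_const
  per := fun _ => rfl
  bdd := Filter.const_boundedAtFilter atImInfty c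

theorem one : h22_Nice (1 : ℍ → ℂ) := const 1

theorem add (hF : h22_Nice F) (hG : h22_Nice G) : h22_Nice (F + G) where
  mdiff := hF.mdiff.add hG.mdiff
  per := fun x => by
    have h1 := hF.per x
    have h2 := hG.per x
    simp only [Function.comp_apply, Pi.add_apply] at h1 h2 ⊢
    rw [h1, h2]
  bdd := hF.bdd.add hG.bdd

theorem mul (hF : h22_Nice F) (hG : h22_Nice G) : h22_Nice (F * G) where
  mdiff := hF.mdiff.mul hG.mdiff
  per := fun x => by
    have h1 := hF.per x
    have h2 := hG.per x
    simp only [Function.comp_apply, Pi.mul_apply] at h1 h2 ⊢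
    rw [h1, h2]
  bdd := hF.bdd.mul hG.bdd

theorem smul (c : ℂ) (hF : h22_Nice F) : h22_Nice (c • F) := by
  have : c • F = (fun _ : ℍ => c) * F := by
    ext τ; simp
  rw [this]
  exact (const c).mul hF

theorem neg (hF : h22_Nice F) : h22_Nice (-F) := by
  have : -F = (-1 : ℂ) • F := by ext τ; simp
  rw [this]
  exact hF.smul _

theorem sub (hF : h22_Nice F) (hG : h22_Nice G) : h22_Nice (F - G) := by
  rw [sub_eq_add_neg]
  exact hF.add hG.neg

theorem pow (hF : h22_Nice F) (n : ℕ) : h22_Nice (F ^ n) := by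
  induction n with
  | zero => simpa using one
  | succ n ih => rw [pow_succ]; exact ih.mul hF

theorem sum {ι : Type*} (s : Finset ι) {F : ι → ℍ → ℂ} (hF : ∀ i ∈ s, h22_Nice (F i)) :
    h22_Nice (∑ i ∈ s, F i) := by
  classical
  induction s using Finset.induction_on with
  | empty => simpa using zero
  | insert a s ha ih =>
    rw [Finset.sum_insert ha]
    exact (hF a (Finset.mem_insert_self a s)).add
      (ih fun i hi => hF i (Finset.mem_insert_of_mem hi))

theorem qExpansion_add (hF : h22_Nice F) (hG : h22_Nice G) :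
    qExpansion 1 (F + G) = qExpansion 1 F + qExpansion 1 G :=
  UpperHalfPlane.qExpansion_add hF.analytic hG.analytic

theorem qExpansion_mul (hF : h22_Nice F) (hG : h22_Nice G) :
    qExpansion 1 (F * G) = qExpansion 1 F * qExpansion 1 G :=
  UpperHalfPlane.qExpansion_mul hF.analytic hG.analytic

theorem qExpansion_smul (c : ℂ) (hF : h22_Nice F) :
    qExpansion 1 (c • F) = c • qExpansion 1 F :=
  UpperHalfPlane.qExpansion_smul hF.analytic c

theorem qExpansion_pow (hF : h22_Nice F) (n : ℕ) :
    qExpansion 1 (F ^ n) = qExpansion 1 F ^ n := by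
  induction n with
  | zero => simpa using UpperHalfPlane.qExpansion_one 1
  | succ n ih => rw [pow_succ, (hF.pow n).qExpansion_mul hF, ih, pow_succ]

theorem qExpansion_sum {ι : Type*} (s : Finset ι) {F : ι → ℍ → ℂ}
    (hF : ∀ i ∈ s, h22_Nice (F i)) :
    qExpansion 1 (∑ i ∈ s, F i) = ∑ i ∈ s, qExpansion 1 (F i) := by
  classical
  induction s using Finset.induction_on with
  | empty => simpa using UpperHalfPlane.qExpansion_zero 1
  | insert a s ha ih =>
    rw [Finset.sum_insert ha, Finset.sum_insert ha,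
      (hF a (Finset.mem_insert_self a s)).qExpansion_add
        (sum s fun i hi => hF i (Finset.mem_insert_of_mem hi)),
      ih fun i hi => hF i (Finset.mem_insert_of_mem hi)]

theorem eq_zero_of_qExpansion (hF : h22_Nice F) (h : qExpansion 1 F = 0) : F = 0 :=
  (UpperHalfPlane.qExpansion_eq_zero_iff one_pos hF.per hF.mdiff hF.bdd).mp h

theorem eq_of_qExpansion (hF : h22_Nice F) (hG : h22_Nice G)
    (h : qExpansion 1 F = qExpansion 1 G) : F = G := by
  have h1 : qExpansion 1 (F - G) = 0 := by
    rw [UpperHalfPlane.qExpansion_sub hF.analytic hG.analytic, h, sub_self]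
  exact sub_eq_zero.mp ((hF.sub hG).eq_zero_of_qExpansion h1)

end h22_Nice

/-- Modular forms on a group with strict period `1` are nice. -/
theorem h22_nice_of_modularFormClass {F : Type*} [FunLike F ℍ ℂ] {Γ : Subgroup (GL (Fin 2) ℝ)}
    {k : ℤ} [ModularFormClass F Γ k] (hΓ : (1 : ℝ) ∈ Γ.strictPeriods) (f : F) :
    h22_Nice (f : ℍ → ℂ) :=
  have : Fact (IsCusp OnePoint.infty Γ) := ⟨Γ.isCusp_of_mem_strictPeriods one_pos hΓ⟩
  { mdiff := ModularFormClass.holo f
    per := SlashInvariantFormClass.periodic_comp_ofComplex f hΓ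
    bdd := ModularFormClass.bdd_at_infty f }

theorem h22_nice_levelOne {F : Type*} [FunLike F ℍ ℂ] {k : ℤ} [ModularFormClass F 𝒮ℒ k] (f : F) :
    h22_Nice (f : ℍ → ℂ) :=
  h22_nice_of_modularFormClass one_mem_strictPeriods_SL f

theorem h22_nice_Gamma0 {F : Type*} [FunLike F ℍ ℂ] {N : ℕ} {k : ℤ}
    [ModularFormClass F (CongruenceSubgroup.Gamma0 N) k] (f : F) :
    h22_Nice (f : ℍ → ℂ) :=
  h22_nice_of_modularFormClass (CongruenceSubgroup.one_mem_strictPeriods_Gamma0 N) f

end Fermat.Agent.S23
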