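import Mathlib

set_option autoImplicit false

namespace Fermat.Agent.S23

open PowerSeries

/-- A rational number all of whose powers have a common denominator is an integer. -/
theorem h85_rat_int_of_pow (r : ℚ) (m : ℤ) (hm : m ≠ 0)
    (h : ∀ n : ℕ, ∃ z : ℤ, (m : ℚ) * r ^ n = z) : ∃ z : ℤ, r = z := by
  have hden : r.den = 1 := by
    by_contra hne
    have hb2 : 2 ≤ r.den := by
      have := r.den_pos
      omega
    obtain ⟨z, hz⟩ := h m.natAbs
    have hr : r = (r.num : ℚ) / (r.den : ℚ) := (Rat.num_div_den r).symm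
    have hdq : (r.den : ℚ) ≠ 0 := by exact_mod_cast r.den_ne_zero
    rw [hr, div_pow] at hz
    have hz' : (m : ℚ) * (r.num : ℚ) ^ m.natAbs = z * (r.den : ℚ) ^ m.natAbs := by
      field_simp at hz
      linarith
    have hz'' : m * r.num ^ m.natAbs = z * (r.den : ℤ) ^ m.natAbs := by exact_mod_cast hz'
    have hcop : IsCoprime ((r.den : ℤ) ^ m.natAbs) (r.num ^ m.natAbs) := by
      apply IsCoprime.pow
      rw [Int.isCoprime_iff_gcd_eq_one]
      have := r.reduced
      rw [Nat.Coprime] at this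
      rw [Int.gcd_comm]
      simpa [Int.gcd] using this
    have hdvd : ((r.den : ℤ) ^ m.natAbs) ∣ m := by
      apply hcop.dvd_of_dvd_mul_right
      exact ⟨z, by rw [hz'']; ring⟩
    have hle : ((r.den : ℤ) ^ m.natAbs).natAbs ≤ m.natAbs :=
      Int.natAbs_le_of_dvd_ne_zero hdvd hm
    rw [Int.natAbs_pow, Int.natAbs_natCast] at hle
    have hlt : m.natAbs < r.den ^ m.natAbs :=
      lt_of_lt_of_le (Nat.lt_two_pow_self) (Nat.pow_le_pow_left hb2 _)
    omega
  exact ⟨r.num, by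
    conv_lhs => rw [← Rat.num_div_den r]
    rw [hden]; simp⟩


/-- The subring of rational power series with integer coefficients. -/
noncomputable def h85IntSeries : Subring (PowerSeries ℚ) := (PowerSeries.map (Int.castRingHom ℚ)).range

theorem h85_mem_intSeries_iff (g : PowerSeries ℚ) :
    g ∈ h85IntSeries ↔ ∀ n, ∃ z : ℤ, coeff n g = z := by
  constructor
  · rintro ⟨h, rfl⟩ n
    exact ⟨coeff n h, by simp⟩
  · intro h
    choose z hz using h
    refine ⟨PowerSeries.mk z, ?_⟩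
    ext n
    simp [hz n]

theorem h85_coeff_low (c : PowerSeries ℤ) (hc : c ≠ 0) (g : PowerSeries ℚ) (k : ℕ)
    (hlow : ∀ i < k, coeff i g = 0)
    (H : ∀ n : ℕ, PowerSeries.map (Int.castRingHom ℚ) c * g ^ n ∈ h85IntSeries) :
    ∃ z : ℤ, coeff k g = z := by
  classical
  have hex : ∃ n, coeff n c ≠ 0 := by
    by_contra hno
    exact hc (PowerSeries.ext fun n => by
      by_contra hne
      exact hno ⟨n, by simpa using hne⟩)
  set s := Nat.find hex with hs
  have hs_ne : coeff s c ≠ 0 := Nat.find_spec hex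
  have hs_min : ∀ i < s, coeff i c = 0 := fun i hi => by
    by_contra hne
    exact Nat.find_min hex hi hne
  obtain ⟨c₁, hc₁⟩ := (PowerSeries.X_pow_dvd_iff (n := s) (φ := c)).2 hs_min
  obtain ⟨g₁, hg₁⟩ := (PowerSeries.X_pow_dvd_iff (n := k) (φ := g)).2 hlow
  have hcs : coeff s c = coeff 0 c₁ := by
    rw [hc₁]
    have := PowerSeries.coeff_X_pow_mul c₁ s 0
    rw [zero_add] at this
    exact this
  have hgk : coeff k g = coeff 0 g₁ := by
    rw [hg₁]
    have := PowerSeries.coeff_X_pow_mul g₁ k 0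
    rw [zero_add] at this
    exact this
  apply h85_rat_int_of_pow (coeff k g) (coeff s c) hs_ne
  intro n
  obtain ⟨z, hz⟩ := (h85_mem_intSeries_iff _).1 (H n) (s + k * n)
  refine ⟨z, ?_⟩
  rw [← hz]
  have hprod : PowerSeries.map (Int.castRingHom ℚ) c * g ^ n
      = X ^ (s + k * n) * (PowerSeries.map (Int.castRingHom ℚ) c₁ * g₁ ^ n) := by
    rw [hc₁, hg₁, map_mul, map_pow, PowerSeries.map_X, mul_pow, pow_add, ← pow_mul]
    ring
  rw [hprod]
  have := PowerSeries.coeff_X_pow_mul (PowerSeries.map (Int.castRingHom ℚ) c₁ * g₁ ^ n) (s + k * n) 0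
  rw [zero_add] at this
  rw [this, hcs, hgk]
  have hcc : PowerSeries.constantCoeff (PowerSeries.map (Int.castRingHom ℚ) c₁)
      = ((PowerSeries.constantCoeff c₁ : ℤ) : ℚ) := by
    rw [← PowerSeries.coeff_zero_eq_constantCoeff_apply, PowerSeries.coeff_map,
      PowerSeries.coeff_zero_eq_constantCoeff_apply]
    rfl
  rw [PowerSeries.coeff_zero_eq_constantCoeff_apply, PowerSeries.coeff_zero_eq_constantCoeff_apply,
    PowerSeries.coeff_zero_eq_constantCoeff_apply, map_mul, map_pow, hcc]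

theorem h85_hyp_sub (c : PowerSeries ℤ) (g p : PowerSeries ℚ) (hp : p ∈ h85IntSeries)
    (H : ∀ n : ℕ, PowerSeries.map (Int.castRingHom ℚ) c * g ^ n ∈ h85IntSeries) :
    ∀ n : ℕ, PowerSeries.map (Int.castRingHom ℚ) c * (g - p) ^ n ∈ h85IntSeries := by
  intro n
  rw [sub_eq_add_neg, add_pow, Finset.mul_sum]
  refine Subring.sum_mem _ fun m _ => ?_
  have h1 : PowerSeries.map (Int.castRingHom ℚ) c * (g ^ m * (-p) ^ (n - m) * (n.choose m : PowerSeries ℚ))
      = (PowerSeries.map (Int.castRingHom ℚ) c * g ^ m) * ((-p) ^ (n - m) * (n.choose m : PowerSeries ℚ)) := by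
    ring
  rw [h1]
  refine Subring.mul_mem _ (H m) (Subring.mul_mem _ ?_ ?_)
  · exact Subring.pow_mem _ (Subring.neg_mem _ hp) _
  · exact natCast_mem _ _

/-- Almost integral elements of `ℚ⟦X⟧` over `ℤ⟦X⟧` are in `ℤ⟦X⟧`. -/
theorem h85_almost_integral (c : PowerSeries ℤ) (hc : c ≠ 0) (g : PowerSeries ℚ)
    (H : ∀ n : ℕ, PowerSeries.map (Int.castRingHom ℚ) c * g ^ n ∈ h85IntSeries) :
    g ∈ h85IntSeries := by
  classical
  rw [h85_mem_intSeries_iff]
  intro k
  induction k using Nat.strong_induction_on with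
  | _ k ih =>
    set p : PowerSeries ℚ := PowerSeries.mk (fun i => if i < k then coeff i g else 0) with hp
    have hpmem : p ∈ h85IntSeries := by
      rw [h85_mem_intSeries_iff]
      intro n
      by_cases hn : n < k
      · obtain ⟨z, hz⟩ := ih n hn
        exact ⟨z, by simp [hp, hn, hz]⟩
      · exact ⟨0, by simp [hp, hn]⟩
    have hlow : ∀ i < k, coeff i (g - p) = 0 := by
      intro i hi
      simp [hp, hi]
    obtain ⟨z, hz⟩ := h85_coeff_low c hc (g - p) k hlow (h85_hyp_sub c g p hpmem H)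
    refine ⟨z, ?_⟩
    rw [← hz]
    simp [hp]


theorem h85_integral_fraction (g : PowerSeries ℚ) (B₁ A₁ : PowerSeries ℤ) (hB : B₁ ≠ 0)
    (h : g * PowerSeries.map (Int.castRingHom ℚ) B₁ = PowerSeries.map (Int.castRingHom ℚ) A₁)
    (P : Polynomial (PowerSeries ℤ)) (hP : P.Monic)
    (hroot : P.eval₂ (PowerSeries.map (Int.castRingHom ℚ)) g = 0) : g ∈ h85IntSeries := by
  have hP1 : P ≠ 1 := by
    rintro rfl
    simp at hroot
  apply h85_almost_integral (B₁ ^ P.natDegree) (pow_ne_zero _ hB) g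
  intro n
  set R := (Polynomial.X ^ n : Polynomial (PowerSeries ℤ)) %ₘ P with hR
  have hRe : R.eval₂ (PowerSeries.map (Int.castRingHom ℚ)) g = g ^ n := by
    rw [hR, Polynomial.eval₂_modByMonic_eq_self_of_root hroot, Polynomial.eval₂_X_pow]
  have hdeg : R.natDegree < P.natDegree := Polynomial.natDegree_modByMonic_lt _ hP hP1
  rw [← hRe, Polynomial.eval₂_eq_sum_range, Finset.mul_sum]
  refine Subring.sum_mem _ fun i hi => ?_
  have hi' : i ≤ P.natDegree := by
    have := Finset.mem_range.1 hi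
    omega
  refine ⟨R.coeff i * B₁ ^ (P.natDegree - i) * A₁ ^ i, ?_⟩
  rw [map_mul, map_mul, map_pow, map_pow, map_pow, ← h]
  have : P.natDegree = (P.natDegree - i) + i := by omega
  conv_rhs => rw [this, pow_add]
  ring


/-- A rational power series has bounded denominators. -/
def h85BddDen (Y : PowerSeries ℚ) : Prop := ∃ M : ℤ, M ≠ 0 ∧ (M : ℚ) • Y ∈ h85IntSeries

theorem h85BddDen_of_mem {Y : PowerSeries ℚ} (h : Y ∈ h85IntSeries) : h85BddDen Y :=
  ⟨1, one_ne_zero, by simpa using h⟩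

theorem h85_int_smul_mem {Y : PowerSeries ℚ} (h : Y ∈ h85IntSeries) (z : ℤ) :
    (z : ℚ) • Y ∈ h85IntSeries := by
  have : (z : ℚ) • Y = (z : PowerSeries ℚ) * Y := by
    rw [PowerSeries.smul_eq_C_mul, map_intCast]
  rw [this]
  exact Subring.mul_mem _ (intCast_mem _ _) h

theorem h85BddDen_zero : h85BddDen 0 := h85BddDen_of_mem (Subring.zero_mem _)

theorem h85BddDen_add {Y Z : PowerSeries ℚ} (hY : h85BddDen Y) (hZ : h85BddDen Z) :
    h85BddDen (Y + Z) := by
  obtain ⟨M, hM, hMY⟩ := hY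
  obtain ⟨K, hK, hKZ⟩ := hZ
  refine ⟨M * K, mul_ne_zero hM hK, ?_⟩
  have : ((M * K : ℤ) : ℚ) • (Y + Z) = (K : ℚ) • ((M : ℚ) • Y) + (M : ℚ) • ((K : ℚ) • Z) := by
    rw [smul_add, smul_smul, smul_smul]
    push_cast
    rw [mul_comm (K : ℚ) (M : ℚ)]
  rw [this]
  exact Subring.add_mem _ (h85_int_smul_mem hMY K) (h85_int_smul_mem hKZ M)

theorem h85BddDen_smul {Y : PowerSeries ℚ} (hY : h85BddDen Y) (r : ℚ) : h85BddDen (r • Y) := by
  obtain ⟨M, hM, hMY⟩ := hY
  refine ⟨M * r.den, mul_ne_zero hM (by exact_mod_cast r.den_ne_zero), ?_⟩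
  have : ((M * (r.den : ℤ) : ℤ) : ℚ) • (r • Y) = (r.num : ℚ) • ((M : ℚ) • Y) := by
    rw [smul_smul, smul_smul]
    congr 1
    have h1 : (r.den : ℚ) * r = r.num := by
      have := Rat.mul_den_eq_num r
      linarith
    push_cast
    linear_combination (M : ℚ) * h1
  rw [this]
  exact h85_int_smul_mem hMY _

theorem h85BddDen_common {ι : Type*} (s : Finset ι) (c : ι → PowerSeries ℚ)
    (hc : ∀ i ∈ s, h85BddDen (c i)) :
    ∃ M : ℤ, M ≠ 0 ∧ ∀ i ∈ s, (M : ℚ) • c i ∈ h85IntSeries := by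
  classical
  induction s using Finset.induction_on with
  | empty => exact ⟨1, one_ne_zero, by simp⟩
  | insert a s ha ih =>
    obtain ⟨M, hM, hMs⟩ := ih fun i hi => hc i (Finset.mem_insert_of_mem hi)
    obtain ⟨K, hK, hKa⟩ := hc a (Finset.mem_insert_self a s)
    refine ⟨M * K, mul_ne_zero hM hK, ?_⟩
    intro i hi
    rcases Finset.mem_insert.1 hi with rfl | hi
    · have : ((M * K : ℤ) : ℚ) • c i = (M : ℚ) • ((K : ℚ) • c i) := by
        rw [smul_smul]; push_cast; rfl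
      rw [this]
      exact h85_int_smul_mem hKa M
    · have : ((M * K : ℤ) : ℚ) • c i = (K : ℚ) • ((M : ℚ) • c i) := by
        rw [smul_smul]; push_cast; rw [mul_comm]
      rw [this]
      exact h85_int_smul_mem (hMs i hi) K

theorem h85_bdd_of_rational_data (f B A : PowerSeries ℚ) (hB : h85BddDen B) (hA : h85BddDen A)
    (hB0 : B ≠ 0) (hBA : f * B = A) (d : ℕ) (c : Fin d → PowerSeries ℚ)
    (hc : ∀ i, h85BddDen (c i))
    (hmonic : f ^ d + ∑ i : Fin d, c i * f ^ (i : ℕ) = 0) : h85BddDen f := by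
  classical
  obtain ⟨MB, hMB, hMBB⟩ := hB
  obtain ⟨MA, hMA, hMAA⟩ := hA
  obtain ⟨B₁, hB₁⟩ := h85_int_smul_mem hMBB MA
  obtain ⟨A₁, hA₁⟩ := h85_int_smul_mem hMAA MB
  obtain ⟨D, hD, hDc⟩ := h85BddDen_common Finset.univ c fun i _ => hc i
  choose a ha using fun i : Fin d => hDc i (Finset.mem_univ i)
  have hB₁0 : B₁ ≠ 0 := by
    rintro rfl
    rw [map_zero] at hB₁
    have h0 : ((MA : ℚ) * (MB : ℚ)) • B = 0 := by rw [← smul_smul]; exact hB₁.symm
    rcases smul_eq_zero.1 h0 with h | h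
    · have hMAq : (MA : ℚ) ≠ 0 := by exact_mod_cast hMA
      have hMBq : (MB : ℚ) ≠ 0 := by exact_mod_cast hMB
      exact mul_ne_zero hMAq hMBq h
    · exact hB0 h
  refine ⟨D, hD, ?_⟩
  set φ := PowerSeries.map (Int.castRingHom ℚ) with hφ
  set g : PowerSeries ℚ := (D : ℚ) • f with hg
  let P : Polynomial (PowerSeries ℤ) :=
    Polynomial.X ^ d + ∑ i : Fin d, Polynomial.C ((D ^ (d - 1 - (i : ℕ)) : ℤ) • a i) * Polynomial.X ^ (i : ℕ)
  have hPm : P.Monic := Polynomial.monic_X_pow_add (Polynomial.degree_sum_fin_lt _)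
  have hsm : ∀ (z : ℤ) (Y : PowerSeries ℤ), φ (z • Y) = (z : ℚ) • φ Y := by
    intro z Y
    rw [zsmul_eq_mul, map_mul, map_intCast, PowerSeries.smul_eq_C_mul, map_intCast]
  have hroot : P.eval₂ φ g = 0 := by
    simp only [P, Polynomial.eval₂_add, Polynomial.eval₂_X_pow, Polynomial.eval₂_finsetSum,
      Polynomial.eval₂_mul, Polynomial.eval₂_C]
    have hterm : ∀ i : Fin d, φ ((D ^ (d - 1 - (i : ℕ)) : ℤ) • a i) * g ^ (i : ℕ)
        = ((D : ℚ) ^ d) • (c i * f ^ (i : ℕ)) := by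
      intro i
      rw [hsm, ha i, hg]
      have hi : (D : ℚ) ^ d = (D : ℚ) ^ (d - 1 - (i : ℕ)) * D * (D : ℚ) ^ (i : ℕ) := by
        rw [← pow_succ, ← pow_add]
        congr 1
        have := i.2
        omega
      rw [hi]
      push_cast
      simp only [PowerSeries.smul_eq_C_mul, map_mul, map_pow]
      ring
    rw [Finset.sum_congr rfl fun i _ => hterm i, ← Finset.smul_sum, hg, smul_pow, ← smul_add,
      hmonic, smul_zero]
  apply h85_integral_fraction g (B₁) ((D : ℤ) • A₁) hB₁0 _ P hPm hroot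
  rw [hsm, hA₁, hB₁, hg, ← hBA]
  simp only [PowerSeries.smul_eq_C_mul]
  ring


/-- The `ℂ`-span of the complex power series with integer coefficients. -/
noncomputable def h85IntSpan : Submodule ℂ (PowerSeries ℂ) :=
  Submodule.span ℂ (Set.range (PowerSeries.map (Int.castRingHom ℂ)))

/-- Coefficientwise application of a `ℚ`-linear functional. -/
noncomputable def h85proj (π : ℂ →ₗ[ℚ] ℚ) (Y : PowerSeries ℂ) : PowerSeries ℚ :=
  PowerSeries.mk fun n => π (coeff n Y)

@[simp] theorem h85_coeff_proj (π : ℂ →ₗ[ℚ] ℚ) (Y : PowerSeries ℂ) (n : ℕ) :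
    coeff n (h85proj π Y) = π (coeff n Y) := by
  simp [h85proj]

theorem h85proj_add (π : ℂ →ₗ[ℚ] ℚ) (Y Z : PowerSeries ℂ) :
    h85proj π (Y + Z) = h85proj π Y + h85proj π Z := by
  ext n; simp

theorem h85proj_zero (π : ℂ →ₗ[ℚ] ℚ) : h85proj π 0 = 0 := by
  ext n; simp

theorem h85proj_sum {ι : Type*} (π : ℂ →ₗ[ℚ] ℚ) (s : Finset ι) (Y : ι → PowerSeries ℂ) :
    h85proj π (∑ i ∈ s, Y i) = ∑ i ∈ s, h85proj π (Y i) := by
  ext n; simp

theorem h85proj_map_mul (π : ℂ →ₗ[ℚ] ℚ) (f : PowerSeries ℚ) (Y : PowerSeries ℂ) :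
    h85proj π (PowerSeries.map (algebraMap ℚ ℂ) f * Y) = f * h85proj π Y := by
  ext n
  simp only [h85_coeff_proj, PowerSeries.coeff_mul, map_sum, PowerSeries.coeff_map]
  refine Finset.sum_congr rfl fun x _ => ?_
  rw [← Algebra.smul_def, map_smul, smul_eq_mul]

theorem h85proj_bdd (Y : PowerSeries ℂ) (hY : Y ∈ h85IntSpan) :
    ∀ π : ℂ →ₗ[ℚ] ℚ, h85BddDen (h85proj π Y) := by
  induction hY using Submodule.span_induction with
  | mem Y hY =>
    obtain ⟨β, rfl⟩ := hY
    intro π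
    have : h85proj π (PowerSeries.map (Int.castRingHom ℂ) β)
        = (π 1) • PowerSeries.map (Int.castRingHom ℚ) β := by
      ext n
      simp only [h85_coeff_proj, PowerSeries.coeff_map, eq_intCast, PowerSeries.coeff_smul,
        smul_eq_mul]
      have h1 : ((coeff n β : ℤ) : ℂ) = (coeff n β : ℤ) • (1 : ℂ) := by simp
      rw [h1, map_zsmul]
      simp [mul_comm]
    rw [this]
    exact h85BddDen_smul (h85BddDen_of_mem ⟨β, rfl⟩) _
  | zero =>
    intro π
    rw [h85proj_zero]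
    exact h85BddDen_zero
  | add Y Z _ _ hY hZ =>
    intro π
    rw [h85proj_add]
    exact h85BddDen_add (hY π) (hZ π)
  | smul t Y _ hY =>
    intro π
    have : h85proj π (t • Y) = h85proj (π ∘ₗ LinearMap.mulLeft ℚ t) Y := by
      ext n
      simp
    rw [this]
    exact hY _

/-- Bounded denominators: a rational power series which is a quotient of two elements of the
complex span of integral series and is integral over that span has bounded denominators. -/
theorem h85_bounded_denominators (f : PowerSeries ℚ)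
    (B A : PowerSeries ℂ) (hB : B ∈ h85IntSpan) (hA : A ∈ h85IntSpan) (hB0 : B ≠ 0)
    (hBA : PowerSeries.map (algebraMap ℚ ℂ) f * B = A)
    (d : ℕ) (c : Fin d → PowerSeries ℂ) (hc : ∀ i, c i ∈ h85IntSpan)
    (hmonic : (PowerSeries.map (algebraMap ℚ ℂ) f) ^ d
      + ∑ i : Fin d, c i * (PowerSeries.map (algebraMap ℚ ℂ) f) ^ (i : ℕ) = 0) :
    h85BddDen f := by
  obtain ⟨π₁, hπ₁⟩ := LinearMap.exists_leftInverse_of_injective (Algebra.linearMap ℚ ℂ)
    (LinearMap.ker_eq_bot.2 (algebraMap ℚ ℂ).injective)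
  have hπ1 : π₁ 1 = 1 := by
    have := LinearMap.congr_fun hπ₁ 1
    simpa using this
  have hex : ∃ n, coeff n B ≠ 0 := by
    by_contra hno
    exact hB0 (PowerSeries.ext fun n => by
      by_contra hne
      exact hno ⟨n, by simpa using hne⟩)
  obtain ⟨n₀, hn₀⟩ := hex
  set π₂ : ℂ →ₗ[ℚ] ℚ := π₁ ∘ₗ LinearMap.mulLeft ℚ (coeff n₀ B)⁻¹ with hπ₂
  have hB' : h85proj π₂ B ≠ 0 := by
    intro h0
    have := congrArg (coeff n₀) h0
    simp [hπ₂, inv_mul_cancel₀ hn₀, hπ1] at this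
  have hBA' : f * h85proj π₂ B = h85proj π₂ A := by
    rw [← h85proj_map_mul, hBA]
  have hone : h85proj π₁ 1 = 1 := by
    ext n
    rw [h85_coeff_proj, PowerSeries.coeff_one, PowerSeries.coeff_one]
    split_ifs
    · exact hπ1
    · exact map_zero _
  have hmonic' : f ^ d + ∑ i : Fin d, h85proj π₁ (c i) * f ^ (i : ℕ) = 0 := by
    have h := congrArg (h85proj π₁) hmonic
    rw [h85proj_zero, h85proj_add, h85proj_sum] at h
    have h1 : h85proj π₁ ((PowerSeries.map (algebraMap ℚ ℂ) f) ^ d) = f ^ d := by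
      rw [← map_pow, ← mul_one (PowerSeries.map (algebraMap ℚ ℂ) (f ^ d)), h85proj_map_mul, hone,
        mul_one]
    have h2 : ∀ i : Fin d, h85proj π₁ (c i * (PowerSeries.map (algebraMap ℚ ℂ) f) ^ (i : ℕ))
        = h85proj π₁ (c i) * f ^ (i : ℕ) := by
      intro i
      rw [← map_pow, mul_comm, h85proj_map_mul, mul_comm]
    rw [h1, Finset.sum_congr rfl fun i _ => h2 i] at h
    exact h
  exact h85_bdd_of_rational_data f _ _ (h85proj_bdd B hB π₂) (h85proj_bdd A hA π₂) hB' hBA' d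
    (fun i => h85proj π₁ (c i)) (fun i => h85proj_bdd (c i) (hc i) π₁) hmonic'

end Fermat.Agent.S23
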