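import Mathlib
import Fermat.Agent.S23.H85Bdd

set_option autoImplicit false

namespace Fermat.Agent.S23

open PowerSeries

/-- A complex power series has rational coefficients with bounded denominators. -/
def BddDen (p : PowerSeries ℂ) : Prop :=
  ∃ M : ℕ, M ≠ 0 ∧ ∀ j : ℕ, ∃ z : ℤ, (M : ℂ) * p.coeff j = (z : ℂ)

theorem h85_BddDen_descend {p : PowerSeries ℂ} (hp : BddDen p) :
    ∃ p' : PowerSeries ℚ, h85BddDen p' ∧ PowerSeries.map (algebraMap ℚ ℂ) p' = p := by
  obtain ⟨M, hM, hz⟩ := hp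
  choose z hz using hz
  have hMq : (M : ℚ) ≠ 0 := by exact_mod_cast hM
  have hMc : (M : ℂ) ≠ 0 := by exact_mod_cast hM
  refine ⟨PowerSeries.mk fun j => (z j : ℚ) / M, ⟨M, by exact_mod_cast hM, ?_⟩, ?_⟩
  · rw [h85_mem_intSeries_iff]
    intro j
    refine ⟨z j, ?_⟩
    simp only [PowerSeries.coeff_smul, PowerSeries.coeff_mk, smul_eq_mul, Int.cast_natCast]
    field_simp
  · ext j
    simp only [PowerSeries.coeff_map, PowerSeries.coeff_mk, eq_ratCast]
    have := hz j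
    push_cast
    field_simp
    linear_combination -this

theorem h85_bddDen_of_integral (F A B : PowerSeries ℂ) (hB : B ≠ 0) (hAB : B * F = A)
    (hA : BddDen A) (hB' : BddDen B) (n : ℕ) (c : Fin n → PowerSeries ℂ) (hc : ∀ i, BddDen (c i))
    (hmonic : F ^ n + ∑ i : Fin n, c i * F ^ (n - 1 - (i : ℕ)) = 0)
    (hF : ∀ j : ℕ, ∃ r : ℚ, F.coeff j = (r : ℂ)) : BddDen F := by
  have hinj : Function.Injective (PowerSeries.map (algebraMap ℚ ℂ)) :=
    PowerSeries.map_injective _ (algebraMap ℚ ℂ).injective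
  choose r hr using hF
  set f : PowerSeries ℚ := PowerSeries.mk r with hf
  have hfF : PowerSeries.map (algebraMap ℚ ℂ) f = F := by
    ext j
    simp [hf, hr j]
  obtain ⟨A', hA'b, hA'⟩ := h85_BddDen_descend hA
  obtain ⟨B', hB'b, hB'm⟩ := h85_BddDen_descend hB'
  choose c' hc'b hc' using fun i => h85_BddDen_descend (hc i)
  have hB'0 : B' ≠ 0 := by
    rintro rfl
    rw [map_zero] at hB'm
    exact hB hB'm.symm
  have hBA : f * B' = A' := by
    apply hinj
    rw [map_mul, hfF, hB'm, hA', mul_comm, hAB]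
  have hsum : ∑ i : Fin n, c i * F ^ (n - 1 - (i : ℕ))
      = ∑ i : Fin n, c (Fin.rev i) * F ^ (i : ℕ) := by
    rw [← Equiv.sum_comp Fin.revPerm]
    refine Finset.sum_congr rfl fun i _ => ?_
    rw [Fin.revPerm_apply, Fin.val_rev]
    congr 2
    have := i.2
    omega
  have hmon : f ^ n + ∑ i : Fin n, c' (Fin.rev i) * f ^ (i : ℕ) = 0 := by
    apply hinj
    rw [map_zero, map_add, map_pow, map_sum, hfF, ← hmonic, hsum]
    congr 1
    refine Finset.sum_congr rfl fun i _ => ?_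
    rw [map_mul, map_pow, hfF, hc']
  obtain ⟨M, hM, hMf⟩ := h85_bdd_of_rational_data f B' A' hB'b hA'b hB'0 hBA n
    (fun i => c' (Fin.rev i)) (fun i => hc'b _) hmon
  rw [h85_mem_intSeries_iff] at hMf
  refine ⟨M.natAbs, Int.natAbs_ne_zero.2 hM, fun j => ?_⟩
  obtain ⟨z, hz⟩ := hMf j
  rw [PowerSeries.coeff_smul, smul_eq_mul] at hz
  have hFj : F.coeff j = ((f.coeff j : ℚ) : ℂ) := by
    rw [← hfF]
    simp
  have hzc : (M : ℂ) * ((f.coeff j : ℚ) : ℂ) = (z : ℂ) := by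
    have := congrArg (fun q : ℚ => (q : ℂ)) hz
    simpa using this
  rcases Int.natAbs_eq M with h | h
  · refine ⟨z, ?_⟩
    have hM' : ((M.natAbs : ℕ) : ℂ) = (M : ℂ) := by
      conv_rhs => rw [h]
      simp
    rw [hFj, hM', hzc]
  · refine ⟨-z, ?_⟩
    have hM' : ((M.natAbs : ℕ) : ℂ) = -(M : ℂ) := by
      conv_rhs => rw [h]
      simp
    rw [hFj, hM', neg_mul, hzc]
    simp

end Fermat.Agent.S23
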