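import Mathlib
import Fermat.Statements.S23
import Fermat.Agent.S23.h22_Nice
import Fermat.Agent.S23.h85_Bdd

set_option autoImplicit false

open UpperHalfPlane ModularForm
open scoped MatrixGroups ModularForm Manifold

namespace Fermat.Agent.S23

/-- Final glue: if the cusp forms are spanned by the rational ones, and rational cusp forms have
bounded denominators, then the integral lattice spans. -/
theorem h22_hasIntegralStructure_of (N : ℕ) [NeZero N] (k : ℤ)
    (hrat : Submodule.span ℂ {f : CuspForm (CongruenceSubgroup.Gamma0 N) k |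
      ∀ n : ℕ, ∃ r : ℚ, (qExpansion 1 f).coeff n = (r : ℂ)} = ⊤)
    (hbdd : ∀ f : CuspForm (CongruenceSubgroup.Gamma0 N) k,
      (∀ n : ℕ, ∃ r : ℚ, (qExpansion 1 f).coeff n = (r : ℂ)) → BddDen (qExpansion 1 f)) :
    CuspForm.HasIntegralStructure N k := by
  unfold CuspForm.HasIntegralStructure
  rw [eq_top_iff, ← hrat]
  refine Submodule.span_le.mpr fun f hf => ?_
  obtain ⟨M, hM, hz⟩ := hbdd f hf
  have hMc : (M : ℂ) ≠ 0 := by exact_mod_cast hM
  have hmem : (M : ℂ) • f ∈ CuspForm.intLattice N k := by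
    refine Submodule.subset_span fun n => ?_
    obtain ⟨z, hz⟩ := hz n
    refine ⟨z, ?_⟩
    change (qExpansion 1 ⇑((M : ℂ) • f)).coeff n = (z : ℂ)
    rw [FunLike.coe_smul, (h22_nice_Gamma0 f).qExpansion_smul, PowerSeries.coeff_smul, smul_eq_mul]
    exact hz
  have hf' : f = (M : ℂ)⁻¹ • ((M : ℂ) • f) := by
    rw [smul_smul, inv_mul_cancel₀ hMc, one_smul]
  rw [hf']
  exact Submodule.smul_mem _ _ (Submodule.subset_span hmem)

end Fermat.Agent.S23
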