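import Mathlib

set_option autoImplicit false

namespace Fermat.Agent.S23

open PowerSeries

/-- integer coefficients -/
def h22_IsInt (p : PowerSeries ℂ) : Prop := ∀ n : ℕ, ∃ z : ℤ, p.coeff n = (z : ℂ)

/-- rational coefficients -/
def h22_IsRat (p : PowerSeries ℂ) : Prop := ∀ n : ℕ, ∃ r : ℚ, p.coeff n = (r : ℂ)

/-- bounded denominators -/
def h22_BddDen (p : PowerSeries ℂ) : Prop :=
  ∃ M : ℕ, M ≠ 0 ∧ ∀ j : ℕ, ∃ z : ℤ, (M : ℂ) * p.coeff j = (z : ℂ)

theorem h22_isInt_iff (p : PowerSeries ℂ) :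
    h22_IsInt p ↔ p ∈ (PowerSeries.map (Int.castRingHom ℂ)).range := by
  constructor
  · intro h
    choose z hz using h
    refine ⟨PowerSeries.mk z, ?_⟩
    ext n
    simp [hz n]
  · rintro ⟨q, rfl⟩ n
    exact ⟨q.coeff n, by simp⟩

theorem h22_isRat_iff (p : PowerSeries ℂ) :
    h22_IsRat p ↔ p ∈ (PowerSeries.map (algebraMap ℚ ℂ)).range := by
  constructor
  · intro h
    choose z hz using h
    refine ⟨PowerSeries.mk z, ?_⟩
    ext n
    simp [hz n]
  · rintro ⟨q, rfl⟩ n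
    exact ⟨q.coeff n, by simp⟩

namespace h22_IsInt

variable {p q : PowerSeries ℂ}

theorem zero : h22_IsInt 0 := (h22_isInt_iff _).mpr (Subring.zero_mem _)
theorem one : h22_IsInt 1 := (h22_isInt_iff _).mpr (Subring.one_mem _)
theorem add (hp : h22_IsInt p) (hq : h22_IsInt q) : h22_IsInt (p + q) :=
  (h22_isInt_iff _).mpr (Subring.add_mem _ ((h22_isInt_iff _).mp hp) ((h22_isInt_iff _).mp hq))
theorem mul (hp : h22_IsInt p) (hq : h22_IsInt q) : h22_IsInt (p * q) :=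
  (h22_isInt_iff _).mpr (Subring.mul_mem _ ((h22_isInt_iff _).mp hp) ((h22_isInt_iff _).mp hq))
theorem pow (hp : h22_IsInt p) (n : ℕ) : h22_IsInt (p ^ n) :=
  (h22_isInt_iff _).mpr (Subring.pow_mem _ ((h22_isInt_iff _).mp hp) n)
theorem sum {ι : Type*} (s : Finset ι) {p : ι → PowerSeries ℂ} (hp : ∀ i ∈ s, h22_IsInt (p i)) :
    h22_IsInt (∑ i ∈ s, p i) :=
  (h22_isInt_iff _).mpr (Subring.sum_mem _ fun i hi => (h22_isInt_iff _).mp (hp i hi))

theorem isRat (hp : h22_IsInt p) : h22_IsRat p := fun n => by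
  obtain ⟨z, hz⟩ := hp n
  exact ⟨z, by simp [hz]⟩

theorem bddDen (hp : h22_IsInt p) : h22_BddDen p :=
  ⟨1, one_ne_zero, fun j => by
    obtain ⟨z, hz⟩ := hp j
    exact ⟨z, by simp [hz]⟩⟩

end h22_IsInt

namespace h22_IsRat

variable {p q : PowerSeries ℂ}

theorem zero : h22_IsRat 0 := (h22_isRat_iff _).mpr (Subring.zero_mem _)
theorem one : h22_IsRat 1 := (h22_isRat_iff _).mpr (Subring.one_mem _)
theorem add (hp : h22_IsRat p) (hq : h22_IsRat q) : h22_IsRat (p + q) :=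
  (h22_isRat_iff _).mpr (Subring.add_mem _ ((h22_isRat_iff _).mp hp) ((h22_isRat_iff _).mp hq))
theorem mul (hp : h22_IsRat p) (hq : h22_IsRat q) : h22_IsRat (p * q) :=
  (h22_isRat_iff _).mpr (Subring.mul_mem _ ((h22_isRat_iff _).mp hp) ((h22_isRat_iff _).mp hq))
theorem pow (hp : h22_IsRat p) (n : ℕ) : h22_IsRat (p ^ n) :=
  (h22_isRat_iff _).mpr (Subring.pow_mem _ ((h22_isRat_iff _).mp hp) n)

end h22_IsRat

theorem h22_bddDen_iff (p : PowerSeries ℂ) :
    h22_BddDen p ↔ ∃ M : ℕ, M ≠ 0 ∧ h22_IsInt ((M : ℂ) • p) := by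
  constructor
  · rintro ⟨M, hM, h⟩
    exact ⟨M, hM, fun j => by simpa using h j⟩
  · rintro ⟨M, hM, h⟩
    exact ⟨M, hM, fun j => by simpa using h j⟩

namespace h22_BddDen

variable {p q : PowerSeries ℂ}

theorem zero : h22_BddDen 0 := h22_IsInt.zero.bddDen

theorem isRat (hp : h22_BddDen p) : h22_IsRat p := by
  obtain ⟨M, hM, h⟩ := hp
  intro n
  obtain ⟨z, hz⟩ := h n
  refine ⟨(z : ℚ) / (M : ℚ), ?_⟩
  have hM' : (M : ℂ) ≠ 0 := by exact_mod_cast hM
  push_cast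
  rw [← hz]
  field_simp

theorem add (hp : h22_BddDen p) (hq : h22_BddDen q) : h22_BddDen (p + q) := by
  rw [h22_bddDen_iff] at *
  obtain ⟨M, hM, h⟩ := hp
  obtain ⟨M', hM', h'⟩ := hq
  refine ⟨M * M', mul_ne_zero hM hM', ?_⟩
  have h1 : ((M * M' : ℕ) : ℂ) • (p + q) =
      PowerSeries.C (M' : ℂ) * ((M : ℂ) • p) + PowerSeries.C (M : ℂ) * ((M' : ℂ) • q) := by
    ext n
    simp only [Nat.cast_mul, coeff_smul, map_add, coeff_C_mul, smul_eq_mul]
    ring
  rw [h1]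
  have hC : ∀ m : ℕ, h22_IsInt (PowerSeries.C (m : ℂ)) := fun m n => by
    rw [coeff_C]
    split_ifs
    · exact ⟨m, by simp⟩
    · exact ⟨0, by simp⟩
  exact ((hC M').mul h).add ((hC M).mul h')

theorem mul (hp : h22_BddDen p) (hq : h22_BddDen q) : h22_BddDen (p * q) := by
  rw [h22_bddDen_iff] at *
  obtain ⟨M, hM, h⟩ := hp
  obtain ⟨M', hM', h'⟩ := hq
  refine ⟨M * M', mul_ne_zero hM hM', ?_⟩
  have h1 : ((M * M' : ℕ) : ℂ) • (p * q) = ((M : ℂ) • p) * ((M' : ℂ) • q) := by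
    rw [smul_mul_smul_comm, Nat.cast_mul]
  rw [h1]
  exact h.mul h'

theorem pow (hp : h22_BddDen p) (n : ℕ) : h22_BddDen (p ^ n) := by
  induction n with
  | zero => simpa using h22_IsInt.one.bddDen
  | succ n ih => rw [pow_succ]; exact ih.mul hp

theorem sum {ι : Type*} (s : Finset ι) {p : ι → PowerSeries ℂ}
    (hp : ∀ i ∈ s, h22_BddDen (p i)) : h22_BddDen (∑ i ∈ s, p i) := by
  classical
  induction s using Finset.induction_on with
  | empty => simpa using zero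
  | insert a s ha ih =>
    rw [Finset.sum_insert ha]
    exact (hp a (Finset.mem_insert_self a s)).add
      (ih fun i hi => hp i (Finset.mem_insert_of_mem hi))

end h22_BddDen

/-- Coefficientwise application of an additive map. -/
noncomputable def h22_mapC (φ : ℂ →+ ℂ) : PowerSeries ℂ →+ PowerSeries ℂ where
  toFun p := PowerSeries.mk fun n => φ (p.coeff n)
  map_zero' := by ext n; simp
  map_add' p q := by ext n; simp

@[simp] theorem h22_coeff_mapC (φ : ℂ →+ ℂ) (p : PowerSeries ℂ) (n : ℕ) :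
    (h22_mapC φ p).coeff n = φ (p.coeff n) := by
  simp [h22_mapC]

/-- A `ℚ`-linear map commutes with multiplication by a rational power series. -/
theorem h22_mapC_mul_rat (φ : ℂ →ₗ[ℚ] ℂ) (p q : PowerSeries ℂ) (hq : h22_IsRat q) :
    h22_mapC φ.toAddMonoidHom (p * q) = h22_mapC φ.toAddMonoidHom p * q := by
  ext n
  simp only [h22_coeff_mapC, coeff_mul, map_sum, LinearMap.toAddMonoidHom_coe]
  refine Finset.sum_congr rfl fun x _ => ?_
  obtain ⟨r, hr⟩ := hq x.2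
  rw [hr]
  have : p.coeff x.1 * (r : ℂ) = r • p.coeff x.1 := by
    rw [Rat.smul_def, mul_comm]
  rw [this, map_smul, Rat.smul_def, mul_comm]

/-- A map fixing the rationals fixes rational power series. -/
theorem h22_mapC_rat (φ : ℂ →+ ℂ) (hφ : ∀ r : ℚ, φ (r : ℂ) = (r : ℂ)) (q : PowerSeries ℂ)
    (hq : h22_IsRat q) : h22_mapC φ q = q := by
  ext n
  obtain ⟨r, hr⟩ := hq n
  simp [hr, hφ]

theorem h22_mapC_ringHom (σ : ℂ →+* ℂ) (p : PowerSeries ℂ) :
    h22_mapC σ.toAddMonoidHom p = PowerSeries.map σ p := by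
  ext n
  simp

theorem h22_mapC_ringHom_mul (σ : ℂ →+* ℂ) (p q : PowerSeries ℂ) :
    h22_mapC σ.toAddMonoidHom (p * q) =
      h22_mapC σ.toAddMonoidHom p * h22_mapC σ.toAddMonoidHom q := by
  simp only [h22_mapC_ringHom, map_mul]

theorem h22_mapC_ringHom_rat (σ : ℂ →+* ℂ) (q : PowerSeries ℂ) (hq : h22_IsRat q) :
    h22_mapC σ.toAddMonoidHom q = q :=
  h22_mapC_rat _ (fun r => by simp) q hq

end Fermat.Agent.S23
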