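import Mathlib

set_option autoImplicit false

namespace Fermat.Agent.S23

open UpperHalfPlane ModularForm ModularFormClass EisensteinSeries
open scoped MatrixGroups

/-- Power series over `ℂ` all of whose coefficients are integers. -/
def h62_IsIntPS (p : PowerSeries ℂ) : Prop := ∀ n : ℕ, ∃ m : ℤ, p.coeff n = (m : ℂ)

theorem h62_isIntPS_iff (p : PowerSeries ℂ) :
    h62_IsIntPS p ↔ p ∈ (PowerSeries.map (Int.castRingHom ℂ)).range := by
  constructor
  · intro h
    choose m hm using h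
    refine ⟨PowerSeries.mk m, ?_⟩
    ext n
    simp [hm n]
  · rintro ⟨P, rfl⟩ n
    exact ⟨P.coeff n, by simp⟩

theorem h62_IsIntPS.add {p q : PowerSeries ℂ} (hp : h62_IsIntPS p) (hq : h62_IsIntPS q) :
    h62_IsIntPS (p + q) := by
  rw [h62_isIntPS_iff] at *
  exact add_mem hp hq

theorem h62_IsIntPS.sub {p q : PowerSeries ℂ} (hp : h62_IsIntPS p) (hq : h62_IsIntPS q) :
    h62_IsIntPS (p - q) := by
  rw [h62_isIntPS_iff] at *
  exact sub_mem hp hq

theorem h62_IsIntPS.mul {p q : PowerSeries ℂ} (hp : h62_IsIntPS p) (hq : h62_IsIntPS q) :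
    h62_IsIntPS (p * q) := by
  rw [h62_isIntPS_iff] at *
  exact mul_mem hp hq

theorem h62_IsIntPS.pow {p : PowerSeries ℂ} (hp : h62_IsIntPS p) (n : ℕ) :
    h62_IsIntPS (p ^ n) := by
  rw [h62_isIntPS_iff] at *
  exact pow_mem hp n

theorem h62_IsIntPS.one : h62_IsIntPS (1 : PowerSeries ℂ) := by
  rw [h62_isIntPS_iff]
  exact one_mem _

theorem h62_IsIntPS.zero : h62_IsIntPS (0 : PowerSeries ℂ) := by
  rw [h62_isIntPS_iff]
  exact zero_mem _

theorem h62_IsIntPS.int_smul {p : PowerSeries ℂ} (hp : h62_IsIntPS p) (d : ℤ) :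
    h62_IsIntPS ((d : ℂ) • p) := by
  intro n
  obtain ⟨m, hm⟩ := hp n
  exact ⟨d * m, by simp [hm]⟩

/-- The set of level one modular forms of weight `k` with integral `q`-expansion. -/
def h62_intForms (k : ℤ) : Set (ModularForm 𝒮ℒ k) :=
  {c | ∀ n : ℕ, ∃ m : ℤ, (qExpansion 1 c).coeff n = (m : ℂ)}

theorem h62_mem_intForms_iff {k : ℤ} (c : ModularForm 𝒮ℒ k) :
    c ∈ h62_intForms k ↔ h62_IsIntPS (qExpansion 1 c) := Iff.rfl


/-- A nonzero integer multiple of the Eisenstein series has integral `q`-expansion. -/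
theorem h62_exists_int_smul_E_mem {k : ℕ} (hk : 3 ≤ k) (hk2 : Even k) :
    ∃ d : ℤ, d ≠ 0 ∧ ((d : ℂ) • E hk) ∈ h62_intForms (k : ℤ) := by
  set r : ℚ := -(2 * k / bernoulli k) with hr
  refine ⟨r.den, by exact_mod_cast r.den_ne_zero, ?_⟩
  intro n
  rw [FunLike.coe_smul, ModularForm.qExpansion_smul one_pos one_mem_strictPeriods_SL,
    PowerSeries.coeff_smul, E_qExpansion_coeff hk hk2]
  by_cases hn : n = 0
  · exact ⟨r.den, by simp [hn]⟩
  · refine ⟨r.num * (ArithmeticFunction.sigma (k - 1) n : ℤ), ?_⟩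
    rw [if_neg hn]
    have h1 : (-(2 * (k : ℂ) / ((bernoulli k : ℚ) : ℂ))) = ((r : ℚ) : ℂ) := by
      rw [hr]; push_cast; ring
    rw [h1]
    have h2 : ((r.den : ℤ) : ℂ) * ((r : ℚ) : ℂ) = ((r.num : ℤ) : ℂ) := by
      have := Rat.den_mul_eq_num r
      exact_mod_cast congrArg (fun x : ℚ => (x : ℂ)) this
    simp only [smul_eq_mul, Int.cast_natCast, Int.cast_mul]
    rw [← mul_assoc]
    have h2' : ((r.den : ℕ) : ℂ) * ((r : ℚ) : ℂ) = ((r.num : ℤ) : ℂ) := by exact_mod_cast h2
    rw [h2']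


theorem h62_E4_mem : E₄ ∈ h62_intForms 4 := by
  intro n
  rw [E_qExpansion_coeff (by norm_num) ⟨2, rfl⟩]
  by_cases hn : n = 0
  · exact ⟨1, by simp [hn]⟩
  · refine ⟨240 * (ArithmeticFunction.sigma 3 n : ℤ), ?_⟩
    rw [if_neg hn, show bernoulli 4 = -1 / 30 by decide +kernel]
    push_cast
    ring

theorem h62_E6_mem : E₆ ∈ h62_intForms 6 := by
  intro n
  rw [E_qExpansion_coeff (by norm_num) ⟨3, rfl⟩]
  by_cases hn : n = 0
  · exact ⟨1, by simp [hn]⟩
  · refine ⟨-504 * (ArithmeticFunction.sigma 5 n : ℤ), ?_⟩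
    rw [if_neg hn, show bernoulli 6 = 1 / 42 by decide +kernel]
    push_cast
    ring

/-- `1728 Δ = E₄³ - E₆²` on the level of `q`-expansions. -/
theorem h62_qExpansion_discriminant :
    (1728 : ℂ) • qExpansion 1 (⇑CuspForm.discriminant) =
      qExpansion 1 E₄ ^ 3 - qExpansion 1 E₆ ^ 2 := by
  let G : ModularForm 𝒮ℒ 12 :=
    ModularForm.mcast (by decide) (E₄.pow 3) - ModularForm.mcast (by decide) (E₆.pow 2)
  have hG : qExpansion 1 G = qExpansion 1 E₄ ^ 3 - qExpansion 1 E₆ ^ 2 := by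
    simp only [G, FunLike.coe_sub, coe_mcast,
      ModularForm.qExpansion_sub one_pos one_mem_strictPeriods_SL,
      ModularForm.qExpansion_pow one_pos one_mem_strictPeriods_SL]
  have hfun : (⇑G : ℍ → ℂ) = (1728 : ℂ) • ⇑CuspForm.discriminant := by
    funext z
    have h1 : G z = E₄ z ^ 3 - E₆ z ^ 2 := by
      simp only [G, coe_mcast, coe_pow, sub_apply, Pi.pow_apply]
    have h2 := ModularForm.discriminant_eq_E₄_cube_sub_E₆_sq z
    simp only [Pi.smul_apply, smul_eq_mul, CuspForm.coe_discriminant, h1, h2]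
    ring
  rw [← hG, hfun]
  exact (ModularForm.qExpansion_smul one_pos one_mem_strictPeriods_SL (1728 : ℂ)
    CuspForm.discriminant).symm

theorem h62_isIntPS_discriminant :
    h62_IsIntPS ((1728 : ℂ) • qExpansion 1 (⇑CuspForm.discriminant)) := by
  rw [h62_qExpansion_discriminant]
  exact h62_IsIntPS.sub (h62_IsIntPS.pow ((h62_mem_intForms_iff _).1 h62_E4_mem) 3)
    (h62_IsIntPS.pow ((h62_mem_intForms_iff _).1 h62_E6_mem) 2)

/-- Multiplication by the discriminant, as a linear map on level one modular forms. -/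
noncomputable def h62_mulDelta (k : ℤ) : ModularForm 𝒮ℒ (k - 12) →ₗ[ℂ] ModularForm 𝒮ℒ k :=
  CuspForm.toModularFormₗ.comp (CuspForm.discriminantEquiv (k := k)).symm.toLinearMap

theorem h62_mulDelta_apply (k : ℤ) (h : ModularForm 𝒮ℒ (k - 12)) (z : ℍ) :
    h62_mulDelta k h z = ModularForm.discriminant z * h z := rfl

theorem h62_qExpansion_mulDelta (k : ℤ) (h : ModularForm 𝒮ℒ (k - 12)) :
    qExpansion 1 (h62_mulDelta k h) =
      qExpansion 1 (⇑CuspForm.discriminant) * qExpansion 1 h := by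
  have : (⇑(h62_mulDelta k h) : ℍ → ℂ) = ⇑CuspForm.discriminant * ⇑h := by
    funext z
    rfl
  rw [this]
  exact ModularForm.qExpansion_mul_coe one_pos one_mem_strictPeriods_SL _ _

theorem h62_smul_mulDelta_mem (k : ℤ) {h : ModularForm 𝒮ℒ (k - 12)}
    (hh : h ∈ h62_intForms (k - 12)) : (1728 : ℂ) • h62_mulDelta k h ∈ h62_intForms k := by
  rw [h62_mem_intForms_iff, FunLike.coe_smul,
    ModularForm.qExpansion_smul one_pos one_mem_strictPeriods_SL, h62_qExpansion_mulDelta,
    ← smul_mul_assoc]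
  exact h62_IsIntPS.mul h62_isIntPS_discriminant ((h62_mem_intForms_iff _).1 hh)


theorem h62_mulDelta_mem_span (k : ℤ) {h : ModularForm 𝒮ℒ (k - 12)}
    (hh : h ∈ Submodule.span ℂ (h62_intForms (k - 12))) :
    h62_mulDelta k h ∈ Submodule.span ℂ (h62_intForms k) := by
  refine Submodule.span_induction
    (p := fun x _ => h62_mulDelta k x ∈ Submodule.span ℂ (h62_intForms k)) ?_ ?_ ?_ ?_ hh
  · intro x hx
    have : h62_mulDelta k x = (1728 : ℂ)⁻¹ • ((1728 : ℂ) • h62_mulDelta k x) := by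
      rw [smul_smul, inv_mul_cancel₀ (by norm_num), one_smul]
    rw [this]
    exact Submodule.smul_mem _ _ (Submodule.subset_span (h62_smul_mulDelta_mem k hx))
  · simp
  · intro x y _ _ hx hy
    rw [map_add]
    exact add_mem hx hy
  · intro a x _ hx
    rw [map_smul]
    exact Submodule.smul_mem _ _ hx

theorem h62_mem_span_intForms_aux (n : ℕ) :
    ∀ k : ℤ, k < n → ∀ f : ModularForm 𝒮ℒ k, f ∈ Submodule.span ℂ (h62_intForms k) := by
  induction n with
  | zero =>
    intro k hk f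
    have hf : f = 0 :=
      rank_zero_iff_forall_zero.mp (levelOne_neg_weight_rank_zero (by simpa using hk)) f
    rw [hf]
    exact zero_mem _
  | succ n ih =>
    intro k hk f
    by_cases hkn : k < n
    · exact ih k hkn f
    · have hk' : k = (n : ℤ) := by push_cast at hk; omega
      rcases Nat.even_or_odd n with hev | hodd
      · rcases Nat.lt_or_ge n 3 with h3 | h3
        · have h02 : n = 0 ∨ n = 2 := by
            obtain ⟨m, hm⟩ := hev
            omega
          rcases h02 with rfl | rfl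
          · obtain rfl : k = 0 := by simpa using hk'
            obtain ⟨c, hc⟩ := levelOne_weight_zero_const f
            have hf : f = c • (1 : ModularForm 𝒮ℒ 0) := by
              ext z
              simp [hc]
            rw [hf]
            refine Submodule.smul_mem _ _ (Submodule.subset_span ?_)
            rw [h62_mem_intForms_iff, ModularForm.qExpansion_one]
            exact h62_IsIntPS.one
          · obtain rfl : k = 2 := by simpa using hk'
            have hf : f = 0 := rank_zero_iff_forall_zero.mp levelOne_weight_two_rank_zero f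
            rw [hf]
            exact zero_mem _
        · subst hk'
          obtain ⟨d, hd0, hd⟩ := h62_exists_int_smul_E_mem h3 hev
          have hE : E h3 ∈ Submodule.span ℂ (h62_intForms (n : ℤ)) := by
            have h1 : E h3 = (d : ℂ)⁻¹ • ((d : ℂ) • E h3) := by
              rw [smul_smul, inv_mul_cancel₀ (by exact_mod_cast hd0), one_smul]
            rw [h1]
            exact Submodule.smul_mem _ _ (Submodule.subset_span hd)
          have hcusp := sub_smul_isCuspForm f (E h3) (E_qExpansion_coeff_zero h3 hev)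
          obtain ⟨g, hg⟩ := hcusp
          have hg2 : f - (qExpansion 1 f).coeff 0 • E h3 =
              h62_mulDelta (n : ℤ) (CuspForm.discriminantEquiv g) := by
            rw [← hg]
            simp [h62_mulDelta]
          have hmem : h62_mulDelta (n : ℤ) (CuspForm.discriminantEquiv g) ∈
              Submodule.span ℂ (h62_intForms (n : ℤ)) :=
            h62_mulDelta_mem_span _ (ih ((n : ℤ) - 12) (by omega) (CuspForm.discriminantEquiv g))
          have hsplit : f = (qExpansion 1 f).coeff 0 • E h3 +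
              (f - (qExpansion 1 f).coeff 0 • E h3) := by abel
          rw [hsplit, hg2]
          exact add_mem (Submodule.smul_mem _ _ hE) hmem
      · subst hk'
        have hf : f = 0 :=
          ModularForm.levelOne_odd_weight_eq_zero (by exact_mod_cast hodd) f
        rw [hf]
        exact zero_mem _

/-- Level one modular forms are spanned by forms with integral `q`-expansion. -/
theorem h62_levelOne_span_int (k : ℤ) :
    Submodule.span ℂ {c : ModularForm 𝒮ℒ k |
      ∀ n : ℕ, ∃ m : ℤ, (qExpansion 1 c).coeff n = (m : ℂ)} = ⊤ := by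
  rw [eq_top_iff]
  intro f _
  exact h62_mem_span_intForms_aux (k.toNat + 1) k (by omega) f

/-- Conjugating the `q`-expansion of a level one modular form by a ring endomorphism of `ℂ`
gives the `q`-expansion of a level one modular form. -/
theorem h62_levelOne_conj {k : ℤ} (c : ModularForm 𝒮ℒ k) (σ : ℂ →+* ℂ) :
    ∃ c' : ModularForm 𝒮ℒ k, ∀ n : ℕ,
      (qExpansion 1 c').coeff n = σ ((qExpansion 1 c).coeff n) := by
  have hc : c ∈ Submodule.span ℂ (h62_intForms k) := by
    have := h62_levelOne_span_int k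
    rw [show {c : ModularForm 𝒮ℒ k | ∀ n : ℕ, ∃ m : ℤ, (qExpansion 1 c).coeff n = (m : ℂ)} =
      h62_intForms k from rfl] at this
    rw [this]
    trivial
  refine Submodule.span_induction
    (p := fun (x : ModularForm 𝒮ℒ k) _ => ∃ c' : ModularForm 𝒮ℒ k, ∀ n : ℕ,
      (qExpansion 1 c').coeff n = σ ((qExpansion 1 x).coeff n)) ?_ ?_ ?_ ?_ hc
  · intro x hx
    refine ⟨x, fun n => ?_⟩
    obtain ⟨m, hm⟩ := hx n
    rw [hm]
    simp
  · exact ⟨0, fun n => by simp [qExpansion_zero]⟩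
  · rintro x y _ _ ⟨x', hx'⟩ ⟨y', hy'⟩
    refine ⟨x' + y', fun n => ?_⟩
    rw [FunLike.coe_add, ModularForm.qExpansion_add one_pos one_mem_strictPeriods_SL,
      FunLike.coe_add, ModularForm.qExpansion_add one_pos one_mem_strictPeriods_SL,
      map_add, map_add, map_add, hx', hy']
  · rintro a x _ ⟨x', hx'⟩
    refine ⟨σ a • x', fun n => ?_⟩
    rw [FunLike.coe_smul, ModularForm.qExpansion_smul one_pos one_mem_strictPeriods_SL,
      FunLike.coe_smul, ModularForm.qExpansion_smul one_pos one_mem_strictPeriods_SL,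
      PowerSeries.coeff_smul, PowerSeries.coeff_smul, hx', smul_eq_mul, smul_eq_mul, map_mul]


/-- Auxiliary induction for `h62_levelOne_map`. -/
theorem h62_levelOne_map_aux {k : ℤ} (φ : ℂ →+ ℂ) (c : ModularForm 𝒮ℒ k) :
    ∀ a : ℂ, ∃ c' : ModularForm 𝒮ℒ k,
      (∀ n : ℕ, (qExpansion 1 c').coeff n = φ (a * (qExpansion 1 c).coeff n)) ∧
      ((∀ x : ℂ, ∃ r : ℚ, φ x = (r : ℂ)) →
        ∃ M : ℕ, M ≠ 0 ∧ ∀ n : ℕ, ∃ z : ℤ, (M : ℂ) * (qExpansion 1 c').coeff n = (z : ℂ)) := by
  have hc : c ∈ Submodule.span ℂ (h62_intForms k) := by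
    have := h62_levelOne_span_int k
    rw [show {c : ModularForm 𝒮ℒ k | ∀ n : ℕ, ∃ m : ℤ, (qExpansion 1 c).coeff n = (m : ℂ)} =
      h62_intForms k from rfl] at this
    rw [this]
    trivial
  refine Submodule.span_induction
    (p := fun (x : ModularForm 𝒮ℒ k) _ => ∀ a : ℂ, ∃ c' : ModularForm 𝒮ℒ k,
      (∀ n : ℕ, (qExpansion 1 c').coeff n = φ (a * (qExpansion 1 x).coeff n)) ∧
      ((∀ x : ℂ, ∃ r : ℚ, φ x = (r : ℂ)) →
        ∃ M : ℕ, M ≠ 0 ∧ ∀ n : ℕ, ∃ z : ℤ, (M : ℂ) * (qExpansion 1 c').coeff n = (z : ℂ)))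
    ?_ ?_ ?_ ?_ hc
  · intro x hx a
    refine ⟨φ a • x, fun n => ?_, fun hrat => ?_⟩
    · obtain ⟨m, hm⟩ := hx n
      rw [FunLike.coe_smul, ModularForm.qExpansion_smul one_pos one_mem_strictPeriods_SL,
        PowerSeries.coeff_smul, hm, smul_eq_mul, mul_comm a (m : ℂ), ← zsmul_eq_mul,
        map_zsmul, zsmul_eq_mul, mul_comm]
    · obtain ⟨r, hr⟩ := hrat a
      refine ⟨r.den, r.den_ne_zero, fun n => ?_⟩
      obtain ⟨m, hm⟩ := hx n
      refine ⟨r.num * m, ?_⟩
      rw [FunLike.coe_smul, ModularForm.qExpansion_smul one_pos one_mem_strictPeriods_SL,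
        PowerSeries.coeff_smul, hm, hr, smul_eq_mul, ← mul_assoc]
      have h2 : ((r.den : ℕ) : ℂ) * ((r : ℚ) : ℂ) = ((r.num : ℤ) : ℂ) := by
        have := Rat.den_mul_eq_num r
        exact_mod_cast congrArg (fun x : ℚ => (x : ℂ)) this
      rw [h2]
      push_cast
      ring
  · intro a
    exact ⟨0, fun n => by simp [qExpansion_zero], fun _ => ⟨1, one_ne_zero, fun n =>
      ⟨0, by simp [qExpansion_zero]⟩⟩⟩
  · intro x y _ _ hx hy a
    obtain ⟨x', hx1, hx2⟩ := hx a
    obtain ⟨y', hy1, hy2⟩ := hy a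
    refine ⟨x' + y', fun n => ?_, fun hrat => ?_⟩
    · rw [FunLike.coe_add, ModularForm.qExpansion_add one_pos one_mem_strictPeriods_SL,
        FunLike.coe_add, ModularForm.qExpansion_add one_pos one_mem_strictPeriods_SL,
        map_add, map_add, mul_add, map_add, hx1, hy1]
    · obtain ⟨M1, hM1, h1⟩ := hx2 hrat
      obtain ⟨M2, hM2, h2⟩ := hy2 hrat
      refine ⟨M1 * M2, mul_ne_zero hM1 hM2, fun n => ?_⟩
      obtain ⟨z1, hz1⟩ := h1 n
      obtain ⟨z2, hz2⟩ := h2 n
      refine ⟨M2 * z1 + M1 * z2, ?_⟩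
      rw [FunLike.coe_add, ModularForm.qExpansion_add one_pos one_mem_strictPeriods_SL, map_add]
      push_cast
      rw [← hz1, ← hz2]
      ring
  · intro b x _ hx a
    obtain ⟨x', hx1, hx2⟩ := hx (a * b)
    refine ⟨x', fun n => ?_, hx2⟩
    rw [hx1, FunLike.coe_smul, ModularForm.qExpansion_smul one_pos one_mem_strictPeriods_SL,
      PowerSeries.coeff_smul, smul_eq_mul, mul_assoc]

/-- An additive endomorphism of `ℂ` acts coefficientwise on level one modular forms; if it is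
rational-valued, the image has bounded denominators. -/
theorem h62_levelOne_map {k : ℤ} (c : ModularForm 𝒮ℒ k) (φ : ℂ →+ ℂ) :
    ∃ c' : ModularForm 𝒮ℒ k,
      (∀ n : ℕ, (qExpansion 1 c').coeff n = φ ((qExpansion 1 c).coeff n)) ∧
      ((∀ x : ℂ, ∃ r : ℚ, φ x = (r : ℂ)) →
        ∃ M : ℕ, M ≠ 0 ∧ ∀ n : ℕ, ∃ z : ℤ, (M : ℂ) * (qExpansion 1 c').coeff n = (z : ℂ)) := by
  obtain ⟨c', h1, h2⟩ := h62_levelOne_map_aux φ c 1
  exact ⟨c', fun n => by rw [h1, one_mul], h2⟩

/-- The cusp form version of `h62_levelOne_map`. -/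
theorem h62_levelOne_map_cusp {k : ℤ} (c : CuspForm 𝒮ℒ k) (φ : ℂ →+ ℂ) :
    ∃ c' : CuspForm 𝒮ℒ k,
      (∀ n : ℕ, (qExpansion 1 c').coeff n = φ ((qExpansion 1 c).coeff n)) ∧
      ((∀ x : ℂ, ∃ r : ℚ, φ x = (r : ℂ)) →
        ∃ M : ℕ, M ≠ 0 ∧ ∀ n : ℕ, ∃ z : ℤ, (M : ℂ) * (qExpansion 1 c').coeff n = (z : ℂ)) := by
  obtain ⟨c', h1, h2⟩ := h62_levelOne_map (CuspForm.toModularFormₗ c) φ
  have hc0 : (qExpansion 1 (CuspForm.toModularFormₗ c)).coeff 0 = 0 :=
    (isCuspForm_iff_coeffZero_eq_zero _).mp ⟨c, rfl⟩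
  have h0 : (qExpansion 1 c').coeff 0 = 0 := by
    rw [h1, hc0, map_zero]
  exact ⟨toCuspForm c' h0, h1, h2⟩

end Fermat.Agent.S23
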