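import Mathlib
import Fermat.Statements.S23
import Fermat.Agent.S23.h22_Nice
import Fermat.Agent.S23.h22_Series
import Fermat.Agent.S23.h85_Bdd
import Fermat.Agent.S23.h96_CharPoly
import Fermat.Agent.S23.h62_LevelOne

set_option autoImplicit false

open UpperHalfPlane ModularForm
open scoped MatrixGroups ModularForm Manifold

namespace Fermat.Agent.S23

/-- A `ℚ`-linear projection `ℂ → ℚ` fixing `1` and not killing a given nonzero number. -/
theorem h22_exists_rat_proj {x₀ : ℂ} (hx₀ : x₀ ≠ 0) :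
    ∃ π : ℂ →ₗ[ℚ] ℚ, π 1 = 1 ∧ π x₀ ≠ 0 := by
  -- a functional with value `1` at a given nonzero vector
  have key : ∀ v : ℂ, v ≠ 0 → ∃ ψ : ℂ →ₗ[ℚ] ℚ, ψ v = 1 := by
    intro v hv
    let f : ℚ →ₗ[ℚ] ℂ := LinearMap.toSpanSingleton ℚ ℂ v
    have hf : LinearMap.ker f = ⊥ := by
      rw [LinearMap.ker_eq_bot]
      intro a b hab
      simp only [f, LinearMap.toSpanSingleton_apply] at hab
      exact smul_left_injective ℚ hv hab
    obtain ⟨g, hg⟩ := f.exists_leftInverse_of_injective hf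
    refine ⟨g, ?_⟩
    have := LinearMap.congr_fun hg 1
    simpa [f] using this
  obtain ⟨π₀, hπ₀⟩ := key 1 one_ne_zero
  by_cases h0 : π₀ x₀ = 0
  · obtain ⟨ψ, hψ⟩ := key x₀ hx₀
    refine ⟨π₀ + ψ - (ψ 1) • π₀, ?_, ?_⟩
    · simp [hπ₀]
    · simp [h0, hψ]
  · exact ⟨π₀, hπ₀, h0⟩

/-- The `q`-expansion of an element of the integral span lies in the span of the integral
power series. -/
theorem h22_qExp_mem_span {Γ : Subgroup (GL (Fin 2) ℝ)} [Γ.HasDetOne]
    (h1 : (1 : ℝ) ∈ Γ.strictPeriods) {w : ℤ} {F : ModularForm Γ w}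
    (hF : F ∈ Submodule.span ℂ {F : ModularForm Γ w |
      ∀ n : ℕ, ∃ z : ℤ, (qExpansion 1 F).coeff n = (z : ℂ)}) :
    qExpansion 1 F ∈ Submodule.span ℂ {p : PowerSeries ℂ | h22_IsInt p} := by
  induction hF using Submodule.span_induction with
  | mem x hx => exact Submodule.subset_span hx
  | zero =>
    rw [FunLike.coe_zero, UpperHalfPlane.qExpansion_zero]
    exact Submodule.zero_mem _
  | add x y _ _ ihx ihy =>
    rw [FunLike.coe_add, (h22_nice_of_modularFormClass h1 x).qExpansion_add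
      (h22_nice_of_modularFormClass h1 y)]
    exact Submodule.add_mem _ ihx ihy
  | smul a x _ ih =>
    rw [FunLike.coe_smul, (h22_nice_of_modularFormClass h1 x).qExpansion_smul]
    exact Submodule.smul_mem _ _ ih

/-- A rational-valued additive map sends the span of the integral power series to power series
with bounded denominators. -/
theorem h22_bddDen_mapC {φ : ℂ →+ ℂ} (hφ : ∀ x : ℂ, ∃ r : ℚ, φ x = (r : ℂ))
    {p : PowerSeries ℂ} (hp : p ∈ Submodule.span ℂ {p : PowerSeries ℂ | h22_IsInt p}) :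
    h22_BddDen (h22_mapC φ p) := by
  have key : ∀ c : ℂ, h22_BddDen (h22_mapC φ (c • p)) := by
    induction hp using Submodule.span_induction with
    | mem x hx =>
      intro c
      obtain ⟨r, hr⟩ := hφ c
      refine ⟨r.den, r.den_ne_zero, fun j => ?_⟩
      obtain ⟨z, hz⟩ := hx j
      refine ⟨r.num * z, ?_⟩
      have h1 : φ (c * (z : ℂ)) = (z : ℂ) * φ c := by
        have : c * (z : ℂ) = z • c := by rw [zsmul_eq_mul, mul_comm]
        rw [this, map_zsmul, zsmul_eq_mul]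
      rw [h22_coeff_mapC, PowerSeries.coeff_smul, smul_eq_mul, hz, h1, hr]
      have h2 : ((r.den : ℚ) : ℂ) * (r : ℂ) = ((r.num : ℚ) : ℂ) := by
        rw [← Rat.cast_mul]
        congr 1
        have := Rat.mul_den_eq_num r
        linarith
      push_cast at h2 ⊢
      linear_combination (z : ℂ) * h2
    | zero =>
      intro c
      simpa using h22_BddDen.zero
    | add x y _ _ ihx ihy =>
      intro c
      rw [smul_add, map_add]
      exact (ihx c).add (ihy c)
    | smul a x _ ih =>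
      intro c
      rw [smul_smul]
      exact ih (c * a)
  simpa using key 1

/-- Pure power series core of the bounded denominator argument. -/
theorem h22_bddDen_core (F qB qA : PowerSeries ℂ) (hF : h22_IsRat F) (hqB : qB ≠ 0)
    (hB : qB ∈ Submodule.span ℂ {p : PowerSeries ℂ | h22_IsInt p})
    (hA : qA ∈ Submodule.span ℂ {p : PowerSeries ℂ | h22_IsInt p})
    (h1 : qB * F = qA) (μ : ℕ) (qe : Fin μ → PowerSeries ℂ)
    (he : ∀ i, qe i ∈ Submodule.span ℂ {p : PowerSeries ℂ | h22_IsInt p})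
    (h3 : F ^ μ + ∑ i : Fin μ, qe i * F ^ (μ - 1 - (i : ℕ)) = 0) : BddDen F := by
  obtain ⟨n₀, hn₀⟩ : ∃ n₀, qB.coeff n₀ ≠ 0 := by
    by_contra hno
    push Not at hno
    exact hqB (PowerSeries.ext fun n => by simpa using hno n)
  obtain ⟨π, hπ1, hπx⟩ := h22_exists_rat_proj hn₀
  obtain ⟨φL, hφval, hφrat, hφx⟩ : ∃ φL : ℂ →ₗ[ℚ] ℂ, (∀ x : ℂ, ∃ r : ℚ, φL x = (r : ℂ)) ∧
      (∀ r : ℚ, φL (r : ℂ) = (r : ℂ)) ∧ φL (qB.coeff n₀) ≠ 0 := by
    refine ⟨(Algebra.linearMap ℚ ℂ).comp π, fun x => ⟨π x, rfl⟩, fun r => ?_, ?_⟩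
    · have h1 : (r : ℂ) = r • (1 : ℂ) := by rw [Rat.smul_def, mul_one]
      have h2 : π (r : ℂ) = r := by rw [h1, map_smul, hπ1, smul_eq_mul, mul_one]
      change ((π (r : ℂ) : ℚ) : ℂ) = (r : ℂ)
      rw [h2]
    · change ((π (qB.coeff n₀) : ℚ) : ℂ) ≠ 0
      exact_mod_cast hπx
  obtain ⟨φ, hφ⟩ : ∃ φ : ℂ →+ ℂ, φ = φL.toAddMonoidHom := ⟨_, rfl⟩
  have hφval' : ∀ x : ℂ, ∃ r : ℚ, φ x = (r : ℂ) := by
    intro x; rw [hφ]; exact hφval x
  have hφrat' : ∀ r : ℚ, φ (r : ℂ) = (r : ℂ) := by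
    intro r; rw [hφ]; exact hφrat r
  have hmul : ∀ p q : PowerSeries ℂ, h22_IsRat q → h22_mapC φ (p * q) = h22_mapC φ p * q := by
    intro p q hq; rw [hφ]; exact h22_mapC_mul_rat φL p q hq
  have hq2 : h22_mapC φ qB * F = h22_mapC φ qA := by
    rw [← h1, hmul _ _ hF]
  have hB'0 : h22_mapC φ qB ≠ 0 := by
    intro h0
    have := congrArg (PowerSeries.coeff n₀) h0
    rw [h22_coeff_mapC, map_zero, hφ] at this
    exact hφx this
  have hq4 : F ^ μ + ∑ i : Fin μ, h22_mapC φ (qe i) * F ^ (μ - 1 - (i : ℕ)) = 0 := by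
    have h5 : h22_mapC φ (F ^ μ + ∑ i : Fin μ, qe i * F ^ (μ - 1 - (i : ℕ))) = 0 := by
      rw [h3, map_zero]
    rw [map_add, map_sum, h22_mapC_rat φ hφrat' _ (hF.pow μ)] at h5
    rw [← h5]
    congr 1
    refine Finset.sum_congr rfl fun i _ => ?_
    rw [hmul _ _ (hF.pow _)]
  exact h85_bddDen_of_integral F (h22_mapC φ qA) (h22_mapC φ qB) hB'0 hq2
    (h22_bddDen_mapC hφval' hA) (h22_bddDen_mapC hφval' hB) μ (fun i => h22_mapC φ (qe i))
    (fun i => h22_bddDen_mapC hφval' (he i)) hq4 hF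

/-- **Rational cusp forms have bounded denominators**, given a representation `f * B = A` with
`B` of level one and `A` in the integral span. -/
theorem h22_bddDen_of_rational {N : ℕ} [NeZero N] {k : ℤ}
    (f : CuspForm (CongruenceSubgroup.Gamma0 N) k)
    (hrep : ∃ (b : ℤ) (B : ModularForm 𝒮ℒ b)
      (A : ModularForm (CongruenceSubgroup.Gamma0 N) (k + b)),
      B ≠ 0 ∧ A ∈ Submodule.span ℂ {F : ModularForm (CongruenceSubgroup.Gamma0 N) (k + b) |
        ∀ n : ℕ, ∃ z : ℤ, (qExpansion 1 F).coeff n = (z : ℂ)} ∧ ∀ τ : ℍ, f τ * B τ = A τ)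
    (hf : ∀ n : ℕ, ∃ r : ℚ, (qExpansion 1 f).coeff n = (r : ℂ)) :
    BddDen (qExpansion 1 f) := by
  obtain ⟨b, B, A, hB, hA, hAB⟩ := hrep
  have hfN : h22_Nice (f : ℍ → ℂ) := h22_nice_Gamma0 f
  have hBN : h22_Nice (B : ℍ → ℂ) := h22_nice_levelOne B
  -- the `q`-series identity `qB * qf = qA`
  have hq1 : qExpansion 1 B * qExpansion 1 f = qExpansion 1 A := by
    rw [← hBN.qExpansion_mul hfN]
    congr 1
    funext τ
    rw [Pi.mul_apply, mul_comm]
    exact hAB τ
  have hqB : qExpansion 1 B ≠ 0 := by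
    rw [Ne, ModularForm.qExpansion_eq_zero_iff one_pos one_mem_strictPeriods_SL]
    exact hB
  -- spans
  have hBspan : qExpansion 1 B ∈ Submodule.span ℂ {p : PowerSeries ℂ | h22_IsInt p} := by
    apply h22_qExp_mem_span one_mem_strictPeriods_SL
    rw [h62_levelOne_span_int b]
    trivial
  have hAspan : qExpansion 1 A ∈ Submodule.span ℂ {p : PowerSeries ℂ | h22_IsInt p} :=
    h22_qExp_mem_span (CongruenceSubgroup.one_mem_strictPeriods_Gamma0 N) hA
  -- the monic equation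
  obtain ⟨μ, e, _, hmon⟩ := h96_exists_monic_cusp f
  have heN : ∀ i, h22_Nice (e i : ℍ → ℂ) := fun i => h22_nice_levelOne (e i)
  have hq3 : qExpansion 1 f ^ μ +
      ∑ i : Fin μ, qExpansion 1 (e i) * qExpansion 1 f ^ (μ - 1 - (i : ℕ)) = 0 := by
    have hfun : (f : ℍ → ℂ) ^ μ + ∑ i : Fin μ, (e i : ℍ → ℂ) * (f : ℍ → ℂ) ^ (μ - 1 - (i : ℕ))
        = 0 := by
      funext τ
      simpa using hmon τ
    have hnice : ∀ i ∈ (Finset.univ : Finset (Fin μ)),
        h22_Nice ((e i : ℍ → ℂ) * (f : ℍ → ℂ) ^ (μ - 1 - (i : ℕ))) :=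
      fun i _ => (heN i).mul (hfN.pow _)
    have := congrArg (qExpansion 1) hfun
    rw [(hfN.pow μ).qExpansion_add (h22_Nice.sum _ hnice), hfN.qExpansion_pow,
      h22_Nice.qExpansion_sum _ hnice, UpperHalfPlane.qExpansion_zero] at this
    rw [← this]
    congr 1
    refine Finset.sum_congr rfl fun i _ => ?_
    rw [(heN i).qExpansion_mul (hfN.pow _), hfN.qExpansion_pow]
  have hespan : ∀ i, qExpansion 1 (e i) ∈
      Submodule.span ℂ {p : PowerSeries ℂ | h22_IsInt p} := by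
    intro i
    have : (ModularFormClass.modularForm (e i) : ModularForm 𝒮ℒ _) ∈
        Submodule.span ℂ {c : ModularForm 𝒮ℒ (((i : ℕ) + 1 : ℤ) * k) |
          ∀ n : ℕ, ∃ m : ℤ, (qExpansion 1 c).coeff n = (m : ℂ)} := by
      rw [h62_levelOne_span_int]
      trivial
    have h := h22_qExp_mem_span one_mem_strictPeriods_SL this
    have hcoe : (⇑(ModularFormClass.modularForm (e i) : ModularForm 𝒮ℒ _) : ℍ → ℂ) = ⇑(e i) :=
      rfl
    rw [hcoe] at h
    exact h
  exact h22_bddDen_core (qExpansion 1 f) (qExpansion 1 B) (qExpansion 1 A) hf hqB hBspan hAspan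
    hq1 μ (fun i => qExpansion 1 (e i)) hespan hq3

end Fermat.Agent.S23
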