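import Mathlib
import Fermat.Agent.S23.h40_Conj2

set_option autoImplicit false

namespace Fermat.Agent.S23

open UpperHalfPlane ModularForm SlashInvariantForm
open scoped MatrixGroups ModularForm Manifold

/-! ### Pure algebra: Cramer's rule for the normal equations of a Vandermonde system -/

section algebra

variable {R : Type*} [CommRing R] {n : ℕ}

/-- For a square matrix `A`, `A * adj(Aᵀ A) * Aᵀ = det(Aᵀ A) • 1`. -/
theorem h81_mul_adjugate_transpose_mul (A : Matrix (Fin n) (Fin n) R) :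
    A * (A.transpose * A).adjugate * A.transpose = (A.transpose * A).det • 1 := by
  rw [Matrix.adjugate_mul_distrib, ← Matrix.mul_assoc, Matrix.mul_assoc (A * A.adjugate),
    Matrix.mul_adjugate, Matrix.adjugate_mul, Matrix.det_mul, Matrix.smul_mul, Matrix.one_mul,
    smul_smul, mul_comm]

/-- The Cramer solution of the normal equations solves the original system up to the
determinant of the Gram matrix. -/
theorem h81_cramer_normal (A : Matrix (Fin n) (Fin n) R) (y : Fin n → R) :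
    A.mulVec ((A.transpose * A).adjugate.mulVec (A.transpose.mulVec y)) =
      (A.transpose * A).det • y := by
  rw [Matrix.mulVec_mulVec, Matrix.mulVec_mulVec,
    h81_mul_adjugate_transpose_mul, Matrix.smul_mulVec, Matrix.one_mulVec]

/-- Entries of the Gram matrix of a Vandermonde matrix are power sums. -/
theorem h81_gram_vandermonde_apply (x : Fin n → R) (l m : Fin n) :
    ((Matrix.vandermonde x).transpose * Matrix.vandermonde x) l m =
      ∑ i, x i ^ ((l : ℕ) + (m : ℕ)) * 1 := by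
  rw [Matrix.mul_apply]
  refine Finset.sum_congr rfl fun i _ => ?_
  rw [Matrix.transpose_apply, Matrix.vandermonde_apply, Matrix.vandermonde_apply, pow_add, mul_one]

theorem h81_transpose_vandermonde_mulVec (x y : Fin n → R) (l : Fin n) :
    (Matrix.vandermonde x).transpose.mulVec y l = ∑ i, x i ^ (l : ℕ) * y i := by
  rw [Matrix.mulVec, dotProduct]
  refine Finset.sum_congr rfl fun i _ => ?_
  rw [Matrix.transpose_apply, Matrix.vandermonde_apply]

/-- The key identity: with `P = WᵀW`, `t = Wᵀ y`, `c = adj(P) t` for `W` the Vandermonde matrix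
of `x`, one has `∑ l, c l * x i ^ l = det P * y i`. -/
theorem h81_vandermonde_cramer (x y : Fin n → R) (i : Fin n) :
    ∑ l, ((Matrix.vandermonde x).transpose * Matrix.vandermonde x).adjugate.mulVec
        ((Matrix.vandermonde x).transpose.mulVec y) l * x i ^ (l : ℕ) =
      ((Matrix.vandermonde x).transpose * Matrix.vandermonde x).det * y i := by
  have h := congrFun (h81_cramer_normal (Matrix.vandermonde x) y) i
  rw [Pi.smul_apply, smul_eq_mul] at h
  rw [← h, Matrix.mulVec, dotProduct]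
  refine Finset.sum_congr rfl fun l _ => ?_
  rw [Matrix.vandermonde_apply, mul_comm]

theorem h81_det_gram_vandermonde (x : Fin n → R) :
    ((Matrix.vandermonde x).transpose * Matrix.vandermonde x).det =
      (∏ i, ∏ j ∈ Finset.Ioi i, (x j - x i)) ^ 2 := by
  rw [Matrix.det_mul, Matrix.det_transpose, Matrix.det_vandermonde, sq]

end algebra

/-! ### Functions on `ℍ` that are level one modular forms of a given weight -/

/-- `h81_IsL1 m F`: the function `F` is (the underlying function of) a level one modular form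
of weight `m`. -/
def h81_IsL1 (m : ℤ) (F : ℍ → ℂ) : Prop := ∃ G : ModularForm 𝒮ℒ m, ⇑G = F

theorem h81_IsL1.cast {m m' : ℤ} {F : ℍ → ℂ} (h : h81_IsL1 m F) (hm : m = m') :
    h81_IsL1 m' F := hm ▸ h

theorem h81_IsL1.congr' {m : ℤ} {F F' : ℍ → ℂ} (h : h81_IsL1 m F) (hF : F = F') :
    h81_IsL1 m F' := hF ▸ h

theorem h81_IsL1_zero (m : ℤ) : h81_IsL1 m 0 := ⟨0, rfl⟩

theorem h81_IsL1_const (c : ℂ) : h81_IsL1 0 (fun _ => c) := ⟨ModularForm.const c, rfl⟩

theorem h81_IsL1_one : h81_IsL1 0 1 := h81_IsL1_const 1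

theorem h81_IsL1.add {m : ℤ} {F G : ℍ → ℂ} (hF : h81_IsL1 m F) (hG : h81_IsL1 m G) :
    h81_IsL1 m (F + G) := by
  obtain ⟨F', rfl⟩ := hF
  obtain ⟨G', rfl⟩ := hG
  exact ⟨F' + G', rfl⟩

theorem h81_IsL1.neg {m : ℤ} {F : ℍ → ℂ} (hF : h81_IsL1 m F) : h81_IsL1 m (-F) := by
  obtain ⟨F', rfl⟩ := hF
  exact ⟨-F', rfl⟩

theorem h81_IsL1.mul {m m' : ℤ} {F G : ℍ → ℂ} (hF : h81_IsL1 m F) (hG : h81_IsL1 m' G) :
    h81_IsL1 (m + m') (F * G) := by
  obtain ⟨F', rfl⟩ := hF
  obtain ⟨G', rfl⟩ := hG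
  exact ⟨F'.mul G', rfl⟩

theorem h81_IsL1.sum {ι : Type*} {m : ℤ} (s : Finset ι) {F : ι → ℍ → ℂ}
    (hF : ∀ i ∈ s, h81_IsL1 m (F i)) : h81_IsL1 m (∑ i ∈ s, F i) := by
  classical
  induction s using Finset.induction_on with
  | empty => simpa using h81_IsL1_zero m
  | insert i t hi IH =>
    rw [Finset.sum_insert hi]
    exact (hF i (Finset.mem_insert_self i t)).add
      (IH fun j hj => hF j (Finset.mem_insert_of_mem hj))

theorem h81_IsL1.prod {ι : Type*} (s : Finset ι) {m : ι → ℤ} {F : ι → ℍ → ℂ}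
    (hF : ∀ i ∈ s, h81_IsL1 (m i) (F i)) : h81_IsL1 (∑ i ∈ s, m i) (∏ i ∈ s, F i) := by
  classical
  induction s using Finset.induction_on with
  | empty => simpa using h81_IsL1_one
  | insert i t hi IH =>
    rw [Finset.sum_insert hi, Finset.prod_insert hi]
    exact (hF i (Finset.mem_insert_self i t)).mul
      (IH fun j hj => hF j (Finset.mem_insert_of_mem hj))

/-- The determinant of a matrix of level one forms with bi-graded weights is a level one form. -/
theorem h81_IsL1_det {n : ℕ} (M : Matrix (Fin n) (Fin n) (ℍ → ℂ)) (a b : Fin n → ℤ)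
    (h : ∀ r c, h81_IsL1 (a r + b c) (M r c)) :
    h81_IsL1 (∑ r, a r + ∑ c, b c) M.det := by
  rw [Matrix.det_apply]
  refine h81_IsL1.sum _ fun σ _ => ?_
  have hprod : h81_IsL1 (∑ r, a r + ∑ c, b c) (∏ i, M (σ i) i) := by
    refine (h81_IsL1.prod Finset.univ (m := fun i => a (σ i) + b i)
      (F := fun i => M (σ i) i) fun i _ => h (σ i) i).cast ?_
    rw [Finset.sum_add_distrib, Equiv.sum_comp σ a]
  rcases Int.units_eq_one_or (Equiv.Perm.sign σ) with h1 | h1
  · rw [h1, one_smul]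
    exact hprod
  · rw [h1, Units.neg_smul, one_smul]
    exact hprod.neg

/-! ### Conjugates of forms of higher level -/

section conj

variable {𝒢 : Subgroup (GL (Fin 2) ℝ)}

local notation "𝒬" => 𝒮ℒ ⧸ (𝒢.subgroupOf 𝒮ℒ)

theorem h81_quotientFunc_mul [𝒢.HasDetPlusMinusOne] {k₁ k₂ : ℤ} (f : ModularForm 𝒢 k₁)
    (g : ModularForm 𝒢 k₂) (q : 𝒬) :
    quotientFunc (f.mul g) q = quotientFunc f q * quotientFunc g q := by
  induction q using Quotient.inductionOn with
  | h r =>
    rw [quotientFunc_mk, quotientFunc_mk, quotientFunc_mk, ModularForm.coe_mul, mul_slash,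
      Subgroup.HasDetPlusMinusOne.abs_det (inv_mem r.2), one_smul]

theorem h81_quotientFunc_const_one [𝒢.HasDetOne] (q : 𝒬) :
    quotientFunc (ModularForm.const 1 : ModularForm 𝒢 0) q = 1 := by
  induction q using Quotient.inductionOn with
  | h r =>
    rw [quotientFunc_mk]
    exact SlashInvariantFormClass.slash_action_eq (ModularForm.const 1 : ModularForm 𝒮ℒ 0) _
      (inv_mem r.2)

theorem h81_quotientFunc_mcast {a b : ℤ} (h : a = b) (f : ModularForm 𝒢 a) (q : 𝒬) :
    quotientFunc (ModularForm.mcast h f : ModularForm 𝒢 b) q = quotientFunc f q := by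
  subst h
  induction q using Quotient.inductionOn with
  | h r => rfl

theorem h81_IsL1_trace [𝒢.IsArithmetic] [Fintype 𝒬] {k : ℤ} (f : ModularForm 𝒢 k) :
    h81_IsL1 k (∑ q : 𝒬, quotientFunc f q) := by
  refine ⟨ModularForm.trace 𝒮ℒ f, ?_⟩
  rw [ModularForm.coe_trace]
  congr!

/-- Traces of `V ^ l * f` are level one forms. -/
theorem h81_IsL1_trace_pow_mul [𝒢.IsArithmetic] [𝒢.HasDetPlusMinusOne] [Fintype 𝒬]
    (V : ModularForm 𝒢 12) (l : ℕ) :
    ∀ {k : ℤ} (f : ModularForm 𝒢 k),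
      h81_IsL1 (k + 12 * (l : ℤ)) (∑ q : 𝒬, quotientFunc V q ^ l * quotientFunc f q) := by
  induction l with
  | zero =>
    intro k f
    simp only [pow_zero, one_mul]
    exact (h81_IsL1_trace f).cast (by simp)
  | succ l IH =>
    intro k f
    refine ((IH (V.mul f)).cast (by push_cast; ring)).congr' ?_
    refine Finset.sum_congr rfl fun q _ => ?_
    rw [h81_quotientFunc_mul, pow_succ, mul_assoc]

end conj

/-! ### The universal denominator -/

section main

variable {𝒢 : Subgroup (GL (Fin 2) ℝ)} [𝒢.IsArithmetic] [𝒢.HasDetOne]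

local notation "𝒬" => 𝒮ℒ ⧸ (𝒢.subgroupOf 𝒮ℒ)

/-- Adjugate entries of a bi-graded matrix of level one forms are level one forms. -/
theorem h81_IsL1_adjugate {n : ℕ} (M : Matrix (Fin n) (Fin n) (ℍ → ℂ)) (a b : Fin n → ℤ)
    (h : ∀ r c, h81_IsL1 (a r + b c) (M r c)) (l m : Fin n) :
    h81_IsL1 (∑ r, a r + ∑ c, b c - a m - b l) (M.adjugate l m) := by
  classical
  rw [Matrix.adjugate_apply]
  refine (h81_IsL1_det (M.updateRow m (Pi.single l 1)) (Function.update a m (-b l)) b ?_).cast ?_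
  · intro r c
    by_cases hr : r = m
    · subst hr
      rw [Matrix.updateRow_self, Function.update_self]
      by_cases hc : c = l
      · subst hc
        rw [Pi.single_eq_same]
        exact h81_IsL1_one.cast (by ring)
      · rw [Pi.single_eq_of_ne hc]
        exact h81_IsL1_zero _
    · rw [Matrix.updateRow_ne hr, Function.update_of_ne hr]
      exact h r c
  · rw [Finset.sum_update_of_mem (Finset.mem_univ m), Finset.sum_sdiff_eq_sub (by simp),
      Finset.sum_singleton]
    ring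

/-- **Universal level one denominator** (general arithmetic group of determinant one): if the
conjugates of `V` are pairwise distinct, every form `f` satisfies `D * f = ∑ c_l * V ^ l` with
level one `D ≠ 0` and level one coefficients `c_l`. -/
theorem h81_exists_denominator_of_injective (V : ModularForm 𝒢 12)
    (hinj : Function.Injective (quotientFunc (ℋ := 𝒮ℒ) (𝒢 := 𝒢) (k := 12) V)) :
    ∃ (μ : ℕ) (w : ℤ) (D : ModularForm 𝒮ℒ w), D ≠ 0 ∧
      ∀ (k : ℤ) (f : ModularForm 𝒢 k),
        ∃ c : (l : Fin μ) → ModularForm 𝒮ℒ (w + k - 12 * (l : ℤ)),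
          ∀ τ : ℍ, D τ * f τ = ∑ l : Fin μ, c l τ * V τ ^ (l : ℕ) := by
  classical
  let _ : Fintype 𝒬 := Fintype.ofFinite 𝒬
  let e : 𝒬 ≃ Fin (Nat.card 𝒬) := Finite.equivFin 𝒬
  set n := Nat.card 𝒬 with hn
  let x : Fin n → ℍ → ℂ := fun i => quotientFunc V (e.symm i)
  let a : Fin n → ℤ := fun r => 12 * (r : ℤ)
  have hP : ∀ l m : Fin n, h81_IsL1 (a l + a m)
      (((Matrix.vandermonde x).transpose * Matrix.vandermonde x) l m) := by
    intro l m
    have h1 := h81_IsL1_trace_pow_mul V ((l : ℕ) + (m : ℕ)) (ModularForm.const 1 : ModularForm 𝒢 0)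
    refine (h1.cast (by simp only [a]; push_cast; ring)).congr' ?_
    rw [h81_gram_vandermonde_apply, ← Equiv.sum_comp e.symm]
    refine Finset.sum_congr rfl fun i _ => ?_
    rw [h81_quotientFunc_const_one]
  obtain ⟨D, hDcoe⟩ := h81_IsL1_det _ a a hP
  refine ⟨n, ∑ r, a r + ∑ c, a c, D, ?_, ?_⟩
  · obtain ⟨τ₀, hτ₀⟩ := h40_exists_injective_of_injective V hinj
    intro hD0
    have h0 : ((Matrix.vandermonde x).transpose * Matrix.vandermonde x).det τ₀ = 0 := by
      rw [← hDcoe, hD0]; rfl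
    rw [h81_det_gram_vandermonde, Pi.pow_apply, Finset.prod_apply] at h0
    have h1 := pow_eq_zero_iff (two_ne_zero) |>.mp h0
    rw [Finset.prod_eq_zero_iff] at h1
    obtain ⟨i, -, hi⟩ := h1
    rw [Finset.prod_apply, Finset.prod_eq_zero_iff] at hi
    obtain ⟨j, hj, hij⟩ := hi
    rw [Pi.sub_apply, sub_eq_zero] at hij
    have h2 : e.symm j = e.symm i := hτ₀ hij
    have h3 : j = i := e.symm.injective h2
    rw [Finset.mem_Ioi] at hj
    exact absurd h3 (ne_of_gt hj)
  · intro k f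
    let y : Fin n → ℍ → ℂ := fun i => quotientFunc f (e.symm i)
    have ht : ∀ m : Fin n, h81_IsL1 (k + a m) ((Matrix.vandermonde x).transpose.mulVec y m) := by
      intro m
      refine (h81_IsL1_trace_pow_mul V (m : ℕ) f).congr' ?_
      rw [h81_transpose_vandermonde_mulVec, ← Equiv.sum_comp e.symm]
    have hc : ∀ l : Fin n, h81_IsL1 (∑ r, a r + ∑ c, a c + k - 12 * (l : ℤ))
        (((Matrix.vandermonde x).transpose * Matrix.vandermonde x).adjugate.mulVec
          ((Matrix.vandermonde x).transpose.mulVec y) l) := by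
      intro l
      rw [Matrix.mulVec, dotProduct]
      refine h81_IsL1.sum _ fun m _ => ?_
      exact ((h81_IsL1_adjugate _ a a hP l m).mul (ht m)).cast (by simp only [a]; ring)
    choose c hc using hc
    refine ⟨c, fun τ => ?_⟩
    have key := congrFun (h81_vandermonde_cramer x y (e (QuotientGroup.mk 1))) τ
    have hx : x (e (QuotientGroup.mk 1)) = ⇑V := by
      simp only [x, Equiv.symm_apply_apply]
      change quotientFunc V ⟦1⟧ = ⇑V
      rw [quotientFunc_mk]
      simp
    have hy : y (e (QuotientGroup.mk 1)) = ⇑f := by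
      simp only [y, Equiv.symm_apply_apply]
      change quotientFunc f ⟦1⟧ = ⇑f
      rw [quotientFunc_mk]
      simp
    rw [hx, hy, Pi.mul_apply, ← hDcoe, Finset.sum_apply] at key
    rw [← key]
    refine Finset.sum_congr rfl fun l _ => ?_
    rw [Pi.mul_apply, Pi.pow_apply, hc l]

end main

/-- If the stabiliser of `V` in `SL(2, ℤ)` is contained in `Γ₀(N)`, the conjugates of `V` are
pairwise distinct. -/
theorem h81_quotientFunc_injective_of_stabiliser (N : ℕ) [NeZero N]
    (V : ModularForm (CongruenceSubgroup.Gamma0 N) 12)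
    (hV : ∀ γ : SL(2, ℤ), (⇑V) ∣[(12 : ℤ)] γ = ⇑V → γ ∈ CongruenceSubgroup.Gamma0 N) :
    Function.Injective (quotientFunc (ℋ := 𝒮ℒ)
      (𝒢 := ((CongruenceSubgroup.Gamma0 N : Subgroup SL(2, ℤ)) : Subgroup (GL (Fin 2) ℝ)))
      (k := 12) V) := by
  intro q₁ q₂
  induction q₁ using Quotient.inductionOn with
  | h h₁ =>
  induction q₂ using Quotient.inductionOn with
  | h h₂ =>
  intro hq
  simp only [quotientFunc_mk] at hq
  have hq' : (V : ℍ → ℂ) ∣[(12 : ℤ)] (h₁.val⁻¹ * h₂.val) = (V : ℍ → ℂ) := by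
    have := congrArg (fun F : ℍ → ℂ => F ∣[(12 : ℤ)] h₂.val) hq
    simp only [← SlashAction.slash_mul] at this
    rw [this, inv_mul_cancel, SlashAction.slash_one]
  obtain ⟨γ₁, hγ₁⟩ := h₁.2
  obtain ⟨γ₂, hγ₂⟩ := h₂.2
  have hγ : h₁.val⁻¹ * h₂.val = Matrix.SpecialLinearGroup.mapGL ℝ (γ₁⁻¹ * γ₂) := by
    rw [map_mul, map_inv, hγ₁, hγ₂]
  rw [hγ] at hq'
  have hmem := hV (γ₁⁻¹ * γ₂) hq'
  refine QuotientGroup.eq.mpr ?_
  rw [Subgroup.mem_subgroupOf]
  refine ⟨γ₁⁻¹ * γ₂, hmem, ?_⟩
  rw [Subgroup.coe_mul, Subgroup.coe_inv, hγ]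

/-- **Universal level one denominator for `Γ₀(N)`.** -/
theorem h97_exists_denominator (N : ℕ) [NeZero N]
    (V : ModularForm (CongruenceSubgroup.Gamma0 N) 12)
    (hV : ∀ γ : SL(2, ℤ), (⇑V) ∣[(12 : ℤ)] γ = ⇑V → γ ∈ CongruenceSubgroup.Gamma0 N) :
    ∃ (μ : ℕ) (w : ℤ) (D : ModularForm 𝒮ℒ w), D ≠ 0 ∧
      ∀ (k : ℤ) (f : ModularForm (CongruenceSubgroup.Gamma0 N) k),
        ∃ c : (l : Fin μ) → ModularForm 𝒮ℒ (w + k - 12 * (l : ℤ)),
          ∀ τ : ℍ, D τ * f τ = ∑ l : Fin μ, c l τ * V τ ^ (l : ℕ) :=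
  h81_exists_denominator_of_injective V (h81_quotientFunc_injective_of_stabiliser N V hV)

end Fermat.Agent.S23
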