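import Mathlib
import Fermat.Prelude.Def_ModularForm_HeckeOperator
import Fermat.Prelude.Thm_UpperHalfPlane_qExpansion_coeff_nat_mul

set_option autoImplicit false

open UpperHalfPlane ModularForm Filter Topology CongruenceSubgroup
open scoped MatrixGroups ModularForm Manifold Pointwise

namespace Fermat.Agent.S23

/-- The conjugate `α γ α⁻¹` of an element of `Γ₀(N)` by `α = diag(N, 1)`. -/
def h97_conjSL (N : ℕ) (γ : SL(2, ℤ)) (h : (N : ℤ) ∣ γ 1 0) : SL(2, ℤ) :=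
  ⟨!![γ 0 0, N * γ 0 1; γ 1 0 / N, γ 1 1], by
    obtain ⟨c, hc⟩ := h
    have hdet := γ.det_coe
    rw [Matrix.det_fin_two] at hdet
    rw [Matrix.det_fin_two_of, hc]
    rcases eq_or_ne (N : ℤ) 0 with hN | hN
    · rw [hN] at hc ⊢
      simp only [zero_mul] at hc
      rw [hc] at hdet
      simp only [zero_mul, EuclideanDomain.div_zero, mul_zero, sub_zero] at hdet ⊢
      linarith
    · rw [Int.mul_ediv_cancel_left _ hN]
      rw [hc] at hdet
      linarith⟩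

theorem h97_mapGL_apply (g : SL(2, ℤ)) (i j : Fin 2) :
    ((Matrix.SpecialLinearGroup.mapGL ℝ g : GL (Fin 2) ℝ) : Matrix (Fin 2) (Fin 2) ℝ) i j =
      ((g i j : ℤ) : ℝ) := by
  rw [Matrix.SpecialLinearGroup.mapGL_coe_matrix]
  rfl

theorem h97_conjSL_mul (N : ℕ) [NeZero N] (γ : SL(2, ℤ)) (h : (N : ℤ) ∣ γ 1 0) :
    Matrix.SpecialLinearGroup.mapGL ℝ (h97_conjSL N γ h) * heckeDiagMatrix N =
      heckeDiagMatrix N * Matrix.SpecialLinearGroup.mapGL ℝ γ := by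
  have hN : N ≠ 0 := NeZero.ne N
  have hNz : (N : ℤ) ≠ 0 := by exact_mod_cast hN
  have h10 : ((h97_conjSL N γ h) 1 0 : ℤ) * N = γ 1 0 := by
    have : ((h97_conjSL N γ h) 1 0 : ℤ) = γ 1 0 / N := by simp [h97_conjSL]
    rw [this]
    exact Int.ediv_mul_cancel h
  have h10' : (((h97_conjSL N γ h) 1 0 : ℤ) : ℝ) * N = ((γ 1 0 : ℤ) : ℝ) := by
    exact_mod_cast h10
  apply Matrix.GeneralLinearGroup.ext
  intro i j
  rw [Matrix.GeneralLinearGroup.coe_mul, Matrix.GeneralLinearGroup.coe_mul,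
    val_heckeDiagMatrix hN, Matrix.mul_apply, Matrix.mul_apply, Fin.sum_univ_two,
    Fin.sum_univ_two]
  simp only [h97_mapGL_apply]
  fin_cases i <;> fin_cases j
  · simp [h97_conjSL, mul_comm]
  · simp [h97_conjSL]
  · simpa using h10'
  · simp [h97_conjSL]

/-- `Γ₀(N)` is contained in the conjugate `α⁻¹ SL(2,ℤ) α`, `α = diag(N, 1)`. -/
theorem h97_Gamma0_le_conj (N : ℕ) [NeZero N] :
    ((Gamma0 N : Subgroup SL(2, ℤ)) : Subgroup (GL (Fin 2) ℝ)) ≤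
      ConjAct.toConjAct (heckeDiagMatrix N)⁻¹ • 𝒮ℒ := by
  rintro _ ⟨γ, hγ, rfl⟩
  rw [Subgroup.mem_pointwise_smul_iff_inv_smul_mem, ← map_inv, inv_inv, ConjAct.smul_def,
    ConjAct.ofConjAct_toConjAct]
  have hdvd : (N : ℤ) ∣ γ 1 0 := by
    have := Gamma0_mem.mp hγ
    exact (ZMod.intCast_zmod_eq_zero_iff_dvd _ _).mp this
  refine ⟨h97_conjSL N γ hdvd, ?_⟩
  rw [eq_mul_inv_iff_mul_eq]
  exact h97_conjSL_mul N γ hdvd

theorem h97_levelRaiseFun_eq (N : ℕ) [NeZero N] (k : ℤ) (f : ℍ → ℂ) :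
    (fun τ => f (heckeDiagMatrix N • τ)) =
      ((N : ℂ) ^ (1 - k)) • (f ∣[k] heckeDiagMatrix N) := by
  funext τ
  have hN : (N : ℂ) ≠ 0 := by exact_mod_cast NeZero.ne N
  rw [Pi.smul_apply, slash_heckeDiagMatrix_apply k (NeZero.ne N), smul_eq_mul, ← mul_assoc,
    ← zpow_add₀ hN]
  simp

theorem h97_levelRaiseFun_slash (N : ℕ) [NeZero N] {k : ℤ} {F : Type*} [FunLike F ℍ ℂ]
    [SlashInvariantFormClass F 𝒮ℒ k] (f : F) (γ : GL (Fin 2) ℝ)
    (hγ : γ ∈ ((Gamma0 N : Subgroup SL(2, ℤ)) : Subgroup (GL (Fin 2) ℝ))) :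
    (fun τ => f (heckeDiagMatrix N • τ)) ∣[k] γ = fun τ => f (heckeDiagMatrix N • τ) := by
  rw [h97_levelRaiseFun_eq N k]
  have h1 := (SlashInvariantForm.translate f (heckeDiagMatrix N)).slash_action_eq' γ
    (h97_Gamma0_le_conj N hγ)
  have h2 : (⇑f ∣[k] heckeDiagMatrix N) ∣[k] γ = ⇑f ∣[k] heckeDiagMatrix N := h1
  obtain ⟨γ', -, rfl⟩ := hγ
  have h3 : (((N : ℂ) ^ (1 - k)) • (⇑f ∣[k] heckeDiagMatrix N)) ∣[k]
      (Matrix.SpecialLinearGroup.mapGL ℝ γ') = ((N : ℂ) ^ (1 - k)) •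
        ((⇑f ∣[k] heckeDiagMatrix N) ∣[k] (Matrix.SpecialLinearGroup.mapGL ℝ γ')) :=
    ModularForm.SL_smul_slash k γ' (⇑f ∣[k] heckeDiagMatrix N) ((N : ℂ) ^ (1 - k))
  rw [h3, h2]

theorem h97_levelRaiseFun_mdiff (N : ℕ) [NeZero N] (k : ℤ) {f : ℍ → ℂ} (hf : MDiff f) :
    MDiff (fun τ => f (heckeDiagMatrix N • τ)) := by
  rw [h97_levelRaiseFun_eq N k]
  exact (hf.slash k _).const_smul _

/-- Level raising `f(τ) ↦ f(Nτ)` from level one to `Γ₀(N)`, for modular forms. -/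
noncomputable def h97_levelRaise (N : ℕ) [NeZero N] {k : ℤ} (f : ModularForm 𝒮ℒ k) :
    ModularForm ((Gamma0 N : Subgroup SL(2, ℤ)) : Subgroup (GL (Fin 2) ℝ)) k where
  toFun := fun τ => f (heckeDiagMatrix N • τ)
  slash_action_eq' := h97_levelRaiseFun_slash N f
  holo' := h97_levelRaiseFun_mdiff N k f.holo'
  bdd_at_cusps' := by
    intro c hc g hg
    have h1 := (ModularForm.translate f (heckeDiagMatrix N)).bdd_at_cusps'
      (hc.mono (h97_Gamma0_le_conj N)) g hg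
    have h2 : IsBoundedAtImInfty ((⇑f ∣[k] heckeDiagMatrix N) ∣[k] g) := h1
    show IsBoundedAtImInfty ((fun τ => f (heckeDiagMatrix N • τ)) ∣[k] g)
    rw [h97_levelRaiseFun_eq N k, ModularForm.smul_slash]
    exact h2.smul _

/-- Level raising `f(τ) ↦ f(Nτ)` from level one to `Γ₀(N)`, for cusp forms. -/
noncomputable def h97_levelRaiseCusp (N : ℕ) [NeZero N] {k : ℤ} (f : CuspForm 𝒮ℒ k) :
    CuspForm ((Gamma0 N : Subgroup SL(2, ℤ)) : Subgroup (GL (Fin 2) ℝ)) k where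
  toFun := fun τ => f (heckeDiagMatrix N • τ)
  slash_action_eq' := h97_levelRaiseFun_slash N f
  holo' := h97_levelRaiseFun_mdiff N k f.holo'
  zero_at_cusps' := by
    intro c hc g hg
    have h1 := (CuspForm.translate f (heckeDiagMatrix N)).zero_at_cusps'
      (hc.mono (h97_Gamma0_le_conj N)) g hg
    have h2 : IsZeroAtImInfty ((⇑f ∣[k] heckeDiagMatrix N) ∣[k] g) := h1
    show IsZeroAtImInfty ((fun τ => f (heckeDiagMatrix N • τ)) ∣[k] g)
    rw [h97_levelRaiseFun_eq N k, ModularForm.smul_slash]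
    exact h2.smul _

theorem h97_levelRaise_apply (N : ℕ) [NeZero N] {k : ℤ} (f : ModularForm 𝒮ℒ k) (τ : ℍ) :
    h97_levelRaise N f τ = f (heckeDiagMatrix N • τ) := rfl

theorem h97_levelRaiseCusp_apply (N : ℕ) [NeZero N] {k : ℤ} (f : CuspForm 𝒮ℒ k) (τ : ℍ) :
    h97_levelRaiseCusp N f τ = f (heckeDiagMatrix N • τ) := rfl

theorem h97_coe_levelRaise (N : ℕ) [NeZero N] {k : ℤ} (f : ModularForm 𝒮ℒ k) :
    (h97_levelRaise N f : ℍ → ℂ) = ((N : ℂ) ^ (1 - k)) • ((f : ℍ → ℂ) ∣[k] heckeDiagMatrix N) :=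
  h97_levelRaiseFun_eq N k f

theorem h97_coe_levelRaiseCusp (N : ℕ) [NeZero N] {k : ℤ} (f : CuspForm 𝒮ℒ k) :
    (h97_levelRaiseCusp N f : ℍ → ℂ) =
      ((N : ℂ) ^ (1 - k)) • ((f : ℍ → ℂ) ∣[k] heckeDiagMatrix N) :=
  h97_levelRaiseFun_eq N k f

theorem h97_hasSum_levelRaiseFun (N : ℕ) [NeZero N] {k : ℤ} {F : Type*} [FunLike F ℍ ℂ]
    [ModularFormClass F 𝒮ℒ k] (f : F) (τ : ℍ) :
    HasSum (fun n : ℕ => (if N ∣ n then (qExpansion 1 f).coeff (n / N) else 0) •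
      Function.Periodic.qParam 1 τ ^ n) (f (heckeDiagMatrix N • τ)) := by
  have hN : N ≠ 0 := NeZero.ne N
  have h1 := ModularForm.hasSum_qExpansion f one_pos one_mem_strictPeriods_SL
    (heckeDiagMatrix N • τ)
  have hq : Function.Periodic.qParam 1 ((heckeDiagMatrix N • τ : ℍ) : ℂ) =
      Function.Periodic.qParam 1 (τ : ℂ) ^ N := by
    rw [coe_heckeDiagMatrix_smul hN, Function.Periodic.qParam, Function.Periodic.qParam,
      ← Complex.exp_nat_mul]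
    congr 1
    push_cast
    ring
  rw [hq] at h1
  have hinj : Function.Injective (fun m : ℕ => N * m) := fun a b hab =>
    Nat.eq_of_mul_eq_mul_left (Nat.pos_of_ne_zero hN) hab
  refine (hinj.hasSum_iff ?_).mp ?_
  · intro n hn
    have hnd : ¬ N ∣ n := fun ⟨m, hm⟩ => hn ⟨m, hm.symm⟩
    simp [hnd]
  · convert h1 using 2 with m
    simp only [Function.comp_apply, dvd_mul_right, if_true, Nat.mul_div_cancel_left _
      (Nat.pos_of_ne_zero hN), smul_eq_mul, pow_mul]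

theorem h97_qExpansion_levelRaise (N : ℕ) [NeZero N] {k : ℤ} (f : ModularForm 𝒮ℒ k) (n : ℕ) :
    (qExpansion 1 (h97_levelRaise N f)).coeff n =
      if N ∣ n then (qExpansion 1 f).coeff (n / N) else 0 := by
  have hΓ : (1 : ℝ) ∈ ((Gamma0 N : Subgroup SL(2, ℤ)) : Subgroup (GL (Fin 2) ℝ)).strictPeriods := by
    simp
  exact (ModularFormClass.qExpansion_coeff_unique one_pos hΓ (f := h97_levelRaise N f)
    (fun τ => h97_hasSum_levelRaiseFun N f τ) n).symm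

theorem h97_qExpansion_levelRaiseCusp (N : ℕ) [NeZero N] {k : ℤ} (f : CuspForm 𝒮ℒ k) (n : ℕ) :
    (qExpansion 1 (h97_levelRaiseCusp N f)).coeff n =
      if N ∣ n then (qExpansion 1 f).coeff (n / N) else 0 := by
  have hΓ : (1 : ℝ) ∈ ((Gamma0 N : Subgroup SL(2, ℤ)) : Subgroup (GL (Fin 2) ℝ)).strictPeriods := by
    simp
  exact (ModularFormClass.qExpansion_coeff_unique one_pos hΓ (f := h97_levelRaiseCusp N f)
    (fun τ => h97_hasSum_levelRaiseFun N f τ) n).symm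

end Fermat.Agent.S23
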