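import Mathlib
import Fermat.Agent.S23.h97_LevelRaise
import Fermat.Agent.S23.h62_LevelOne
import Fermat.Agent.S23.h40_Conj2

set_option autoImplicit false

open UpperHalfPlane ModularForm Filter Topology CongruenceSubgroup
open scoped MatrixGroups ModularForm Manifold Pointwise

namespace Fermat.Agent.S23

/-- The level one form `W = E₄³ - E₆² = 1728 Δ` of weight 12. -/
noncomputable def h97_W : ModularForm 𝒮ℒ 12 :=
  ModularForm.mcast (by decide) (E₄.pow 3) - ModularForm.mcast (by decide) (E₆.pow 2)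

theorem h97_W_apply (z : ℍ) : h97_W z = 1728 * ModularForm.discriminant z := by
  have h1 : h97_W z = E₄ z ^ 3 - E₆ z ^ 2 := by
    simp only [h97_W, coe_mcast, coe_pow, sub_apply, Pi.pow_apply]
  have h2 := ModularForm.discriminant_eq_E₄_cube_sub_E₆_sq z
  rw [h1, h2]
  ring

theorem h97_W_qExpansion :
    qExpansion 1 h97_W = qExpansion 1 E₄ ^ 3 - qExpansion 1 E₆ ^ 2 := by
  simp only [h97_W, FunLike.coe_sub, coe_mcast,
    ModularForm.qExpansion_sub one_pos one_mem_strictPeriods_SL,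
    ModularForm.qExpansion_pow one_pos one_mem_strictPeriods_SL]

theorem h97_W_int (n : ℕ) : ∃ z : ℤ, (qExpansion 1 h97_W).coeff n = (z : ℂ) := by
  have h : h62_IsIntPS (qExpansion 1 h97_W) := by
    rw [h97_W_qExpansion]
    exact h62_IsIntPS.sub (h62_IsIntPS.pow ((h62_mem_intForms_iff _).1 h62_E4_mem) 3)
      (h62_IsIntPS.pow ((h62_mem_intForms_iff _).1 h62_E6_mem) 2)
  exact h n

/-- `V_N(τ) = W(Nτ) = 1728 Δ(Nτ)`, a modular form of weight 12 on `Γ₀(N)` with integral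
`q`-expansion. -/
noncomputable def h97_VN (N : ℕ) [NeZero N] : ModularForm (Gamma0 N) 12 :=
  h97_levelRaise N h97_W

theorem h97_VN_apply (N : ℕ) [NeZero N] (τ : ℍ) :
    h97_VN N τ = 1728 * ModularForm.discriminant (heckeDiagMatrix N • τ) := by
  rw [h97_VN, h97_levelRaise_apply, h97_W_apply]

theorem h97_VN_int (N : ℕ) [NeZero N] (n : ℕ) :
    ∃ z : ℤ, (qExpansion 1 (h97_VN N)).coeff n = (z : ℂ) := by
  rw [h97_VN, h97_qExpansion_levelRaise]
  split_ifs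
  · exact h97_W_int _
  · exact ⟨0, by simp⟩

theorem h97_VN_coe (N : ℕ) [NeZero N] :
    (h97_VN N : ℍ → ℂ) = ((1728 : ℂ) * (N : ℂ) ^ (1 - 12 : ℤ)) •
      ((ModularForm.discriminant : ℍ → ℂ) ∣[(12 : ℤ)] heckeDiagMatrix N) := by
  have hN : (N : ℂ) ≠ 0 := Nat.cast_ne_zero.mpr (NeZero.ne N)
  funext τ
  rw [h97_VN_apply, Pi.smul_apply, slash_heckeDiagMatrix_apply 12 (NeZero.ne N), smul_eq_mul]
  have : (N : ℂ) ^ (1 - 12 : ℤ) * (N : ℂ) ^ ((12 : ℤ) - 1) = 1 := by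
    rw [← zpow_add₀ hN]; norm_num
  linear_combination (-(1728 : ℂ) * ModularForm.discriminant (heckeDiagMatrix N • τ)) * this

theorem h97_VN_const_ne_zero (N : ℕ) [NeZero N] : (1728 : ℂ) * (N : ℂ) ^ (1 - 12 : ℤ) ≠ 0 := by
  have hN : (N : ℂ) ≠ 0 := Nat.cast_ne_zero.mpr (NeZero.ne N)
  exact mul_ne_zero (by norm_num) (zpow_ne_zero _ hN)

theorem h97_VN_eq (N : ℕ) [NeZero N] (τ : ℍ) :
    h97_VN N τ =
      1728 * ModularForm.discriminant (UpperHalfPlane.ofComplex ((N : ℂ) * (τ : ℂ))) := by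
  rw [h97_VN_apply]
  congr 2
  apply UpperHalfPlane.ext
  rw [coe_heckeDiagMatrix_smul (NeZero.ne N)]
  have him : 0 < ((N : ℂ) * (τ : ℂ)).im := by
    have : ((N : ℂ) * (τ : ℂ)).im = (N : ℝ) * τ.im := by simp
    rw [this]
    exact mul_pos (Nat.cast_pos.mpr (Nat.pos_of_ne_zero (NeZero.ne N))) τ.im_pos
  rw [UpperHalfPlane.ofComplex_apply_of_im_pos him]

/-- Task VN of the S23 plan, in its exact interface. -/
theorem h97_exists_VN (N : ℕ) [NeZero N] :
    ∃ V : ModularForm (CongruenceSubgroup.Gamma0 N) 12,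
      (∀ n : ℕ, ∃ z : ℤ, (qExpansion 1 V).coeff n = (z : ℂ)) ∧
      ∃ c : ℂ, c ≠ 0 ∧ ∀ τ : ℍ,
        V τ = c * ModularForm.discriminant (UpperHalfPlane.ofComplex ((N : ℂ) * (τ : ℂ))) :=
  ⟨h97_VN N, h97_VN_int N, 1728, by norm_num, h97_VN_eq N⟩

/-- The stabiliser of `V_N` in `SL(2, ℤ)` under the weight 12 slash action is `Γ₀(N)`. -/
theorem h97_VN_stab (N : ℕ) [NeZero N] (γ : SL(2, ℤ))
    (h : (⇑(h97_VN N)) ∣[(12 : ℤ)] γ = ⇑(h97_VN N)) : γ ∈ CongruenceSubgroup.Gamma0 N :=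
  h40_mem_Gamma0_of_slash_eq N (⇑(h97_VN N)) 1728 (by norm_num) (h97_VN_eq N) γ h

/-- There is a point of `ℍ` where all the `SL(2, ℤ)`-conjugates of `V_N` take pairwise
distinct values. -/
theorem h97_VN_exists_injective (N : ℕ) [NeZero N] :
    ∃ τ : ℍ, Function.Injective
      (fun q : 𝒮ℒ ⧸ ((Gamma0 N : Subgroup SL(2, ℤ)) : Subgroup (GL (Fin 2) ℝ)).subgroupOf 𝒮ℒ =>
        SlashInvariantForm.quotientFunc (h97_VN N) q τ) :=
  h40_exists_injective_quotientFunc_of_eq N (h97_VN N) 1728 (by norm_num) (h97_VN_eq N)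

end Fermat.Agent.S23
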