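import Mathlib
import Fermat.Statements.S23
import Fermat.Agent.S23.h22_Nice
import Fermat.Agent.S23.h22_Series
import Fermat.Agent.S23.h62_LevelOne
import Fermat.Agent.S23.h97_VN
import Fermat.Agent.S23.h97_Den

set_option autoImplicit false

open UpperHalfPlane ModularForm
open scoped MatrixGroups ModularForm Manifold

namespace Fermat.Agent.S23

theorem h22_Gamma0_le_SL (N : ℕ) :
    ((CongruenceSubgroup.Gamma0 N : Subgroup SL(2, ℤ)) : Subgroup (GL (Fin 2) ℝ)) ≤ 𝒮ℒ :=
  Subgroup.map_le_range _ _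

/-- Restriction of a level one form to `Γ₀(N)`. -/
noncomputable def h22_restrict (N : ℕ) {m : ℤ} (G : ModularForm 𝒮ℒ m) :
    ModularForm (CongruenceSubgroup.Gamma0 N) m where
  toFun := G
  slash_action_eq' γ hγ := G.slash_action_eq' γ (h22_Gamma0_le_SL N hγ)
  holo' := G.holo'
  bdd_at_cusps' hc := G.bdd_at_cusps' (hc.mono (h22_Gamma0_le_SL N))

/-- `G ↦ G * V ^ l`, from level one to level `N`. -/
noncomputable def h22_mulV (N : ℕ) (V : ModularForm (CongruenceSubgroup.Gamma0 N) 12) (l : ℕ)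
    {m w : ℤ} (hw : m + (l : ℤ) * 12 = w) (G : ModularForm 𝒮ℒ m) :
    ModularForm (CongruenceSubgroup.Gamma0 N) w :=
  ModularForm.mcast hw ((h22_restrict N G).mul (V.pow l))

theorem h22_mulV_coe (N : ℕ) (V : ModularForm (CongruenceSubgroup.Gamma0 N) 12) (l : ℕ)
    {m w : ℤ} (hw : m + (l : ℤ) * 12 = w) (G : ModularForm 𝒮ℒ m) :
    (h22_mulV N V l hw G : ℍ → ℂ) = (G : ℍ → ℂ) * (V : ℍ → ℂ) ^ l := by
  rw [h22_mulV, ModularForm.coe_mcast, ModularForm.coe_mul, ModularForm.coe_pow]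
  rfl

theorem h22_mulV_apply (N : ℕ) (V : ModularForm (CongruenceSubgroup.Gamma0 N) 12) (l : ℕ)
    {m w : ℤ} (hw : m + (l : ℤ) * 12 = w) (G : ModularForm 𝒮ℒ m) (τ : ℍ) :
    h22_mulV N V l hw G τ = G τ * V τ ^ l := by
  have := congrFun (h22_mulV_coe N V l hw G) τ
  simpa using this

/-- `h22_mulV` maps the integral span into the integral span. -/
theorem h22_mulV_mem_span (N : ℕ) (V : ModularForm (CongruenceSubgroup.Gamma0 N) 12)
    (hV : ∀ n : ℕ, ∃ z : ℤ, (qExpansion 1 V).coeff n = (z : ℂ)) (l : ℕ)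
    {m w : ℤ} (hw : m + (l : ℤ) * 12 = w) (G : ModularForm 𝒮ℒ m) :
    h22_mulV N V l hw G ∈ Submodule.span ℂ {F : ModularForm (CongruenceSubgroup.Gamma0 N) w |
      ∀ n : ℕ, ∃ z : ℤ, (qExpansion 1 F).coeff n = (z : ℂ)} := by
  have hG : G ∈ Submodule.span ℂ {c : ModularForm 𝒮ℒ m |
      ∀ n : ℕ, ∃ z : ℤ, (qExpansion 1 c).coeff n = (z : ℂ)} := by
    rw [h62_levelOne_span_int m]
    trivial
  induction hG using Submodule.span_induction with
  | mem x hx =>
    refine Submodule.subset_span ?_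
    have hxN : h22_Nice (x : ℍ → ℂ) := h22_nice_levelOne x
    have hVN : h22_Nice (V : ℍ → ℂ) := h22_nice_Gamma0 V
    have hq : qExpansion 1 (h22_mulV N V l hw x) = qExpansion 1 x * qExpansion 1 V ^ l := by
      rw [h22_mulV_coe, hxN.qExpansion_mul (hVN.pow l), hVN.qExpansion_pow]
    have hint : h22_IsInt (qExpansion 1 (h22_mulV N V l hw x)) := by
      rw [hq]
      exact h22_IsInt.mul hx (h22_IsInt.pow hV l)
    exact hint
  | zero =>
    have : h22_mulV N V l hw (0 : ModularForm 𝒮ℒ m) = 0 := by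
      ext τ
      rw [h22_mulV_apply]
      simp
    rw [this]
    exact Submodule.zero_mem _
  | add x y _ _ ihx ihy =>
    have : h22_mulV N V l hw (x + y) = h22_mulV N V l hw x + h22_mulV N V l hw y := by
      ext τ
      rw [add_apply, h22_mulV_apply, h22_mulV_apply, h22_mulV_apply, add_apply]
      ring
    rw [this]
    exact Submodule.add_mem _ ihx ihy
  | smul a x _ ih =>
    have : h22_mulV N V l hw (a • x) = a • h22_mulV N V l hw x := by
      ext τ
      rw [smul_apply, h22_mulV_apply, h22_mulV_apply, smul_apply]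
      simp only [smul_eq_mul]
      ring
    rw [this]
    exact Submodule.smul_mem _ _ ih

theorem h22_sum_apply {Γ : Subgroup (GL (Fin 2) ℝ)} {w : ℤ} {ι : Type*} (s : Finset ι)
    (F : ι → ModularForm Γ w) (τ : ℍ) : (∑ i ∈ s, F i) τ = ∑ i ∈ s, F i τ := by
  classical
  induction s using Finset.induction_on with
  | empty => simp
  | insert a s ha ih => rw [Finset.sum_insert ha, Finset.sum_insert ha, add_apply, ih]

/-- **The integral representation** `f * B = A` with `B` a nonzero level one form and `A` in the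
integral span, for every cusp form `f` on `Γ₀(N)`. -/
theorem h22_exists_rep (N : ℕ) [NeZero N] {k : ℤ} (f : CuspForm (CongruenceSubgroup.Gamma0 N) k) :
    ∃ (b : ℤ) (B : ModularForm 𝒮ℒ b)
      (A : ModularForm (CongruenceSubgroup.Gamma0 N) (k + b)),
      B ≠ 0 ∧ A ∈ Submodule.span ℂ {F : ModularForm (CongruenceSubgroup.Gamma0 N) (k + b) |
        ∀ n : ℕ, ∃ z : ℤ, (qExpansion 1 F).coeff n = (z : ℂ)} ∧ ∀ τ : ℍ, f τ * B τ = A τ := by
  obtain ⟨μ, w, D, hD, hrep⟩ := h97_exists_denominator N (h97_VN N) (h97_VN_stab N)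
  obtain ⟨c, hc⟩ := hrep k (ModularFormClass.modularForm f)
  have hw : ∀ l : Fin μ, (w + k - 12 * ((l : ℕ) : ℤ)) + ((l : ℕ) : ℤ) * 12 = k + w := by
    intro l; ring
  refine ⟨w, D, ∑ l : Fin μ, h22_mulV N (h97_VN N) (l : ℕ) (hw l) (c l), hD, ?_, fun τ => ?_⟩
  · exact Submodule.sum_mem _ fun l _ => h22_mulV_mem_span N (h97_VN N) (h97_VN_int N) _ _ _
  · have h1 : (ModularFormClass.modularForm f : ModularForm (CongruenceSubgroup.Gamma0 N) k) τ
        = f τ := rfl
    have h2 := hc τ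
    rw [h1] at h2
    have h3 : (∑ l : Fin μ, h22_mulV N (h97_VN N) (l : ℕ) (hw l) (c l)) τ
        = ∑ l : Fin μ, c l τ * h97_VN N τ ^ (l : ℕ) := by
      rw [h22_sum_apply]
      exact Finset.sum_congr rfl fun l _ => h22_mulV_apply _ _ _ _ _ _
    rw [h3, ← h2, mul_comm]

end Fermat.Agent.S23
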