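import Fermat.Agent.S23.h48_Descent
import Fermat.Agent.S49.Coeff
import Fermat.Prelude.Thm_ModularForm_sturm_bound_Gamma0

set_option autoImplicit false

open CuspForm CongruenceSubgroup ModularFormClass UpperHalfPlane

namespace Fermat.Agent.S23

open Fermat.Agent.S49 in
/-- The `q`-coefficient map on cusp forms of level `Γ₀(N)`, as a linear map. -/
noncomputable def h48_coeffMap (N : ℕ) (k : ℤ) : CuspForm (Gamma0 N) k →ₗ[ℂ] (ℕ → ℂ) where
  toFun f n := (qExpansion 1 f).coeff n
  map_add' f g := by
    funext n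
    exact qc_add f g n
  map_smul' a f := by
    funext n
    exact qc_smul a f n

theorem h48_coeffMap_apply (N : ℕ) (k : ℤ) (f : CuspForm (Gamma0 N) k) (n : ℕ) :
    h48_coeffMap N k f n = (qExpansion 1 f).coeff n := rfl

open Fermat.Agent.S49 in
theorem h48_coeffMap_injective (N : ℕ) (k : ℤ) : Function.Injective (h48_coeffMap N k) := by
  rw [← LinearMap.ker_eq_bot, LinearMap.ker_eq_bot']
  intro f hf
  apply qc_eq_zero
  intro n
  exact congrFun hf n

/-- Truncated coefficient map, injective by the Sturm bound. -/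
noncomputable def h48_trunc (N : ℕ) (k : ℤ) :
    CuspForm (Gamma0 N) k →ₗ[ℂ]
      (Fin ((k * (Gamma0 N).index).toNat / 12 + 1) → ℂ) where
  toFun f i := h48_coeffMap N k f i
  map_add' f g := by
    funext i
    simp
  map_smul' a f := by
    funext i
    simp

theorem h48_trunc_injective (N : ℕ) [NeZero N] (k : ℤ) : Function.Injective (h48_trunc N k) := by
  refine (injective_iff_map_eq_zero _).mpr fun f hf ↦ ?_
  have hmf : (ModularFormClass.modularForm f : ModularForm (Gamma0 N) k) = 0 := by
    refine ModularForm.sturm_bound_Gamma0 N _ fun n hn ↦ ?_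
    have := congrFun hf ⟨n, Nat.lt_succ_of_le hn⟩
    simpa [h48_trunc, h48_coeffMap] using this
  have hcoe : (⇑f : ℍ → ℂ) = 0 := by
    have := congrArg (fun F : ModularForm (Gamma0 N) k ↦ (⇑F : ℍ → ℂ)) hmf
    simpa using this
  exact DFunLike.coe_injective (hcoe.trans FunLike.coe_zero.symm)

theorem h48_finiteDimensional_cuspForm (N : ℕ) [NeZero N] (k : ℤ) :
    FiniteDimensional ℂ (CuspForm (Gamma0 N) k) :=
  FiniteDimensional.of_injective (h48_trunc N k) (h48_trunc_injective N k)

/-- If cusp forms of level `Γ₀(N)` are stable under coefficientwise ring endomorphisms of `ℂ`,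
they are spanned by forms with rational `q`-coefficients. -/
theorem h48_cuspForm_ratSpan_eq_top (N : ℕ) [NeZero N] (k : ℤ)
    (htw : ∀ (φ : ℂ →+* ℂ) (f : CuspForm (Gamma0 N) k),
      ∃ g : CuspForm (Gamma0 N) k, ∀ n, (qExpansion 1 g).coeff n = φ ((qExpansion 1 f).coeff n)) :
    Submodule.span ℂ {f : CuspForm (Gamma0 N) k |
      ∀ n, ∃ r : ℚ, (qExpansion 1 f).coeff n = (r : ℂ)} = ⊤ := by
  have hfd := h48_finiteDimensional_cuspForm N k
  exact h48_descent (h48_coeffMap N k) (h48_coeffMap_injective N k) htw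

end Fermat.Agent.S23
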