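import Mathlib

set_option autoImplicit false

namespace Fermat.Agent.S23

open UpperHalfPlane Function
open scoped MatrixGroups ModularForm Manifold CongruenceSubgroup

/-- Holomorphic on the upper half plane, `1`-periodic and bounded at `i∞`. -/
structure h60_Nice (F : ℍ → ℂ) : Prop where
  mdiff : MDiff F
  periodic : Function.Periodic (F ∘ ofComplex) 1
  bdd : IsBoundedAtImInfty F

theorem h60_Nice.analytic {F : ℍ → ℂ} (hF : h60_Nice F) :
    AnalyticAt ℂ (cuspFunction 1 F) 0 :=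
  analyticAt_cuspFunction_zero one_pos hF.periodic hF.mdiff hF.bdd

theorem h60_Nice.add {F G : ℍ → ℂ} (hF : h60_Nice F) (hG : h60_Nice G) : h60_Nice (F + G) where
  mdiff := hF.mdiff.add hG.mdiff
  periodic := fun z => by
    have h1 := hF.periodic z
    have h2 := hG.periodic z
    simp only [Function.comp_apply, Pi.add_apply] at h1 h2 ⊢
    rw [h1, h2]
  bdd := hF.bdd.add hG.bdd

theorem h60_Nice.mul {F G : ℍ → ℂ} (hF : h60_Nice F) (hG : h60_Nice G) : h60_Nice (F * G) where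
  mdiff := hF.mdiff.mul hG.mdiff
  periodic := fun z => by
    have h1 := hF.periodic z
    have h2 := hG.periodic z
    simp only [Function.comp_apply, Pi.mul_apply] at h1 h2 ⊢
    rw [h1, h2]
  bdd := hF.bdd.mul hG.bdd

theorem h60_Nice.const (c : ℂ) : h60_Nice (fun _ : ℍ => c) where
  mdiff := mdifferentiable_const
  periodic := fun _ => rfl
  bdd := Filter.const_boundedAtFilter _ c

theorem h60_Nice.neg {F : ℍ → ℂ} (hF : h60_Nice F) : h60_Nice (-F) := by
  have h := (h60_Nice.const (-1)).mul hF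
  have e : (fun _ : ℍ => (-1 : ℂ)) * F = -F := by
    funext τ; simp
  rwa [e] at h


/-- The ring of holomorphic, `1`-periodic functions on the upper half plane bounded at `i∞`. -/
def h60_niceSubring : Subring (ℍ → ℂ) where
  carrier := {F | h60_Nice F}
  mul_mem' := fun hF hG => hF.mul hG
  one_mem' := h60_Nice.const 1
  add_mem' := fun hF hG => hF.add hG
  zero_mem' := h60_Nice.const 0
  neg_mem' := fun hF => hF.neg

theorem h60_mem_niceSubring {F : ℍ → ℂ} : F ∈ h60_niceSubring ↔ h60_Nice F := Iff.rfl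

/-- The `q`-expansion as a ring homomorphism on `h60_niceSubring`. -/
noncomputable def h60_qExpHom : h60_niceSubring →+* PowerSeries ℂ where
  toFun F := qExpansion 1 (F : ℍ → ℂ)
  map_one' := qExpansion_one 1
  map_mul' F G := qExpansion_mul (h60_Nice.analytic F.2) (h60_Nice.analytic G.2)
  map_zero' := qExpansion_zero 1
  map_add' F G := qExpansion_add (h60_Nice.analytic F.2) (h60_Nice.analytic G.2)

theorem h60_qExpHom_apply (F : h60_niceSubring) :
    h60_qExpHom F = qExpansion 1 (F : ℍ → ℂ) := rfl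

theorem h60_qExpHom_injective : Function.Injective h60_qExpHom := by
  rw [injective_iff_map_eq_zero]
  intro F hF
  have hN : h60_Nice (F : ℍ → ℂ) := F.2
  have := (qExpansion_eq_zero_iff one_pos hN.periodic hN.mdiff hN.bdd).mp hF
  exact Subtype.ext this


theorem h60_nice_of_modularForm {Γ : Subgroup (GL (Fin 2) ℝ)} {w : ℤ} {F : Type*}
    [FunLike F ℍ ℂ] [ModularFormClass F Γ w] (hΓ : (1 : ℝ) ∈ Γ.strictPeriods) (f : F) :
    h60_Nice (f : ℍ → ℂ) :=
  have : Fact (IsCusp OnePoint.infty Γ) := ⟨Γ.isCusp_of_mem_strictPeriods one_pos hΓ⟩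
  ⟨ModularFormClass.holo f, SlashInvariantFormClass.periodic_comp_ofComplex f hΓ,
    ModularFormClass.bdd_at_infty f⟩

/-- The complex span of the modular forms of weight `w` on `Γ` with rational `q`-expansion. -/
def h60_ratSpan (Γ : Subgroup (GL (Fin 2) ℝ)) [Γ.HasDetOne] (w : ℤ) :
    Submodule ℂ (ModularForm Γ w) :=
  Submodule.span ℂ {F | ∀ n : ℕ, ∃ r : ℚ, (qExpansion 1 F).coeff n = (r : ℂ)}

theorem h60_map_smul (φ : ℂ →+* ℂ) (c : ℂ) (p : PowerSeries ℂ) :
    (c • p).map φ = φ c • p.map φ := by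
  ext n
  simp

/-- Elements of the rational span can be twisted by any ring endomorphism of `ℂ`. -/
theorem h60_ratSpan_twist {Γ : Subgroup (GL (Fin 2) ℝ)} [Γ.HasDetOne]
    (hΓ : (1 : ℝ) ∈ Γ.strictPeriods) {w : ℤ} {F : ModularForm Γ w}
    (hF : F ∈ h60_ratSpan Γ w) (φ : ℂ →+* ℂ) :
    ∃ F' ∈ h60_ratSpan Γ w, qExpansion 1 F' = (qExpansion 1 F).map φ := by
  induction hF using Submodule.span_induction with
  | mem F hF =>
    refine ⟨F, Submodule.subset_span hF, ?_⟩
    ext n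
    obtain ⟨r, hr⟩ := hF n
    simp [hr]
  | zero =>
    refine ⟨0, Submodule.zero_mem _, ?_⟩
    have h0 : qExpansion 1 ((0 : ModularForm Γ w) : ℍ → ℂ) = 0 := by
      simpa using qExpansion_zero 1
    rw [h0]; simp
  | add F G _ _ ihF ihG =>
    obtain ⟨F', hF', eF⟩ := ihF
    obtain ⟨G', hG', eG⟩ := ihG
    refine ⟨F' + G', Submodule.add_mem _ hF' hG', ?_⟩
    have h1 := ModularForm.qExpansion_add one_pos hΓ F' G'
    have h2 := ModularForm.qExpansion_add one_pos hΓ F G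
    simp only [FunLike.coe_add] at h1 h2 ⊢
    rw [h1, h2, eF, eG, map_add]
  | smul c F _ ihF =>
    obtain ⟨F', hF', eF⟩ := ihF
    refine ⟨φ c • F', Submodule.smul_mem _ _ hF', ?_⟩
    have h1 := ModularForm.qExpansion_smul one_pos hΓ (φ c) F'
    have h2 := ModularForm.qExpansion_smul one_pos hΓ c F
    simp only [FunLike.coe_smul] at h1 h2 ⊢
    rw [h1, h2, eF, h60_map_smul]


theorem h60_map_eq_zero (φ : ℂ →+* ℂ) {p : PowerSeries ℂ} (h : p.map φ = 0) : p = 0 := by
  ext n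
  have := congrArg (PowerSeries.coeff n) h
  simp only [PowerSeries.coeff_map, map_zero] at this
  simpa using (map_eq_zero φ).mp this

/-- Assembly of the twisting step, with the inputs of the other pieces as hypotheses. -/
theorem h60_twist_aux {Γ : Subgroup (GL (Fin 2) ℝ)} [Γ.IsArithmetic] [Γ.HasDetOne]
    (h1 : (1 : ℝ) ∈ Γ.strictPeriods) {k : ℤ} (f : CuspForm Γ k)
    (hL1 : ∀ w : ℤ, h60_ratSpan 𝒮ℒ w = ⊤)
    (μ : ℕ) (e : (i : Fin μ) → CuspForm 𝒮ℒ (((i : ℕ) + 1 : ℤ) * k))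
    (hmonic : ∀ τ : ℍ, f τ ^ μ + ∑ i : Fin μ, e i τ * f τ ^ (μ - 1 - (i : ℕ)) = 0)
    (hquot : ∀ {b : ℤ} (A : ModularForm Γ (k + b)) (B : ModularForm 𝒮ℒ b), B ≠ 0 →
      ∀ e' : Fin μ → ℍ → ℂ, (∀ i, Continuous (e' i)) →
        (∀ (i : Fin μ) (γ : SL(2, ℤ)), e' i ∣[((i : ℕ) + 1 : ℤ) * k] γ = e' i) →
        (∀ i, IsZeroAtImInfty (e' i)) →
        (∀ τ : ℍ, A τ ^ μ + ∑ i : Fin μ, e' i τ * A τ ^ (μ - 1 - (i : ℕ)) * B τ ^ ((i : ℕ) + 1)
          = 0) →
        ∃ g : CuspForm Γ k, ∀ τ : ℍ, g τ * B τ = A τ)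
    {b : ℤ} (B : ModularForm 𝒮ℒ b) (A : ModularForm Γ (k + b)) (hB : B ≠ 0)
    (hA : A ∈ h60_ratSpan Γ (k + b)) (hrep : ∀ τ, f τ * B τ = A τ) (φ : ℂ →+* ℂ) :
    ∃ g : CuspForm Γ k, qExpansion 1 g = (qExpansion 1 f).map φ := by
  have hSL : (1 : ℝ) ∈ (𝒮ℒ).strictPeriods := one_mem_strictPeriods_SL
  -- the equation for `A`
  have key : ∀ τ : ℍ, A τ ^ μ +
      ∑ i : Fin μ, e i τ * A τ ^ (μ - 1 - (i : ℕ)) * B τ ^ ((i : ℕ) + 1) = 0 := by
    intro τ
    have h0 : A τ ^ μ + ∑ i : Fin μ, e i τ * A τ ^ (μ - 1 - (i : ℕ)) * B τ ^ ((i : ℕ) + 1)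
        = B τ ^ μ * (f τ ^ μ + ∑ i : Fin μ, e i τ * f τ ^ (μ - 1 - (i : ℕ))) := by
      rw [mul_add, Finset.mul_sum, ← hrep τ, mul_pow]
      congr 1
      · ring
      · refine Finset.sum_congr rfl fun i _ => ?_
        have hpow : B τ ^ μ = B τ ^ (μ - 1 - (i : ℕ)) * B τ ^ ((i : ℕ) + 1) := by
          rw [← pow_add]
          congr 1
          have := i.2
          omega
        rw [mul_pow, hpow]
        ring
    rw [h0, hmonic τ, mul_zero]
  -- elements of the nice ring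
  let a : h60_niceSubring := ⟨A, h60_nice_of_modularForm h1 A⟩
  let bb : h60_niceSubring := ⟨B, h60_nice_of_modularForm hSL B⟩
  let ff : h60_niceSubring := ⟨f, h60_nice_of_modularForm h1 f⟩
  let ee : Fin μ → h60_niceSubring := fun i => ⟨e i, h60_nice_of_modularForm hSL (e i)⟩
  have keyR : a ^ μ + ∑ i : Fin μ, ee i * a ^ (μ - 1 - (i : ℕ)) * bb ^ ((i : ℕ) + 1) = 0 := by
    apply Subtype.ext
    funext τ
    simpa [a, bb, ee] using key τ
  -- twists
  obtain ⟨A', -, hA'⟩ := h60_ratSpan_twist h1 hA φ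
  obtain ⟨B', -, hB'⟩ := h60_ratSpan_twist hSL (F := B) (by rw [hL1]; trivial) φ
  have hE : ∀ i : Fin μ, ∃ E' : ModularForm 𝒮ℒ (((i : ℕ) + 1 : ℤ) * k),
      qExpansion 1 E' = (qExpansion 1 (e i)).map φ := by
    intro i
    obtain ⟨E', -, hE'⟩ := h60_ratSpan_twist hSL (F := CuspForm.toModularFormₗ (e i))
      (by rw [hL1]; trivial) φ
    exact ⟨E', hE'⟩
  choose E' hE' using hE
  let a' : h60_niceSubring := ⟨A', h60_nice_of_modularForm h1 A'⟩
  let bb' : h60_niceSubring := ⟨B', h60_nice_of_modularForm hSL B'⟩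
  let ee' : Fin μ → h60_niceSubring := fun i => ⟨E' i, h60_nice_of_modularForm hSL (E' i)⟩
  have ha' : h60_qExpHom a' = (h60_qExpHom a).map φ := hA'
  have hb' : h60_qExpHom bb' = (h60_qExpHom bb).map φ := hB'
  have he' : ∀ i, h60_qExpHom (ee' i) = (h60_qExpHom (ee i)).map φ := hE'
  have keyR' : a' ^ μ + ∑ i : Fin μ, ee' i * a' ^ (μ - 1 - (i : ℕ)) * bb' ^ ((i : ℕ) + 1) = 0 := by
    apply h60_qExpHom_injective
    have h2 := congrArg (fun x => (h60_qExpHom x).map φ) keyR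
    simp only [map_add, map_pow, map_sum, map_mul, map_zero] at h2 ⊢
    simp only [ha', hb', he']
    exact h2
  have key' : ∀ τ : ℍ, A' τ ^ μ +
      ∑ i : Fin μ, E' i τ * A' τ ^ (μ - 1 - (i : ℕ)) * B' τ ^ ((i : ℕ) + 1) = 0 := by
    intro τ
    have h2 := congrArg (fun x : h60_niceSubring => (x : ℍ → ℂ) τ) keyR'
    simpa [a', bb', ee'] using h2
  -- `B'` is nonzero
  have hB'0 : B' ≠ 0 := by
    intro h
    apply hB
    have h3 : qExpansion 1 (B : ℍ → ℂ) = 0 := by
      apply h60_map_eq_zero φ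
      rw [← hB', h]
      simpa using qExpansion_zero 1
    have hN := h60_nice_of_modularForm hSL B
    have h4 := (qExpansion_eq_zero_iff one_pos hN.periodic hN.mdiff hN.bdd).mp h3
    exact DFunLike.coe_injective h4
  -- the twisted `e i` vanish at infinity
  have hzero : ∀ i, IsZeroAtImInfty (E' i : ℍ → ℂ) := by
    intro i
    have h5 : (qExpansion 1 (E' i)).coeff 0 = 0 := by
      rw [hE' i, PowerSeries.coeff_map, CuspFormClass.qExpansion_coeff_zero (e i) one_pos hSL,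
        map_zero]
    exact CuspFormClass.zero_at_infty (ModularForm.toCuspForm (E' i) h5)
  obtain ⟨g, hg⟩ := hquot A' B' hB'0 (fun i => (E' i : ℍ → ℂ))
    (fun i => ModularFormClass.continuous (E' i))
    (fun i γ => (E' i).slash_action_eq' _ ⟨γ, rfl⟩) hzero key'
  refine ⟨g, ?_⟩
  let gg : h60_niceSubring := ⟨g, h60_nice_of_modularForm h1 g⟩
  have e1 : gg * bb' = a' := by
    apply Subtype.ext
    funext τ
    simpa [gg, bb', a'] using hg τ
  have e2 : ff * bb = a := by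
    apply Subtype.ext
    funext τ
    simpa [ff, bb, a] using hrep τ
  have e3 : h60_qExpHom gg * h60_qExpHom bb' = (h60_qExpHom ff).map φ * h60_qExpHom bb' := by
    rw [← map_mul, e1, ha', ← e2, map_mul, map_mul, hb']
  have hbb' : h60_qExpHom bb' ≠ 0 := by
    intro h
    apply hB'0
    have hN := h60_nice_of_modularForm hSL B'
    have h4 := (qExpansion_eq_zero_iff one_pos hN.periodic hN.mdiff hN.bdd).mp h
    exact DFunLike.coe_injective h4
  exact mul_right_cancel₀ hbb' e3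

end Fermat.Agent.S23
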