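import Mathlib
import Fermat.Agent.S23.h60_Twist
import Fermat.Agent.S23.h96_CharPoly
import Fermat.Agent.S23.h97_Quot
import Fermat.Agent.S23.h62_LevelOne

set_option autoImplicit false

open UpperHalfPlane ModularForm
open scoped MatrixGroups ModularForm Manifold

namespace Fermat.Agent.S23

/-- Level one: every modular form is a complex combination of forms with rational
`q`-expansion. -/
theorem h60_ratSpan_levelOne_eq_top (w : ℤ) : h60_ratSpan 𝒮ℒ w = ⊤ := by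
  rw [eq_top_iff, ← h62_levelOne_span_int w]
  apply Submodule.span_mono
  intro c hc n
  obtain ⟨m, hm⟩ := hc n
  exact ⟨m, by rw [hm]; simp⟩

/-- TWIST (general arithmetic subgroup of `SL(2, ℤ)` containing the translation by `1`). -/
theorem h60_twist_general {Γ : Subgroup (GL (Fin 2) ℝ)} [Γ.IsArithmetic] [Γ.HasDetOne]
    (hΓ : Γ ≤ 𝒮ℒ) (h1 : (1 : ℝ) ∈ Γ.strictPeriods) {k : ℤ} (f : CuspForm Γ k)
    (hrep : ∃ (b : ℤ) (B : ModularForm 𝒮ℒ b) (A : ModularForm Γ (k + b)),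
      B ≠ 0 ∧ A ∈ h60_ratSpan Γ (k + b) ∧ ∀ τ, f τ * B τ = A τ)
    (φ : ℂ →+* ℂ) :
    ∃ g : CuspForm Γ k, ∀ n, (qExpansion 1 g).coeff n = φ ((qExpansion 1 f).coeff n) := by
  obtain ⟨b, B, A, hB, hA, hAB⟩ := hrep
  obtain ⟨μ, e, -, hmonic⟩ := h96_exists_monic_cusp f
  obtain ⟨g, hg⟩ := h60_twist_aux h1 f h60_ratSpan_levelOne_eq_top μ e hmonic
    (fun A B hB e' he1 he2 he3 h => h97_exists_cuspForm_mul_eq hΓ A B hB μ e' he1 he2 he3 h)
    B A hB hA hAB φ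
  exact ⟨g, fun n => by rw [hg]; simp⟩

theorem h60_Gamma0_le_SL (N : ℕ) :
    ((CongruenceSubgroup.Gamma0 N : Subgroup SL(2, ℤ)) : Subgroup (GL (Fin 2) ℝ)) ≤ 𝒮ℒ := by
  rintro _ ⟨γ, -, rfl⟩
  exact ⟨γ, rfl⟩

theorem h60_one_mem_strictPeriods_Gamma0 (N : ℕ) :
    (1 : ℝ) ∈ ((CongruenceSubgroup.Gamma0 N : Subgroup SL(2, ℤ)) :
      Subgroup (GL (Fin 2) ℝ)).strictPeriods := by
  simp

/-- TWIST (task 58): the `φ`-conjugate of a cusp form on `Γ₀(N)` is a cusp form, provided the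
form has a representation `f * B = A` with `B ≠ 0` of level one and `A` in the rational span. -/
theorem h60_twist {N : ℕ} [NeZero N] {k : ℤ} (f : CuspForm (CongruenceSubgroup.Gamma0 N) k)
    (hrep : ∃ (b : ℤ) (B : ModularForm 𝒮ℒ b)
      (A : ModularForm (CongruenceSubgroup.Gamma0 N) (k + b)),
      B ≠ 0 ∧ A ∈ h60_ratSpan _ (k + b) ∧ ∀ τ, f τ * B τ = A τ)
    (φ : ℂ →+* ℂ) :
    ∃ g : CuspForm (CongruenceSubgroup.Gamma0 N) k,
      ∀ n, (qExpansion 1 g).coeff n = φ ((qExpansion 1 f).coeff n) :=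
  h60_twist_general (h60_Gamma0_le_SL N) (h60_one_mem_strictPeriods_Gamma0 N) f hrep φ

end Fermat.Agent.S23
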