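import Mathlib
import Fermat.Statements.S23
import Fermat.Agent.S23.h22_Rep
import Fermat.Agent.S23.h22_Rat
import Fermat.Agent.S23.h22_Glue
import Fermat.Agent.S23.h60_TwistMain
import Fermat.Agent.S23.h48_CuspDescent

set_option autoImplicit false

open UpperHalfPlane ModularForm
open scoped MatrixGroups ModularForm Manifold

namespace Fermat.Agent.S23

/-- **Integral structure on `S_k(Γ₀(N))` for every weight `k`** (algebraic `q`-expansion
principle: twist by ring endomorphisms of `ℂ`, Galois descent, bounded denominators). -/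
theorem h22_hasIntegralStructure (N : ℕ) [NeZero N] (k : ℤ) :
    CuspForm.HasIntegralStructure N k := by
  refine h22_hasIntegralStructure_of N k (h48_cuspForm_ratSpan_eq_top N k fun φ f => ?_)
    (fun f hf => h22_bddDen_of_rational f (h22_exists_rep N f) hf)
  obtain ⟨b, B, A, hB, hA, hAB⟩ := h22_exists_rep N f
  refine h60_twist f ⟨b, B, A, hB, ?_, hAB⟩ φ
  refine Submodule.span_mono (fun F hF n => ?_) hA
  obtain ⟨z, hz⟩ := hF n
  exact ⟨z, by rw [hz]; simp⟩

end Fermat.Agent.S23
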