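import Mathlib

set_option autoImplicit false

open UpperHalfPlane ModularForm SlashInvariantForm
open scoped MatrixGroups ModularForm Manifold

namespace Fermat.Agent.S23

/-- The slash action of a determinant one matrix is multiplicative. -/
theorem h97_mul_slash_det_one (k1 k2 : ℤ) (A : GL (Fin 2) ℝ) (hA : A.det = 1) (f g : ℍ → ℂ) :
    (f * g) ∣[k1 + k2] A = f ∣[k1] A * g ∣[k2] A := by
  rw [ModularForm.mul_slash, hA]
  simp

theorem h97_one_slash_det_one (A : GL (Fin 2) ℝ) (hA : A.det = 1) :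
    (1 : ℍ → ℂ) ∣[(0 : ℤ)] A = 1 := by
  funext τ
  simp [ModularForm.slash_apply, hA]

/-- The slash action of a determinant one matrix commutes with powers. -/
theorem h97_pow_slash_det_one (k : ℤ) (A : GL (Fin 2) ℝ) (hA : A.det = 1) (f : ℍ → ℂ) (n : ℕ) :
    (f ^ n) ∣[(n : ℤ) * k] A = (f ∣[k] A) ^ n := by
  induction n with
  | zero => simpa using h97_one_slash_det_one A hA
  | succ n ih =>
    have h1 : ((n + 1 : ℕ) : ℤ) * k = (n : ℤ) * k + k := by push_cast; ring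
    rw [h1, pow_succ, pow_succ, h97_mul_slash_det_one _ _ A hA, ih]

theorem h97_det_inv_val_eq_one {ℋ : Subgroup (GL (Fin 2) ℝ)} [ℋ.HasDetOne] (h : ℋ) :
    (h.val⁻¹ : GL (Fin 2) ℝ).det = 1 := by
  rw [map_inv, Subgroup.HasDetOne.det_eq h.2, inv_one]

section quot

variable {𝒢 ℋ : Subgroup (GL (Fin 2) ℝ)} [ℋ.HasDetOne]

/-- The conjugates of `V ^ n * f` are the corresponding products of conjugates. -/
theorem h97_quotientFunc_pow_mul {a k m : ℤ}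
    {F₁ F₂ F₃ : Type*} [FunLike F₁ ℍ ℂ] [FunLike F₂ ℍ ℂ] [FunLike F₃ ℍ ℂ]
    [SlashInvariantFormClass F₁ 𝒢 a] [SlashInvariantFormClass F₂ 𝒢 k]
    [SlashInvariantFormClass F₃ 𝒢 m]
    (V : F₁) (f : F₂) (P : F₃) (n : ℕ) (hm : m = n * a + k)
    (hP : (P : ℍ → ℂ) = (V : ℍ → ℂ) ^ n * (f : ℍ → ℂ))
    (q : ℋ ⧸ 𝒢.subgroupOf ℋ) (τ : ℍ) :
    quotientFunc P q τ = quotientFunc V q τ ^ n * quotientFunc f q τ := by
  induction q using Quotient.inductionOn with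
  | h r =>
    simp only [quotientFunc_mk]
    rw [hP, hm, h97_mul_slash_det_one _ _ _ (h97_det_inv_val_eq_one r),
      h97_pow_slash_det_one _ _ (h97_det_inv_val_eq_one r)]
    rfl

/-- The conjugates of `V ^ n` are the powers of the conjugates. -/
theorem h97_quotientFunc_pow {a m : ℤ}
    {F₁ F₃ : Type*} [FunLike F₁ ℍ ℂ] [FunLike F₃ ℍ ℂ]
    [SlashInvariantFormClass F₁ 𝒢 a] [SlashInvariantFormClass F₃ 𝒢 m]
    (V : F₁) (P : F₃) (n : ℕ) (hm : m = n * a)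
    (hP : (P : ℍ → ℂ) = (V : ℍ → ℂ) ^ n)
    (q : ℋ ⧸ 𝒢.subgroupOf ℋ) (τ : ℍ) :
    quotientFunc P q τ = quotientFunc V q τ ^ n := by
  induction q using Quotient.inductionOn with
  | h r =>
    simp only [quotientFunc_mk]
    rw [hP, hm, h97_pow_slash_det_one _ _ (h97_det_inv_val_eq_one r)]
    rfl

omit [ℋ.HasDetOne] in
/-- The conjugate attached to the trivial coset is the form itself. -/
theorem h97_quotientFunc_one {k : ℤ} {F : Type*} [FunLike F ℍ ℂ] [SlashInvariantFormClass F 𝒢 k]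
    (f : F) (τ : ℍ) :
    quotientFunc f ((1 : ℋ) : ℋ ⧸ 𝒢.subgroupOf ℋ) τ = f τ := by
  have h : quotientFunc f ((1 : ℋ) : ℋ ⧸ 𝒢.subgroupOf ℋ) = (f : ℍ → ℂ) ∣[k] ((1 : ℋ).val⁻¹) :=
    quotientFunc_mk f (1 : ℋ)
  rw [h]
  simp

end quot

section trace

variable {𝒢 : Subgroup (GL (Fin 2) ℝ)} [𝒢.HasDetPlusMinusOne] [𝒢.IsFiniteRelIndex 𝒮ℒ]

omit [𝒢.HasDetPlusMinusOne] in
/-- The trace of a modular form, evaluated with an arbitrary `Fintype` structure on the cosets. -/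
theorem h97_trace_apply [Fintype (𝒮ℒ ⧸ 𝒢.subgroupOf 𝒮ℒ)] {k : ℤ} (F : ModularForm 𝒢 k) (τ : ℍ) :
    ModularForm.trace 𝒮ℒ F τ = ∑ q : 𝒮ℒ ⧸ 𝒢.subgroupOf 𝒮ℒ, quotientFunc F q τ := by
  rw [ModularForm.coe_trace]
  simp only [Finset.sum_apply]
  convert rfl

/-- The power sums `∑_q (V ∣ q) ^ n * (f ∣ q)` are level one modular forms. -/
theorem h97_exists_trace_pow_mul [Fintype (𝒮ℒ ⧸ 𝒢.subgroupOf 𝒮ℒ)] {a k : ℤ}
    (V : ModularForm 𝒢 a) (f : ModularForm 𝒢 k) (n : ℕ) (m : ℤ) (hm : m = n * a + k) :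
    ∃ G : ModularForm 𝒮ℒ m, ∀ τ : ℍ,
      G τ = ∑ q : 𝒮ℒ ⧸ 𝒢.subgroupOf 𝒮ℒ, quotientFunc V q τ ^ n * quotientFunc f q τ := by
  let P : ModularForm 𝒢 m := ModularForm.mcast hm.symm ((V.pow n).mul f)
  have hP : (P : ℍ → ℂ) = (V : ℍ → ℂ) ^ n * (f : ℍ → ℂ) := by
    simp only [P, coe_mcast, ModularForm.coe_mul, ModularForm.coe_pow]
  refine ⟨ModularForm.trace 𝒮ℒ P, fun τ => ?_⟩
  rw [h97_trace_apply]
  exact Finset.sum_congr rfl fun q _ => h97_quotientFunc_pow_mul V f P n hm hP q τ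

/-- The power sums `∑_q (V ∣ q) ^ n` are level one modular forms. -/
theorem h97_exists_trace_pow [Fintype (𝒮ℒ ⧸ 𝒢.subgroupOf 𝒮ℒ)] {a : ℤ}
    (V : ModularForm 𝒢 a) (n : ℕ) (m : ℤ) (hm : m = n * a) :
    ∃ G : ModularForm 𝒮ℒ m, ∀ τ : ℍ,
      G τ = ∑ q : 𝒮ℒ ⧸ 𝒢.subgroupOf 𝒮ℒ, quotientFunc V q τ ^ n := by
  let P : ModularForm 𝒢 m := ModularForm.mcast hm.symm (V.pow n)
  have hP : (P : ℍ → ℂ) = (V : ℍ → ℂ) ^ n := by
    simp only [P, coe_mcast, ModularForm.coe_pow]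
  refine ⟨ModularForm.trace 𝒮ℒ P, fun τ => ?_⟩
  rw [h97_trace_apply]
  exact Finset.sum_congr rfl fun q _ => h97_quotientFunc_pow V P n hm hP q τ

end trace

end Fermat.Agent.S23
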