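import Mathlib

set_option autoImplicit false
set_option linter.style.haveILetI false

namespace Fermat.Agent.S23

open Polynomial in
/-- An element of a finitely generated `ℚ`-subalgebra of `ℂ` that is fixed by all
`ℚ`-algebra homomorphisms to `ℂ` is rational. -/
theorem h85_rational_of_fixed (A : Subalgebra ℚ ℂ) (hA : A.FG) (x : A)
    (h : ∀ φ : A →ₐ[ℚ] ℂ, φ x = (x : ℂ)) : ∃ r : ℚ, (x : ℂ) = r := by
  classical
  haveI : Algebra.FiniteType ℚ A := ⟨(Subalgebra.fg_top A).2 hA⟩
  obtain ⟨m, hm⟩ := Ideal.exists_maximal A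
  letI := Ideal.Quotient.field m
  haveI : Algebra.FiniteType ℚ (A ⧸ m) :=
    Algebra.FiniteType.of_surjective (Ideal.Quotient.mkₐ ℚ m) (Ideal.Quotient.mkₐ_surjective ℚ m)
  haveI : Module.Finite ℚ (A ⧸ m) := finite_of_finite_type_of_isJacobsonRing ℚ (A ⧸ m)
  haveI : Algebra.IsAlgebraic ℚ (A ⧸ m) := Algebra.IsAlgebraic.of_finite ℚ (A ⧸ m)
  set y : A ⧸ m := Ideal.Quotient.mk m x with hy
  have hψ : ∀ ψ : (A ⧸ m) →ₐ[ℚ] ℂ, ψ y = (x : ℂ) := fun ψ =>
    h (ψ.comp (Ideal.Quotient.mkₐ ℚ m))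
  obtain ⟨ψ₀⟩ : Nonempty ((A ⧸ m) →ₐ[ℚ] ℂ) := ⟨IsAlgClosed.lift⟩
  have hrange : (Set.range fun ψ : (A ⧸ m) →ₐ[ℚ] ℂ => ψ y) = {(x : ℂ)} := by
    ext z
    constructor
    · rintro ⟨ψ, rfl⟩
      exact hψ ψ
    · rintro rfl
      exact ⟨ψ₀, hψ ψ₀⟩
  rw [Algebra.IsAlgebraic.range_eval_eq_rootSet_minpoly] at hrange
  have hsep : (minpoly ℚ y).Separable :=
    (minpoly.irreducible (Algebra.IsIntegral.isIntegral y)).separable
  have hcard := Polynomial.card_rootSet_eq_natDegree (K := ℂ) hsep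
    (IsAlgClosed.splits _)
  have hcard1 : Fintype.card ((minpoly ℚ y).rootSet ℂ) = 1 := by
    rw [Fintype.card_eq_one_iff]
    refine ⟨⟨(x : ℂ), by rw [hrange]; rfl⟩, ?_⟩
    rintro ⟨z, hz⟩
    have hz' := hz
    rw [hrange] at hz'
    exact Subtype.ext hz'
  rw [hcard1] at hcard
  obtain ⟨r, hr⟩ := (minpoly.natDegree_eq_one_iff).1 hcard.symm
  refine ⟨r, ?_⟩
  rw [← hψ ψ₀, ← hr]
  simp


open Module in
/-- A separating sequence of functionals on a finite-dimensional space contains a basis of the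
dual; we get the dual family of vectors. -/
theorem h85_dual_basis {V : Type*} [AddCommGroup V] [Module ℂ V] [FiniteDimensional ℂ V]
    (a : ℕ → V →ₗ[ℂ] ℂ) (hsep : ∀ v, (∀ n, a n v = 0) → v = 0) :
    ∃ (k : ℕ) (n : Fin k → ℕ) (b : Fin k → V),
      (∀ i, a (n i) (b i) = 1) ∧ (∀ i j, i ≠ j → a (n j) (b i) = 0) ∧
      (∀ v, (∀ j, a (n j) v = 0) → v = 0) := by
  classical
  set Φ : Submodule ℂ (Module.Dual ℂ V) := Submodule.span ℂ (Set.range a) with hΦ
  have hco : Φ.dualCoannihilator = ⊥ := by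
    rw [eq_bot_iff]
    intro v hv
    rw [Submodule.mem_dualCoannihilator] at hv
    exact (Submodule.mem_bot ℂ).2 (hsep v fun n => hv (a n) (Submodule.subset_span ⟨n, rfl⟩))
  have htop : Φ = ⊤ := by
    rw [← Subspace.dualCoannihilator_dualAnnihilator_eq (W := Φ), hco,
      Submodule.dualAnnihilator_bot]
  have hs : (⊤ : Submodule ℂ (Module.Dual ℂ V)) ≤ Submodule.span ℂ (Set.range a) := htop.ge
  let β₀ := Basis.ofSpan hs
  letI := FiniteDimensional.fintypeBasisIndex β₀
  let β := β₀.reindex (Fintype.equivFin _)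
  have hmem : ∀ i, ∃ m, a m = β i := fun i => by
    have : β i ∈ Set.range β₀ := by
      simp only [β, Basis.reindex_apply]
      exact ⟨_, rfl⟩
    exact (Basis.ofSpan_subset hs) this
  choose n hn using hmem
  refine ⟨_, n, fun i => (Module.evalEquiv ℂ V).symm (β.dualBasis i), ?_, ?_, ?_⟩
  · intro i
    rw [hn i, Module.apply_evalEquiv_symm_apply, Basis.dualBasis_apply_self, if_pos rfl]
  · intro i j hij
    rw [hn j, Module.apply_evalEquiv_symm_apply, Basis.dualBasis_apply_self, if_neg (Ne.symm hij)]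
  · intro v hv
    rw [← Module.forall_dual_apply_eq_zero_iff ℂ]
    intro φ
    have hzero : Module.Dual.eval ℂ V v = 0 := by
      apply β.ext
      intro j
      rw [Module.Dual.eval_apply, ← hn j, hv j]
      rfl
    have := LinearMap.congr_fun hzero φ
    simpa using this

/-- Descent: if a finite-dimensional space of "q-expansions" is stable under twisting by
`ℚ`-algebra homomorphisms of finitely generated subalgebras of `ℂ`, then it is spanned by
its rational elements. -/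
theorem h85_descent {V : Type*} [AddCommGroup V] [Module ℂ V] [FiniteDimensional ℂ V]
    (a : ℕ → V →ₗ[ℂ] ℂ) (hsep : ∀ v, (∀ n, a n v = 0) → v = 0)
    (htw : ∀ f : V, ∃ A : Subalgebra ℚ ℂ, A.FG ∧ ∃ hA : ∀ n, a n f ∈ A,
      ∀ φ : A →ₐ[ℚ] ℂ, ∃ g : V, ∀ n, a n g = φ ⟨a n f, hA n⟩) :
    Submodule.span ℂ {f : V | ∀ n, ∃ r : ℚ, a n f = r} = ⊤ := by
  classical
  obtain ⟨k, n, b, h1, h0, hz⟩ := h85_dual_basis a hsep
  have hrat : ∀ i, ∀ m, ∃ r : ℚ, a m (b i) = r := by
    intro i m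
    obtain ⟨A, hAfg, hA, hφ⟩ := htw (b i)
    apply h85_rational_of_fixed A hAfg ⟨a m (b i), hA m⟩
    intro φ
    obtain ⟨g, hg⟩ := hφ φ
    have hgb : g = b i := by
      have : g - b i = 0 := hz _ fun j => by
        rw [map_sub, hg (n j)]
        by_cases hij : i = j
        · subst hij
          have : (⟨a (n i) (b i), hA (n i)⟩ : A) = 1 := Subtype.ext (h1 i)
          rw [this, map_one, h1, sub_self]
        · have : (⟨a (n j) (b i), hA (n j)⟩ : A) = 0 := Subtype.ext (h0 i j hij)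
          rw [this, map_zero, h0 i j hij, sub_self]
      exact sub_eq_zero.1 this
    rw [← hg m, hgb]
  rw [eq_top_iff]
  intro v _
  have hv : v = ∑ j, a (n j) v • b j := by
    have : v - ∑ j, a (n j) v • b j = 0 := hz _ fun j => by
      rw [map_sub, map_sum, Finset.sum_eq_single j]
      · rw [map_smul, h1, smul_eq_mul, mul_one, sub_self]
      · intro i _ hij
        rw [map_smul, h0 i j hij, smul_zero]
      · intro hj
        exact absurd (Finset.mem_univ j) hj
    exact sub_eq_zero.1 this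
  rw [hv]
  exact Submodule.sum_mem _ fun j _ => Submodule.smul_mem _ _ (Submodule.subset_span (hrat j))

end Fermat.Agent.S23
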