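import Mathlib

namespace Fermat.Agent.S23

open UpperHalfPlane ModularForm Filter Complex
open scoped MatrixGroups Real Topology

local notation "Δ" => ModularForm.discriminant

/-- Norm of the discriminant: exponential factor times the norm of the eta product. -/
lemma h40_norm_discriminant (τ : ℍ) :
    ‖Δ τ‖ = Real.exp (-2 * π * τ.im) * ‖∏' n : ℕ, (1 - eta_q n (τ : ℂ)) ^ 24‖ := by
  rw [discriminant_eq_q_prod, norm_mul]
  congr 1
  simp [Function.Periodic.qParam, Complex.norm_exp]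

/-- Growth comparison: if `Δ ∘ φ₁ = c • Δ ∘ φ₂` where `φᵢ` scales imaginary parts by `aᵢ`,
then `a₁ = a₂`. -/
lemma h40_growth {φ₁ φ₂ : ℍ → ℍ} {a₁ a₂ : ℝ} (ha₁ : 0 < a₁) (ha₂ : 0 < a₂)
    (h₁ : ∀ τ, (φ₁ τ).im = a₁ * τ.im) (h₂ : ∀ τ, (φ₂ τ).im = a₂ * τ.im) {c : ℂ} (hc : c ≠ 0)
    (h : ∀ τ, Δ (φ₁ τ) = c * Δ (φ₂ τ)) : a₁ = a₂ := by
  set P : ℍ → ℂ := fun x => ∏' (n : ℕ), (1 - eta_q n (x : ℂ)) ^ 24 with hP
  have hPt : Tendsto P atImInfty (𝓝 1) := tendsto_atImInfty_tprod_one_sub_eta_q_pow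
  have hφ : ∀ {φ : ℍ → ℍ} {a : ℝ}, 0 < a → (∀ τ, (φ τ).im = a * τ.im) →
      Tendsto φ atImInfty atImInfty := by
    intro φ a ha hφ
    rw [atImInfty, tendsto_comap_iff]
    have : (UpperHalfPlane.im ∘ φ) = fun τ => a * τ.im := funext hφ
    rw [this]
    exact (tendsto_id.const_mul_atTop ha).comp tendsto_comap
  have hN₁ : Tendsto (fun τ => ‖P (φ₁ τ)‖) atImInfty (𝓝 1) := by
    simpa using (hPt.comp (hφ ha₁ h₁)).norm
  have hN₂ : Tendsto (fun τ => ‖P (φ₂ τ)‖) atImInfty (𝓝 1) := by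
    simpa using (hPt.comp (hφ ha₂ h₂)).norm
  -- the key identity
  have key : ∀ τ : ℍ, Real.exp (2 * π * (a₂ - a₁) * τ.im) * ‖P (φ₁ τ)‖ = ‖c‖ * ‖P (φ₂ τ)‖ := by
    intro τ
    have := congrArg norm (h τ)
    rw [norm_mul, h40_norm_discriminant, h40_norm_discriminant, h₁, h₂] at this
    have e : Real.exp (2 * π * (a₂ - a₁) * τ.im) =
        Real.exp (-2 * π * (a₁ * τ.im)) / Real.exp (-2 * π * (a₂ * τ.im)) := by
      rw [← Real.exp_sub]; ring_nf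
    rw [e, div_mul_eq_mul_div, div_eq_iff (Real.exp_pos _).ne']
    rw [this]; ring
  have hcpos : 0 < ‖c‖ := norm_pos_iff.mpr hc
  -- exp(2π(a₂-a₁) y) tends to ‖c‖
  have hE : Tendsto (fun τ : ℍ => Real.exp (2 * π * (a₂ - a₁) * τ.im)) atImInfty (𝓝 ‖c‖) := by
    have h1 : Tendsto (fun τ : ℍ => ‖c‖ * ‖P (φ₂ τ)‖ / ‖P (φ₁ τ)‖) atImInfty (𝓝 (‖c‖ * 1 / 1)) :=
      (hN₂.const_mul ‖c‖).div hN₁ one_ne_zero
    simp only [mul_one, div_one] at h1
    refine h1.congr' ?_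
    have hne : ∀ᶠ τ in atImInfty, ‖P (φ₁ τ)‖ ≠ 0 := hN₁.eventually_ne one_ne_zero
    filter_upwards [hne] with τ hτ
    rw [← key τ, mul_div_assoc, div_self hτ, mul_one]
  by_contra hne
  rcases lt_or_gt_of_ne hne with hlt | hgt
  · -- a₁ < a₂ : exp → ∞
    have hk : 0 < 2 * π * (a₂ - a₁) := by have := Real.pi_pos; nlinarith
    have hT : Tendsto (fun τ : ℍ => Real.exp (2 * π * (a₂ - a₁) * τ.im)) atImInfty atTop :=
      Real.tendsto_exp_atTop.comp ((tendsto_id.const_mul_atTop hk).comp tendsto_comap)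
    exact not_tendsto_nhds_of_tendsto_atTop hT _ hE
  · -- a₂ < a₁ : exp → 0
    have hk : 2 * π * (a₂ - a₁) < 0 := by have := Real.pi_pos; nlinarith
    have hT : Tendsto (fun τ : ℍ => Real.exp (2 * π * (a₂ - a₁) * τ.im)) atImInfty (𝓝 0) :=
      Real.tendsto_exp_atBot.comp ((tendsto_id.const_mul_atTop_of_neg hk).comp tendsto_comap)
    exact hcpos.ne' (tendsto_nhds_unique hE hT)

/-- Upper triangular element of `GL₂(ℝ)`. -/
noncomputable def h40_upper (A B D : ℝ) (h : A * D ≠ 0) : GL (Fin 2) ℝ :=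
  Matrix.GeneralLinearGroup.mkOfDetNeZero !![A, B; 0, D] (by simpa [Matrix.det_fin_two] using h)

lemma h40_upper_det (A B D : ℝ) (h : A * D ≠ 0) :
    (Matrix.GeneralLinearGroup.det (h40_upper A B D h) : ℝ) = A * D := by
  simp [h40_upper, Matrix.GeneralLinearGroup.mkOfDetNeZero, Matrix.det_fin_two]

lemma h40_upper_denom (A B D : ℝ) (h : A * D ≠ 0) (z : ℂ) :
    denom (h40_upper A B D h) z = D := by
  simp [denom, h40_upper, Matrix.GeneralLinearGroup.mkOfDetNeZero]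

lemma h40_upper_im {A B D : ℝ} (hA : 0 < A) (hD : 0 < D) (τ : ℍ) :
    ((h40_upper A B D (mul_pos hA hD).ne') • τ).im = A / D * τ.im := by
  rw [im_smul_eq_div_normSq, h40_upper_det, h40_upper_denom, abs_of_pos (mul_pos hA hD)]
  simp only [Complex.normSq_ofReal]
  field_simp

lemma h40_upper_slash {A B D : ℝ} (hA : 0 < A) (hD : 0 < D) (k : ℤ) (f : ℍ → ℂ) (τ : ℍ) :
    (f ∣[k] (h40_upper A B D (mul_pos hA hD).ne')) τ =
      f ((h40_upper A B D (mul_pos hA hD).ne') • τ) * ((A * D : ℝ) : ℂ) ^ (k - 1) *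
        (D : ℂ) ^ (-k) := by
  rw [ModularForm.slash_apply, h40_upper_det, h40_upper_denom, abs_of_pos (mul_pos hA hD)]
  have : σ (h40_upper A B D (mul_pos hA hD).ne') = ContinuousAlgEquiv.refl ℝ ℂ := by
    unfold σ
    rw [if_pos]
    rw [h40_upper_det]; exact mul_pos hA hD
  rw [this]
  rfl

/-- Hermite normal form of `diag(N,1) * γ`. -/
lemma h40_hermite (N : ℕ) [NeZero N] (γ : SL(2, ℤ)) :
    ∃ (γ' : SL(2, ℤ)) (g D B : ℤ), 0 < g ∧ 0 < D ∧ g * D = N ∧ g ∣ γ 1 0 ∧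
      (!![(N : ℤ), 0; 0, 1] * (γ : Matrix (Fin 2) (Fin 2) ℤ) =
        (γ' : Matrix (Fin 2) (Fin 2) ℤ) * !![g, B; 0, D]) := by
  have hN : (N : ℤ) ≠ 0 := by exact_mod_cast NeZero.ne N
  set a := γ 0 0 with ha
  set b := γ 0 1 with hb
  set c := γ 1 0 with hc
  set d := γ 1 1 with hd
  have hdet : a * d - b * c = 1 := by
    have := γ.det_coe
    rw [Matrix.det_fin_two] at this
    exact this
  have hgpos : 0 < Int.gcd (N : ℤ) c := Int.gcd_pos_of_ne_zero_left _ hN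
  set g : ℤ := (Int.gcd (N : ℤ) c : ℤ) with hg
  have hg0 : 0 < g := by rw [hg]; exact_mod_cast hgpos
  obtain ⟨D, hD⟩ : g ∣ (N : ℤ) := Int.gcd_dvd_left _ _
  obtain ⟨c', hc'⟩ : g ∣ c := Int.gcd_dvd_right _ _
  have hDpos : 0 < D := by
    have : (0 : ℤ) < g * D := by rw [← hD]; exact_mod_cast Nat.pos_of_ne_zero (NeZero.ne N)
    exact (mul_pos_iff_of_pos_left hg0).mp this
  have hcop : Int.gcd D c' = 1 := by
    have h1 := Int.gcd_div_gcd_div_gcd hgpos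
    have e1 : (N : ℤ) / (Int.gcd (N : ℤ) c : ℤ) = D := by
      rw [← hg, hD]; exact Int.mul_ediv_cancel_left _ hg0.ne'
    have e2 : c / (Int.gcd (N : ℤ) c : ℤ) = c' := by
      rw [← hg, hc']; exact Int.mul_ediv_cancel_left _ hg0.ne'
    rwa [e1, e2] at h1
  have hbez : (1 : ℤ) = D * Int.gcdA D c' + c' * Int.gcdB D c' := by
    have := Int.gcd_eq_gcd_ab D c'
    rw [hcop] at this
    exact_mod_cast this
  set v := Int.gcdA D c'
  set u := Int.gcdB D c'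
  have hdet' : Matrix.det !![a * D, b * g - a * d * u; c', d * v] = 1 := by
    rw [Matrix.det_fin_two_of]
    have : b * c = b * g * c' := by rw [hc']; ring
    linear_combination (a * d) * (-hbez) + hdet + this
  refine ⟨⟨!![a * D, b * g - a * d * u; c', d * v], hdet'⟩, g, D, d * u, hg0, hDpos, hD.symm,
    ⟨c', hc'⟩, ?_⟩
  rw [Matrix.eta_fin_two (γ : Matrix (Fin 2) (Fin 2) ℤ)]
  simp only [Matrix.mul_fin_two, ← ha, ← hb, ← hc, ← hd]
  ext i j
  fin_cases i <;> fin_cases j <;> simp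
  · rw [hD]; ring
  · rw [hD]; ring
  · rw [hc']; ring
  · linear_combination d * hbez

/-- `diag(N, 1)` as an element of `GL₂(ℝ)`. -/
noncomputable def h40_alpha (N : ℕ) [NeZero N] : GL (Fin 2) ℝ :=
  h40_upper N 0 1 (by simp [NeZero.ne])

/-- The stabiliser in `SL(2, ℤ)` of `Δ ∣[12] diag(N,1)` (i.e. of `τ ↦ N^11 Δ(Nτ)`) under the
weight 12 slash action is contained in `Γ₀(N)`. -/
theorem h40_mem_Gamma0_of_slash_alpha_eq (N : ℕ) [NeZero N] (γ : SL(2, ℤ))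
    (h : (Δ ∣[(12 : ℤ)] h40_alpha N) ∣[(12 : ℤ)] γ = Δ ∣[(12 : ℤ)] h40_alpha N) :
    γ ∈ CongruenceSubgroup.Gamma0 N := by
  obtain ⟨γ', g, D, B, hg, hD, hgD, hgc, hmat⟩ := h40_hermite N γ
  have hN : (0 : ℝ) < N := by exact_mod_cast Nat.pos_of_ne_zero (NeZero.ne N)
  have hgR : (0 : ℝ) < g := by exact_mod_cast hg
  have hDR : (0 : ℝ) < D := by exact_mod_cast hD
  have hgDR : (g : ℝ) * D = N := by exact_mod_cast hgD
  have hGL : h40_alpha N * (γ : GL (Fin 2) ℝ) =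
      (γ' : GL (Fin 2) ℝ) * h40_upper g B D (mul_pos hgR hDR).ne' := by
    apply Units.ext
    have e := fun i j => congrArg (Int.cast : ℤ → ℝ) (congrFun (congrFun hmat i) j)
    ext i j
    have eij := e i j
    fin_cases i <;> fin_cases j <;>
      simp [Matrix.mul_apply, Fin.sum_univ_two] at eij <;>
      simp [Matrix.mul_apply, Fin.sum_univ_two, h40_alpha, h40_upper,
        Matrix.GeneralLinearGroup.mkOfDetNeZero] <;>
      linarith
  have hinv : Δ ∣[(12 : ℤ)] γ' = Δ :=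
    SlashInvariantForm.slash_action_generators_SL2Z discriminant_S_invariant
      discriminant_T_invariant γ'
  rw [SL_slash, ← SlashAction.slash_mul, hGL, SlashAction.slash_mul, ← SL_slash, hinv] at h
  have key : ∀ τ : ℍ, Δ (h40_upper g B D (mul_pos hgR hDR).ne' • τ) =
      (D : ℂ) ^ 12 * Δ (h40_alpha N • τ) := by
    intro τ
    have h1 := congrFun h τ
    have hN1 : (0 : ℝ) < 1 := one_pos
    unfold h40_alpha at h1 ⊢
    rw [h40_upper_slash hgR hDR, h40_upper_slash hN hN1] at h1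
    have e1 : (((g : ℝ) * D : ℝ) : ℂ) = ((N : ℝ) : ℂ) := by rw [hgDR]
    rw [e1] at h1
    have hNC : ((N : ℝ) : ℂ) ≠ 0 := by exact_mod_cast hN.ne'
    have hDC : (D : ℂ) ≠ 0 := by exact_mod_cast hD.ne'
    simp only [mul_one, Complex.ofReal_one, one_zpow] at h1
    have h2 : ((N : ℝ) : ℂ) ^ ((12 : ℤ) - 1) ≠ 0 := zpow_ne_zero _ hNC
    have h3 : Δ (h40_upper g B D (mul_pos hgR hDR).ne' • τ) * (D : ℂ) ^ (-(12 : ℤ)) =
        Δ (h40_upper N 0 1 (by simp [NeZero.ne]) • τ) := by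
      apply mul_right_cancel₀ h2
      rw [← h1]; push_cast; ring
    rw [← h3]
    generalize Δ (h40_upper g B D (mul_pos hgR hDR).ne' • τ) = X
    have e2 : ((D : ℂ) ^ (12 : ℤ)) = (D : ℂ) ^ 12 := by norm_cast
    rw [zpow_neg, e2]
    field_simp
  have hD12 : ((D : ℂ) ^ 12) ≠ 0 := pow_ne_zero _ (by exact_mod_cast hD.ne')
  have hgrow := h40_growth (φ₁ := fun τ => h40_upper g B D (mul_pos hgR hDR).ne' • τ)
    (φ₂ := fun τ => h40_alpha N • τ) (a₁ := (g : ℝ) / D) (a₂ := (N : ℝ) / 1)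
    (div_pos hgR hDR) (div_pos hN one_pos) (fun τ => h40_upper_im hgR hDR τ)
    (fun τ => h40_upper_im hN one_pos τ) hD12 key
  -- g / D = N, g * D = N  ⟹  D = 1
  have hD1 : D = 1 := by
    have h1 : (g : ℝ) = N * D := by
      rw [div_one] at hgrow
      field_simp at hgrow
      linarith
    have h2 : (N : ℝ) * (D * D) = N := by
      calc (N : ℝ) * (D * D) = (N * D) * D := by ring
        _ = g * D := by rw [h1]
        _ = N := hgDR
    have h3 : (D : ℝ) * D = 1 := by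
      have := mul_left_cancel₀ hN.ne' (h2.trans (mul_one _).symm)
      exact this
    have h4 : D * D = 1 := by exact_mod_cast h3
    nlinarith [h4, hD]
  rw [hD1, mul_one] at hgD
  rw [CongruenceSubgroup.Gamma0_mem]
  rw [ZMod.intCast_zmod_eq_zero_iff_dvd]
  rw [← hgD]; exact hgc

/-- `diag(N,1) • τ = N τ`. -/
lemma h40_alpha_smul_coe (N : ℕ) [NeZero N] (τ : ℍ) :
    ((h40_alpha N • τ : ℍ) : ℂ) = (N : ℂ) * (τ : ℂ) := by
  have hN : (0 : ℝ) < N := by exact_mod_cast Nat.pos_of_ne_zero (NeZero.ne N)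
  have hdet : 0 < (Matrix.GeneralLinearGroup.det (h40_alpha N) : ℝ) := by
    unfold h40_alpha; rw [h40_upper_det]; simpa using hN
  rw [UpperHalfPlane.coe_smul_of_det_pos hdet]
  unfold h40_alpha
  rw [h40_upper_denom]
  simp [num, h40_upper, Matrix.GeneralLinearGroup.mkOfDetNeZero]

lemma h40_alpha_smul (N : ℕ) [NeZero N] (τ : ℍ) :
    h40_alpha N • τ = ofComplex ((N : ℂ) * (τ : ℂ)) := by
  rw [← h40_alpha_smul_coe, ofComplex_apply]

/-- `(Δ ∣[12] diag(N,1)) τ = N^11 Δ(Nτ)`. -/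
lemma h40_slash_alpha_apply (N : ℕ) [NeZero N] (τ : ℍ) :
    (Δ ∣[(12 : ℤ)] h40_alpha N) τ = (N : ℂ) ^ 11 * Δ (ofComplex ((N : ℂ) * (τ : ℂ))) := by
  have hN : (0 : ℝ) < N := by exact_mod_cast Nat.pos_of_ne_zero (NeZero.ne N)
  have h1 : (0 : ℝ) < 1 := one_pos
  unfold h40_alpha
  rw [h40_upper_slash hN h1]
  have := h40_alpha_smul N τ
  unfold h40_alpha at this
  rw [this]
  simp only [mul_one, Complex.ofReal_one, one_zpow]
  have e : (((N : ℝ) : ℂ)) ^ ((12 : ℤ) - 1) = (N : ℂ) ^ 11 := by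
    rw [show ((12 : ℤ) - 1) = ((11 : ℕ) : ℤ) by norm_num, zpow_natCast]; norm_cast
  rw [e]; ring

/-- **Task CONJ (exact interface).** The stabiliser in `SL(2, ℤ)` of any nonzero multiple of
`τ ↦ Δ(Nτ)` under the weight 12 slash action is contained in `Γ₀(N)`. -/
theorem h40_mem_Gamma0_of_slash_eq (N : ℕ) [NeZero N] (F : ℍ → ℂ) (c : ℂ) (hc : c ≠ 0)
    (hF : ∀ τ : ℍ,
      F τ = c * ModularForm.discriminant (UpperHalfPlane.ofComplex ((N : ℂ) * (τ : ℂ))))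
    (γ : SL(2, ℤ)) (h : F ∣[(12 : ℤ)] γ = F) : γ ∈ CongruenceSubgroup.Gamma0 N := by
  have hN : (N : ℂ) ≠ 0 := by exact_mod_cast NeZero.ne N
  have hF' : F = (c / (N : ℂ) ^ 11) • (Δ ∣[(12 : ℤ)] h40_alpha N) := by
    funext τ
    rw [hF, Pi.smul_apply, h40_slash_alpha_apply, smul_eq_mul]
    field_simp
  rw [hF', ModularForm.SL_smul_slash] at h
  exact h40_mem_Gamma0_of_slash_alpha_eq N γ
    (smul_right_injective _ (div_ne_zero hc (pow_ne_zero _ hN)) h)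

/-- **Distinct conjugates, generic form.** If the stabiliser in `SL(2,ℤ)` of a form `f`, slash
invariant of weight `k` under (the image of) a subgroup `Γ` of `SL(2,ℤ)`, is contained in `Γ`,
then the `SL(2,ℤ)`-translates of `f` indexed by `SL(2,ℤ) ⧸ Γ` are pairwise distinct. -/
theorem h40_quotientFunc_injective_of_stab (Γ : Subgroup SL(2, ℤ)) {k : ℤ} {F : Type*}
    [FunLike F ℍ ℂ] [SlashInvariantFormClass F (Γ : Subgroup (GL (Fin 2) ℝ)) k]
    (f : F) (hstab : ∀ γ : SL(2, ℤ), (f : ℍ → ℂ) ∣[k] γ = (f : ℍ → ℂ) → γ ∈ Γ) :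
    Function.Injective (SlashInvariantForm.quotientFunc (ℋ := 𝒮ℒ)
      (𝒢 := (Γ : Subgroup (GL (Fin 2) ℝ))) (k := k) f) := by
  intro q₁ q₂
  induction q₁ using Quotient.inductionOn with
  | h h₁ =>
  induction q₂ using Quotient.inductionOn with
  | h h₂ =>
  intro hq
  simp only [SlashInvariantForm.quotientFunc_mk] at hq
  have hq' : (f : ℍ → ℂ) ∣[k] (h₁.val⁻¹ * h₂.val) = (f : ℍ → ℂ) := by
    have := congrArg (fun F : ℍ → ℂ => F ∣[k] h₂.val) hq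
    simp only [← SlashAction.slash_mul] at this
    rw [this, inv_mul_cancel, SlashAction.slash_one]
  obtain ⟨γ₁, hγ₁⟩ := h₁.2
  obtain ⟨γ₂, hγ₂⟩ := h₂.2
  have hγ : h₁.val⁻¹ * h₂.val = Matrix.SpecialLinearGroup.mapGL ℝ (γ₁⁻¹ * γ₂) := by
    rw [map_mul, map_inv, hγ₁, hγ₂]
  rw [hγ] at hq'
  have hmem := hstab (γ₁⁻¹ * γ₂) hq'
  refine QuotientGroup.eq.mpr ?_
  rw [Subgroup.mem_subgroupOf]
  refine ⟨γ₁⁻¹ * γ₂, hmem, ?_⟩
  rw [Subgroup.coe_mul, Subgroup.coe_inv, hγ]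

/-- **Distinct conjugates.** Let `f` be slash-invariant of weight 12 under `Γ₀(N)` and equal
(as a function) to a nonzero multiple of `Δ ∣[12] diag(N,1)` (i.e. of `τ ↦ Δ(Nτ)`). Then the
`SL(2,ℤ)`-translates of `f` indexed by `SL(2,ℤ) ⧸ Γ₀(N)` are pairwise distinct functions. -/
theorem h40_quotientFunc_injective (N : ℕ) [NeZero N] {F : Type*} [FunLike F ℍ ℂ]
    [SlashInvariantFormClass F
      ((CongruenceSubgroup.Gamma0 N : Subgroup SL(2, ℤ)) : Subgroup (GL (Fin 2) ℝ)) 12]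
    (f : F) {c : ℂ} (hc : c ≠ 0) (hf : (f : ℍ → ℂ) = c • (Δ ∣[(12 : ℤ)] h40_alpha N)) :
    Function.Injective (SlashInvariantForm.quotientFunc (ℋ := 𝒮ℒ)
      (𝒢 := ((CongruenceSubgroup.Gamma0 N : Subgroup SL(2, ℤ)) : Subgroup (GL (Fin 2) ℝ)))
      (k := 12) f) := by
  intro q₁ q₂
  induction q₁ using Quotient.inductionOn with
  | h h₁ =>
  induction q₂ using Quotient.inductionOn with
  | h h₂ =>
  intro hq
  simp only [SlashInvariantForm.quotientFunc_mk] at hq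
  -- slash both sides by `h₂`
  have hq' : (f : ℍ → ℂ) ∣[(12 : ℤ)] (h₁.val⁻¹ * h₂.val) = (f : ℍ → ℂ) := by
    have := congrArg (fun F : ℍ → ℂ => F ∣[(12 : ℤ)] h₂.val) hq
    simp only [← SlashAction.slash_mul] at this
    rw [this, inv_mul_cancel, SlashAction.slash_one]
  obtain ⟨γ₁, hγ₁⟩ := h₁.2
  obtain ⟨γ₂, hγ₂⟩ := h₂.2
  have hγ : h₁.val⁻¹ * h₂.val = Matrix.SpecialLinearGroup.mapGL ℝ (γ₁⁻¹ * γ₂) := by
    rw [map_mul, map_inv, hγ₁, hγ₂]
  rw [hγ, hf] at hq'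
  have hq'' : (Δ ∣[(12 : ℤ)] h40_alpha N) ∣[(12 : ℤ)] (γ₁⁻¹ * γ₂ : SL(2, ℤ)) =
      Δ ∣[(12 : ℤ)] h40_alpha N := by
    have h3 : (c • (Δ ∣[(12 : ℤ)] h40_alpha N)) ∣[(12 : ℤ)] (γ₁⁻¹ * γ₂ : SL(2, ℤ)) =
        c • (Δ ∣[(12 : ℤ)] h40_alpha N) := hq'
    rw [ModularForm.SL_smul_slash] at h3
    exact smul_right_injective _ hc h3
  have hmem := h40_mem_Gamma0_of_slash_alpha_eq N _ hq''
  refine QuotientGroup.eq.mpr ?_
  rw [Subgroup.mem_subgroupOf]
  refine ⟨γ₁⁻¹ * γ₂, hmem, ?_⟩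
  rw [Subgroup.coe_mul, Subgroup.coe_inv, hγ]

/-- Distinct conjugates for any weight 12 slash-invariant form on `Γ₀(N)` of the shape
`τ ↦ c * Δ(Nτ)`, `c ≠ 0` (interface of tasks VN/CONJ/DEN). -/
theorem h40_quotientFunc_injective_of_eq (N : ℕ) [NeZero N] {F : Type*} [FunLike F ℍ ℂ]
    [SlashInvariantFormClass F
      ((CongruenceSubgroup.Gamma0 N : Subgroup SL(2, ℤ)) : Subgroup (GL (Fin 2) ℝ)) 12]
    (f : F) (c : ℂ) (hc : c ≠ 0)
    (hf : ∀ τ : ℍ, f τ = c * ModularForm.discriminant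
      (UpperHalfPlane.ofComplex ((N : ℂ) * (τ : ℂ)))) :
    Function.Injective (SlashInvariantForm.quotientFunc (ℋ := 𝒮ℒ)
      (𝒢 := ((CongruenceSubgroup.Gamma0 N : Subgroup SL(2, ℤ)) : Subgroup (GL (Fin 2) ℝ)))
      (k := 12) f) :=
  h40_quotientFunc_injective_of_stab _ f
    (fun γ h => h40_mem_Gamma0_of_slash_eq N (f : ℍ → ℂ) c hc hf γ h)

end Fermat.Agent.S23
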