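import Mathlib

namespace Fermat.Agent.S23

open Matrix

/-- **Gram/Cramer identity** (any commutative ring, any square matrix `W`):
`W *ᵥ (adj(Wᵀ W) *ᵥ (Wᵀ *ᵥ y)) = det(Wᵀ W) • y`. -/
theorem h40_gram_cramer {R : Type*} [CommRing R] {n : Type*} [Fintype n] [DecidableEq n]
    (W : Matrix n n R) (y : n → R) :
    W *ᵥ ((Wᵀ * W).adjugate *ᵥ (Wᵀ *ᵥ y)) = (Wᵀ * W).det • y := by
  rw [Matrix.mulVec_mulVec, Matrix.mulVec_mulVec, Matrix.adjugate_mul_distrib]
  have h : W * (W.adjugate * Wᵀ.adjugate) * Wᵀ = (Wᵀ * W).det • (1 : Matrix n n R) := by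
    calc W * (W.adjugate * Wᵀ.adjugate) * Wᵀ
        = (W * W.adjugate) * (Wᵀ.adjugate * Wᵀ) := by simp only [Matrix.mul_assoc]
      _ = (W.det • (1 : Matrix n n R)) * (Wᵀ.det • (1 : Matrix n n R)) := by
          rw [Matrix.mul_adjugate, Matrix.adjugate_mul]
      _ = (Wᵀ * W).det • (1 : Matrix n n R) := by
          rw [Matrix.det_mul, Matrix.smul_mul, Matrix.one_mul, smul_smul, mul_comm]
  rw [h, Matrix.smul_mulVec, Matrix.one_mulVec]

/-- `det(Wᵀ W) = (det W)^2`. -/
theorem h40_det_gram {R : Type*} [CommRing R] {n : Type*} [Fintype n] [DecidableEq n]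
    (W : Matrix n n R) : (Wᵀ * W).det = W.det ^ 2 := by
  rw [Matrix.det_mul, Matrix.det_transpose, sq]

section vandermonde

variable {R : Type*} [CommRing R] {μ : ℕ}

/-- Entries of the Gram matrix of a Vandermonde matrix are the power sums. -/
theorem h40_gram_vandermonde_apply (x : Fin μ → R) (l m : Fin μ) :
    ((vandermonde x)ᵀ * vandermonde x) l m = ∑ i, x i ^ ((l : ℕ) + (m : ℕ)) := by
  simp [Matrix.mul_apply, Matrix.vandermonde_apply, pow_add]

/-- Entries of `Wᵀ *ᵥ y` for a Vandermonde matrix `W` are the twisted power sums. -/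
theorem h40_vandermonde_transpose_mulVec_apply (x y : Fin μ → R) (l : Fin μ) :
    ((vandermonde x)ᵀ *ᵥ y) l = ∑ i, x i ^ (l : ℕ) * y i := by
  simp [Matrix.mulVec, dotProduct, Matrix.vandermonde_apply]

/-- The discriminant `det(Wᵀ W)` of a Vandermonde matrix. -/
theorem h40_det_gram_vandermonde (x : Fin μ → R) :
    ((vandermonde x)ᵀ * vandermonde x).det =
      (∏ i : Fin μ, ∏ j ∈ Finset.Ioi i, (x j - x i)) ^ 2 := by
  rw [h40_det_gram, Matrix.det_vandermonde]

/-- The discriminant is nonzero when the nodes are pairwise distinct (in a domain). -/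
theorem h40_det_gram_vandermonde_ne_zero [IsDomain R] {x : Fin μ → R}
    (hx : Function.Injective x) : ((vandermonde x)ᵀ * vandermonde x).det ≠ 0 := by
  rw [h40_det_gram]
  exact pow_ne_zero _ (Matrix.det_vandermonde_ne_zero_iff.mpr hx)

/-- **Cramer on power sums.** With `P l m = ∑_i x_i^(l+m)` (= `(Wᵀ W) l m`), `t l = ∑_i x_i^l y_i`
(= `(Wᵀ *ᵥ y) l`) and `c = adj(P) *ᵥ t`, one has `det(P) * y_i = ∑_l c_l * x_i^l` for every `i`. -/
theorem h40_cramer_vandermonde (x y : Fin μ → R) (i : Fin μ) :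
    ((vandermonde x)ᵀ * vandermonde x).det * y i =
      ∑ l : Fin μ, (((vandermonde x)ᵀ * vandermonde x).adjugate *ᵥ ((vandermonde x)ᵀ *ᵥ y)) l *
        x i ^ (l : ℕ) := by
  have h := congrFun (h40_gram_cramer (vandermonde x) y) i
  rw [Pi.smul_apply, smul_eq_mul] at h
  rw [← h]
  simp only [Matrix.mulVec, dotProduct, Matrix.vandermonde_apply]
  exact Finset.sum_congr rfl fun l _ => mul_comm _ _

/-- Same statement with the matrix `P` and the vector `t` given by their entries (power sums). -/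
theorem h40_cramer_powerSums (x y : Fin μ → R) (P : Matrix (Fin μ) (Fin μ) R) (t : Fin μ → R)
    (hP : ∀ l m : Fin μ, P l m = ∑ i, x i ^ ((l : ℕ) + (m : ℕ)))
    (ht : ∀ l : Fin μ, t l = ∑ i, x i ^ (l : ℕ) * y i) (i : Fin μ) :
    P.det * y i = ∑ l : Fin μ, (P.adjugate *ᵥ t) l * x i ^ (l : ℕ) := by
  have hP' : P = (vandermonde x)ᵀ * vandermonde x := by
    ext l m; rw [hP, h40_gram_vandermonde_apply]
  have ht' : t = (vandermonde x)ᵀ *ᵥ y := by
    ext l; rw [ht, h40_vandermonde_transpose_mulVec_apply]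
  rw [hP', ht']
  exact h40_cramer_vandermonde x y i

/-- `det P = (∏_{i<j} (x_j - x_i))^2` for the power-sum matrix `P`. -/
theorem h40_det_powerSums (x : Fin μ → R) (P : Matrix (Fin μ) (Fin μ) R)
    (hP : ∀ l m : Fin μ, P l m = ∑ i, x i ^ ((l : ℕ) + (m : ℕ))) :
    P.det = (∏ i : Fin μ, ∏ j ∈ Finset.Ioi i, (x j - x i)) ^ 2 := by
  have hP' : P = (vandermonde x)ᵀ * vandermonde x := by
    ext l m; rw [hP, h40_gram_vandermonde_apply]
  rw [hP', h40_det_gram_vandermonde]

/-- `det P ≠ 0` for the power-sum matrix of pairwise distinct nodes in a domain. -/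
theorem h40_det_powerSums_ne_zero [IsDomain R] {x : Fin μ → R} (hx : Function.Injective x)
    (P : Matrix (Fin μ) (Fin μ) R)
    (hP : ∀ l m : Fin μ, P l m = ∑ i, x i ^ ((l : ℕ) + (m : ℕ))) : P.det ≠ 0 := by
  have hP' : P = (vandermonde x)ᵀ * vandermonde x := by
    ext l m; rw [hP, h40_gram_vandermonde_apply]
  rw [hP']
  exact h40_det_gram_vandermonde_ne_zero hx

/-- Cramer on power sums, nodes indexed by any finite type `ι` with `e : ι ≃ Fin μ`. -/
theorem h40_cramer_powerSums_of_equiv {ι : Type*} [Fintype ι] (e : ι ≃ Fin μ) (x y : ι → R)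
    (P : Matrix (Fin μ) (Fin μ) R) (t : Fin μ → R)
    (hP : ∀ l m : Fin μ, P l m = ∑ q, x q ^ ((l : ℕ) + (m : ℕ)))
    (ht : ∀ l : Fin μ, t l = ∑ q, x q ^ (l : ℕ) * y q) (q : ι) :
    P.det * y q = ∑ l : Fin μ, (P.adjugate *ᵥ t) l * x q ^ (l : ℕ) := by
  have h := h40_cramer_powerSums (x ∘ e.symm) (y ∘ e.symm) P t
    (fun l m => by
      rw [hP]
      exact (Equiv.sum_comp e.symm (fun q => x q ^ ((l : ℕ) + (m : ℕ)))).symm)
    (fun l => by
      rw [ht]
      exact (Equiv.sum_comp e.symm (fun q => x q ^ (l : ℕ) * y q)).symm) (e q)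
  simpa using h

/-- `det P ≠ 0` for the power-sum matrix of pairwise distinct nodes indexed by `ι ≃ Fin μ`. -/
theorem h40_det_powerSums_ne_zero_of_equiv [IsDomain R] {ι : Type*} [Fintype ι] (e : ι ≃ Fin μ)
    {x : ι → R} (hx : Function.Injective x) (P : Matrix (Fin μ) (Fin μ) R)
    (hP : ∀ l m : Fin μ, P l m = ∑ q, x q ^ ((l : ℕ) + (m : ℕ))) : P.det ≠ 0 :=
  h40_det_powerSums_ne_zero (x := x ∘ e.symm) (hx.comp e.symm.injective) P
    (fun l m => by
      rw [hP]
      exact (Equiv.sum_comp e.symm (fun q => x q ^ ((l : ℕ) + (m : ℕ)))).symm)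

end vandermonde

end Fermat.Agent.S23
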