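import Fermat.Agent.S23.h48_CuspDescent
import Fermat.Prelude.Def_CuspForm_HeckeAlgebra
import Fermat.Prelude.Def_CuspForm_IntegralStructure

set_option autoImplicit false

open CuspForm CongruenceSubgroup ModularFormClass UpperHalfPlane
open Fermat.Agent.S49

namespace Fermat.Agent.S23

/-- Every `q`-coefficient functional of positive index is the first coefficient composed with an
element of the Hecke algebra (weight two). -/
theorem h48_exists_hecke_coeff (N : ℕ) [NeZero N] (n : ℕ) (hn : 0 < n) :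
    ∃ t ∈ heckeAlgebra N 2 ∅, ∀ f : CuspForm (Gamma0 N) 2, qCoeff ⇑f n = qCoeff ⇑(t f) 1 := by
  induction n using Nat.strong_induction_on with
  | _ n ih =>
    rcases Nat.lt_or_ge n 2 with hn2 | hn2
    · have h1 : n = 1 := by omega
      subst h1
      exact ⟨1, one_mem _, fun f => rfl⟩
    · obtain ⟨ℓ, hℓ, hdvd⟩ := Nat.exists_prime_and_dvd (show n ≠ 1 by omega)
      obtain ⟨m, rfl⟩ := hdvd
      have hm0 : 0 < m := by
        rcases Nat.eq_zero_or_pos m with h0 | h0
        · subst h0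
          omega
        · exact h0
      have hm : m < ℓ * m := by
        have := hℓ.two_le
        nlinarith
      obtain ⟨tm, htm, htm'⟩ := ih m hm hm0
      by_cases hℓN : ℓ ∣ N
      · refine ⟨tm * heckeULin 2 hℓN, mul_mem htm
          (heckeULin_mem_heckeAlgebra hℓ hℓN (Set.notMem_empty ℓ)), fun f => ?_⟩
        rw [Module.End.mul_apply, ← htm', qc_heckeU hℓ hℓN, mul_comm]
      · by_cases hdm : ℓ ∣ m
        · have hml : m / ℓ < ℓ * m := lt_of_le_of_lt (Nat.div_le_self m ℓ) hm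
          have hml0 : 0 < m / ℓ := Nat.div_pos (Nat.le_of_dvd hm0 hdm) hℓ.pos
          obtain ⟨tq, htq, htq'⟩ := ih (m / ℓ) hml hml0
          refine ⟨tm * heckeTLin 2 hℓ hℓN - (ℓ : ℤ) • tq, sub_mem (mul_mem htm
            (heckeTLin_mem_heckeAlgebra hℓ hℓN (Set.notMem_empty ℓ)))
            (Subalgebra.zsmul_mem _ htq _), fun f => ?_⟩
          have h1 : (tm * heckeTLin 2 hℓ hℓN - (ℓ : ℤ) • tq) f =
              tm (heckeTLin 2 hℓ hℓN f) - (ℓ : ℂ) • tq f := by
            rw [LinearMap.sub_apply, Module.End.mul_apply, LinearMap.smul_apply,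
              ← Int.cast_smul_eq_zsmul ℂ]
            simp
          rw [h1, qc_sub, qc_smul, ← htm', ← htq', qc_heckeT hℓ hℓN, if_pos hdm, mul_comm ℓ m]
          ring
        · refine ⟨tm * heckeTLin 2 hℓ hℓN, mul_mem htm
            (heckeTLin_mem_heckeAlgebra hℓ hℓN (Set.notMem_empty ℓ)), fun f => ?_⟩
          rw [Module.End.mul_apply, ← htm', qc_heckeT hℓ hℓN, if_neg hdm, add_zero, mul_comm]

/-- A finitely generated subgroup of `ℂ` consisting of rational numbers has bounded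
denominators. -/
theorem h48_bounded_denominators (H : Submodule ℤ ℂ) (hfg : H.FG)
    (hQ : ∀ x ∈ H, ∃ r : ℚ, x = (r : ℂ)) :
    ∃ D : ℕ, 0 < D ∧ ∀ x ∈ H, ∃ m : ℤ, (D : ℂ) * x = (m : ℂ) := by
  classical
  obtain ⟨s, hs⟩ := hfg
  have hQs : ∀ x ∈ s, ∃ r : ℚ, x = (r : ℂ) := fun x hx => hQ x (hs ▸ Submodule.subset_span hx)
  choose! r hr using hQs
  refine ⟨∏ x ∈ s, (r x).den, Finset.prod_pos fun x _ => (r x).den_pos, ?_⟩
  intro x hx
  rw [← hs] at hx
  induction hx using Submodule.span_induction with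
  | mem x hx =>
    obtain ⟨e, he⟩ := Finset.dvd_prod_of_mem (fun y => (r y).den) hx
    have hxr := hr x hx
    generalize r x = q at he hxr
    refine ⟨(e : ℤ) * q.num, ?_⟩
    rw [he, hxr]
    have hden : (q.den : ℂ) ≠ 0 := by exact_mod_cast q.den_ne_zero
    have h2 : ((q : ℚ) : ℂ) = (q.num : ℂ) / (q.den : ℂ) := by
      conv_lhs => rw [← Rat.num_div_den q]
      push_cast
      rfl
    rw [h2]
    push_cast
    field_simp
  | zero => exact ⟨0, by simp⟩
  | add x y _ _ hx hy =>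
    obtain ⟨a, ha⟩ := hx
    obtain ⟨b, hb⟩ := hy
    exact ⟨a + b, by rw [mul_add, ha, hb]; push_cast; ring⟩
  | smul a x _ hx =>
    obtain ⟨b, hb⟩ := hx
    refine ⟨a * b, ?_⟩
    rw [zsmul_eq_mul, mul_left_comm, hb]
    push_cast
    ring

/-- Bounded denominators via Hecke duality: if the weight-two Hecke algebra is a finite
`ℤ`-module and the forms with rational coefficients span, then the integral forms span. -/
theorem h48_hasIntegralStructure_of_ratSpan (N : ℕ) [NeZero N]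
    (hfin : Module.Finite ℤ (CuspForm.heckeAlgebra N 2 ∅))
    (hrat : Submodule.span ℂ {f : CuspForm (Gamma0 N) 2 |
      ∀ n, ∃ r : ℚ, (qExpansion 1 f).coeff n = (r : ℂ)} = ⊤) :
    CuspForm.HasIntegralStructure N 2 := by
  unfold CuspForm.HasIntegralStructure
  rw [eq_top_iff, ← hrat, Submodule.span_le]
  intro f hf
  let ψ : heckeAlgebra N 2 ∅ →ₗ[ℤ] ℂ :=
    { toFun := fun t => qCoeff ⇑((t : Module.End ℂ (CuspForm (Gamma0 N) 2)) f) 1
      map_add' := fun s t => by
        change qCoeff ⇑((s : Module.End ℂ (CuspForm (Gamma0 N) 2)) f +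
          (t : Module.End ℂ (CuspForm (Gamma0 N) 2)) f) 1 = _
        rw [qc_add]
      map_smul' := fun z t => by
        change qCoeff ⇑(z • ((t : Module.End ℂ (CuspForm (Gamma0 N) 2)) f)) 1 = _
        rw [← Int.cast_smul_eq_zsmul ℂ, qc_smul]
        simp }
  have hψ : ∀ t : heckeAlgebra N 2 ∅,
      ψ t = qCoeff ⇑((t : Module.End ℂ (CuspForm (Gamma0 N) 2)) f) 1 := fun t => rfl
  let Qs : Submodule ℤ ℂ := LinearMap.range ((Algebra.linearMap ℚ ℂ).restrictScalars ℤ)
  have hrfin : Module.Finite ℤ (LinearMap.range ψ) := Module.Finite.range ψ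
  have hnoeth : IsNoetherian ℤ (LinearMap.range ψ) := isNoetherian_of_isNoetherianRing_of_finite ℤ _
  have hGfg : (LinearMap.range ψ ⊓ Qs).FG := isNoetherian_submodule.mp hnoeth _ inf_le_left
  obtain ⟨D, hD, hDx⟩ := h48_bounded_denominators (LinearMap.range ψ ⊓ Qs) hGfg (by
    rintro x ⟨-, r, hr⟩
    exact ⟨r, hr.symm⟩)
  have hDne : (D : ℂ) ≠ 0 := by exact_mod_cast hD.ne'
  have hmem : (D : ℂ) • f ∈ CuspForm.intLattice N 2 := by
    rw [mem_intLattice_iff]
    intro n
    rcases Nat.eq_zero_or_pos n with rfl | hn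
    · exact ⟨0, by rw [qc_coeff_zero]; simp⟩
    · obtain ⟨t, ht, htf⟩ := h48_exists_hecke_coeff N n hn
      have h1 : qCoeff ⇑f n ∈ LinearMap.range ψ ⊓ Qs := by
        refine ⟨⟨⟨t, ht⟩, ?_⟩, ?_⟩
        · rw [hψ]
          exact (htf f).symm
        · obtain ⟨r, hr⟩ := hf n
          exact ⟨r, hr.symm⟩
      obtain ⟨m, hm⟩ := hDx _ h1
      exact ⟨m, by rw [qc_smul, hm]⟩
  have h2 : f = (D : ℂ)⁻¹ • ((D : ℂ) • f) := by
    rw [smul_smul, inv_mul_cancel₀ hDne, one_smul]
  rw [h2]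
  exact Submodule.smul_mem _ _ (Submodule.subset_span hmem)

end Fermat.Agent.S23
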