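import Mathlib

set_option autoImplicit false

open scoped Polynomial

namespace Fermat.Agent.S23

/-- An automorphism of a subring-like domain `R` of `ℂ` extends to an automorphism of `ℂ`. -/
theorem h48_exists_ringEquiv_of_ringEquiv {R : Type*} [CommRing R] [IsDomain R] [Algebra R ℂ]
    [FaithfulSMul R ℂ] (τ : R ≃+* R) :
    ∃ σ : ℂ ≃+* ℂ, ∀ r : R, σ (algebraMap R ℂ r) = algebraMap R ℂ (τ r) := by
  obtain ⟨s, hs⟩ := exists_isTranscendenceBasis R ℂ
  have hcl := IsAlgClosed.isAlgClosure_of_transcendence_basis (Subtype.val : s → ℂ) hs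
  let a : MvPolynomial s R ≃ₐ[R] Algebra.adjoin R (Set.range (Subtype.val : s → ℂ)) :=
    hs.1.aevalEquiv
  let e : Algebra.adjoin R (Set.range (Subtype.val : s → ℂ)) ≃+*
      Algebra.adjoin R (Set.range (Subtype.val : s → ℂ)) :=
    a.symm.toRingEquiv.trans ((MvPolynomial.mapEquiv s τ).trans a.toRingEquiv)
  refine ⟨IsAlgClosure.equivOfEquiv ℂ ℂ e, fun r => ?_⟩
  have h1 : algebraMap R ℂ r = algebraMap (Algebra.adjoin R (Set.range (Subtype.val : s → ℂ))) ℂ
      (algebraMap R (Algebra.adjoin R (Set.range (Subtype.val : s → ℂ))) r) := rfl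
  have h2 : e (algebraMap R (Algebra.adjoin R (Set.range (Subtype.val : s → ℂ))) r) =
      algebraMap R (Algebra.adjoin R (Set.range (Subtype.val : s → ℂ))) (τ r) := by
    have h3 : a.symm (algebraMap R (Algebra.adjoin R (Set.range (Subtype.val : s → ℂ))) r) =
        MvPolynomial.C r := by
      rw [← MvPolynomial.algebraMap_eq]
      exact a.symm.commutes r
    have h4 : a (MvPolynomial.C (τ r)) =
        algebraMap R (Algebra.adjoin R (Set.range (Subtype.val : s → ℂ))) (τ r) := by
      rw [← MvPolynomial.algebraMap_eq]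
      exact a.commutes (τ r)
    change a (MvPolynomial.mapEquiv s τ (a.symm _)) = _
    rw [h3, ← h4]
    simp
  rw [h1, IsAlgClosure.equivOfEquiv_algebraMap, h2]
  rfl

/-- A complex number fixed by every ring endomorphism of `ℂ` is rational (moving lemma). -/
theorem h48_exists_ringHom_ne (x : ℂ) (hx : x ∉ Set.range ((↑) : ℚ → ℂ)) :
    ∃ φ : ℂ →+* ℂ, φ x ≠ x := by
  by_cases halg : IsAlgebraic ℚ x
  · have hxR : x ∈ algebraicClosure ℚ ℂ := mem_algebraicClosure_iff.mpr halg
    have hcl : IsAlgClosure ℚ (algebraicClosure ℚ ℂ) := algebraicClosure.isAlgClosure ℚ ℂ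
    have hgal : IsGalois ℚ (algebraicClosure ℚ ℂ) := IsAlgClosure.isGalois ℚ _
    have hnot : (⟨x, hxR⟩ : algebraicClosure ℚ ℂ) ∉
        (⊥ : IntermediateField ℚ (algebraicClosure ℚ ℂ)) := by
      intro hb
      rw [IntermediateField.mem_bot] at hb
      obtain ⟨r, hr⟩ := hb
      apply hx
      refine ⟨r, ?_⟩
      have h1 := congrArg (Subtype.val : algebraicClosure ℚ ℂ → ℂ) hr
      simpa using h1
    rw [InfiniteGalois.mem_bot_iff_fixed] at hnot
    simp only [not_forall] at hnot
    obtain ⟨τ, hτ⟩ := hnot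
    obtain ⟨σ, hσ⟩ := h48_exists_ringEquiv_of_ringEquiv (R := algebraicClosure ℚ ℂ)
      τ.toRingEquiv
    refine ⟨σ.toRingHom, ?_⟩
    have h2 := hσ ⟨x, hxR⟩
    intro h3
    apply hτ
    apply Subtype.ext
    have h4 : σ x = ((τ ⟨x, hxR⟩ : algebraicClosure ℚ ℂ) : ℂ) := h2
    have h5 : σ x = x := h3
    rw [← h4, h5]
  · have hinj : Function.Injective (Polynomial.aeval x : ℚ[X] →ₐ[ℚ] ℂ) :=
      transcendental_iff_injective.mp halg
    let _ : Algebra ℚ[X] ℂ := (Polynomial.aeval x : ℚ[X] →ₐ[ℚ] ℂ).toRingHom.toAlgebra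
    have : FaithfulSMul ℚ[X] ℂ := (faithfulSMul_iff_algebraMap_injective _ _).mpr hinj
    obtain ⟨σ, hσ⟩ := h48_exists_ringEquiv_of_ringEquiv (R := ℚ[X])
      (Polynomial.algEquivAevalXAddC (1 : ℚ)).toRingEquiv
    refine ⟨σ.toRingHom, ?_⟩
    have h2 := hσ Polynomial.X
    have h3 : algebraMap ℚ[X] ℂ Polynomial.X = x := Polynomial.aeval_X x
    have h4 : algebraMap ℚ[X] ℂ ((Polynomial.algEquivAevalXAddC (1 : ℚ)).toRingEquiv Polynomial.X)
        = x + 1 := by
      change Polynomial.aeval x ((Polynomial.algEquivAevalXAddC (1 : ℚ)) Polynomial.X) = x + 1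
      rw [Polynomial.algEquivAevalXAddC_apply]
      simp
    rw [h3, h4] at h2
    intro h5
    have h6 : σ x = x := h5
    rw [h6] at h2
    exact one_ne_zero (α := ℂ) (by linear_combination -h2)

/-- Abstract descent: a finite-dimensional space of sequences stable under all coefficientwise
ring endomorphisms of `ℂ` is spanned by its rational points. -/
theorem h48_descent {V : Type*} [AddCommGroup V] [Module ℂ V] [FiniteDimensional ℂ V]
    (c : V →ₗ[ℂ] (ℕ → ℂ)) (hc : Function.Injective c)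
    (htw : ∀ (φ : ℂ →+* ℂ) (f : V), ∃ g : V, ∀ n, c g n = φ (c f n)) :
    Submodule.span ℂ {f : V | ∀ n, ∃ r : ℚ, c f n = (r : ℂ)} = ⊤ := by
  classical
  let α : ℕ → Module.Dual ℂ V := fun n => (LinearMap.proj n).comp c
  have hα : ∀ n v, α n v = c v n := fun n v => rfl
  have hspan : Submodule.span ℂ (Set.range α) = ⊤ := by
    rw [← Subspace.dualCoannihilator_dualAnnihilator_eq (W := Submodule.span ℂ (Set.range α))]
    have h0 : (Submodule.span ℂ (Set.range α)).dualCoannihilator = ⊥ := by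
      rw [eq_bot_iff]
      intro v hv
      rw [Submodule.mem_dualCoannihilator] at hv
      rw [Submodule.mem_bot]
      apply hc
      rw [map_zero]
      funext n
      exact hv (α n) (Submodule.subset_span ⟨n, rfl⟩)
    rw [h0, Submodule.dualAnnihilator_bot]
  obtain ⟨b, hb, hbspan, hli⟩ := exists_linearIndependent ℂ (Set.range α)
  have hb_top : ⊤ ≤ Submodule.span ℂ (Set.range ((↑) : b → Module.Dual ℂ V)) := by
    rw [Subtype.range_coe, hbspan, hspan]
  let B : Module.Basis b ℂ (Module.Dual ℂ V) := Module.Basis.mk hli hb_top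
  have hB : ∀ i : b, B i = (i : Module.Dual ℂ V) := fun i => Module.Basis.mk_apply hli hb_top i
  have : Fintype b := FiniteDimensional.fintypeBasisIndex B
  let u : Module.Basis b ℂ V := B.dualBasis.map (Module.evalEquiv ℂ V).symm
  have hrepr : ∀ (g : V) (i : b), u.repr g i = (i : Module.Dual ℂ V) g := by
    intro g i
    change (B.dualBasis.map (Module.evalEquiv ℂ V).symm).repr g i = _
    rw [Module.Basis.map_repr]
    change B.dualBasis.repr ((Module.evalEquiv ℂ V) g) i = _
    rw [Module.Basis.dualBasis_repr, Module.evalEquiv_apply, Module.Dual.eval_apply, hB]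
  have hbn : ∀ i : b, ∃ n, α n = (i : Module.Dual ℂ V) := fun i => hb i.2
  choose nn hnn using hbn
  have hrat : ∀ j : b, ∀ n, ∃ r : ℚ, c (u j) n = (r : ℂ) := by
    intro j n
    by_contra hcon
    obtain ⟨φ, hφ⟩ := h48_exists_ringHom_ne (c (u j) n) (fun ⟨r, hr⟩ => hcon ⟨r, hr.symm⟩)
    obtain ⟨g, hg⟩ := htw φ (u j)
    have hgu : g = u j := by
      apply u.ext_elem
      intro i
      rw [hrepr, hrepr, ← hnn i, hα, hα, hg]
      have h1 : c (u j) (nn i) = u.repr (u j) i := by
        rw [hrepr, ← hnn i, hα]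
      rw [h1, Module.Basis.repr_self, Finsupp.single_apply]
      split_ifs <;> simp
    apply hφ
    rw [← hg n, hgu]
  rw [eq_top_iff, ← u.span_eq]
  apply Submodule.span_mono
  rintro _ ⟨j, rfl⟩
  exact hrat j

end Fermat.Agent.S23
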