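import Mathlib
import Fermat.Agent.S23.h60_Twist

set_option autoImplicit false

namespace Fermat.Agent.S23

open UpperHalfPlane Function
open scoped MatrixGroups ModularForm Manifold CongruenceSubgroup

/-- `F` is the underlying function of a modular form of weight `w` on `Γ`. -/
def h60_IsMF (Γ : Subgroup (GL (Fin 2) ℝ)) (w : ℤ) (F : ℍ → ℂ) : Prop :=
  ∃ G : ModularForm Γ w, ⇑G = F

section IsMF

variable {Γ : Subgroup (GL (Fin 2) ℝ)}

theorem h60_IsMF.of (w : ℤ) (G : ModularForm Γ w) : h60_IsMF Γ w ⇑G := ⟨G, rfl⟩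

theorem h60_IsMF.cast {w w' : ℤ} {F : ℍ → ℂ} (h : w = w') (hF : h60_IsMF Γ w F) :
    h60_IsMF Γ w' F := by
  subst h; exact hF

theorem h60_IsMF.zero (w : ℤ) : h60_IsMF Γ w 0 := ⟨0, rfl⟩

theorem h60_IsMF.add {w : ℤ} {F G : ℍ → ℂ} (hF : h60_IsMF Γ w F) (hG : h60_IsMF Γ w G) :
    h60_IsMF Γ w (F + G) := by
  obtain ⟨F', rfl⟩ := hF
  obtain ⟨G', rfl⟩ := hG
  exact ⟨F' + G', rfl⟩

theorem h60_IsMF.neg {w : ℤ} {F : ℍ → ℂ} (hF : h60_IsMF Γ w F) : h60_IsMF Γ w (-F) := by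
  obtain ⟨F', rfl⟩ := hF
  exact ⟨-F', rfl⟩

theorem h60_IsMF.mul [Γ.HasDetPlusMinusOne] {w w' : ℤ} {F G : ℍ → ℂ} (hF : h60_IsMF Γ w F)
    (hG : h60_IsMF Γ w' G) : h60_IsMF Γ (w + w') (F * G) := by
  obtain ⟨F', rfl⟩ := hF
  obtain ⟨G', rfl⟩ := hG
  exact ⟨F'.mul G', rfl⟩

theorem h60_IsMF.sum {ι : Type*} (s : Finset ι) {w : ℤ} {F : ι → ℍ → ℂ}
    (hF : ∀ i ∈ s, h60_IsMF Γ w (F i)) : h60_IsMF Γ w (∑ i ∈ s, F i) := by
  classical
  induction s using Finset.induction_on with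
  | empty => simpa using h60_IsMF.zero w
  | insert a s ha ih =>
    rw [Finset.sum_insert ha]
    exact (hF a (Finset.mem_insert_self a s)).add
      (ih fun i hi => hF i (Finset.mem_insert_of_mem hi))

theorem h60_IsMF.prod [Γ.HasDetPlusMinusOne] {ι : Type} (s : Finset ι) {w : ι → ℤ}
    {F : ι → ℍ → ℂ} (hF : ∀ i, h60_IsMF Γ (w i) (F i)) :
    h60_IsMF Γ (∑ i ∈ s, w i) (∏ i ∈ s, F i) := by
  choose G hG using hF
  refine ⟨ModularForm.prod (s := s) (∑ i ∈ s, w i) rfl G, ?_⟩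
  rw [ModularForm.coe_prod]
  exact Finset.prod_congr rfl fun i _ => hG i

theorem h60_IsMF.smul [Γ.HasDetOne] {w : ℤ} {F : ℍ → ℂ} (c : ℂ) (hF : h60_IsMF Γ w F) :
    h60_IsMF Γ w (c • F) := by
  obtain ⟨F', rfl⟩ := hF
  exact ⟨c • F', rfl⟩

theorem h60_IsMF.units_smul {w : ℤ} {F : ℍ → ℂ} (ε : ℤˣ) (hF : h60_IsMF Γ w F) :
    h60_IsMF Γ w (ε • F) := by
  rcases Int.units_eq_one_or ε with rfl | rfl
  · simpa using hF
  · simpa using hF.neg

end IsMF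

/-- Restriction of a level one modular form to a subgroup. -/
def h60_restrict {Γ : Subgroup (GL (Fin 2) ℝ)} (hΓ : Γ ≤ 𝒮ℒ) {w : ℤ} (G : ModularForm 𝒮ℒ w) :
    ModularForm Γ w where
  toFun := G
  slash_action_eq' γ hγ := G.slash_action_eq' γ (hΓ hγ)
  holo' := G.holo'
  bdd_at_cusps' hc := G.bdd_at_cusps' (hc.mono hΓ)

theorem h60_coe_restrict {Γ : Subgroup (GL (Fin 2) ℝ)} (hΓ : Γ ≤ 𝒮ℒ) {w : ℤ}
    (G : ModularForm 𝒮ℒ w) : ⇑(h60_restrict hΓ G) = ⇑G := rfl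

/-- `F` is the underlying function of an element of the rational span of weight `w` on `Γ`. -/
def h60_IsRat (Γ : Subgroup (GL (Fin 2) ℝ)) [Γ.HasDetOne] (w : ℤ) (F : ℍ → ℂ) : Prop :=
  ∃ G ∈ h60_ratSpan Γ w, ⇑G = F

section IsRat

variable {Γ : Subgroup (GL (Fin 2) ℝ)} [Γ.HasDetOne]

theorem h60_IsRat.cast {w w' : ℤ} {F : ℍ → ℂ} (h : w = w') (hF : h60_IsRat Γ w F) :
    h60_IsRat Γ w' F := by
  subst h; exact hF

theorem h60_IsRat.zero (w : ℤ) : h60_IsRat Γ w 0 := ⟨0, Submodule.zero_mem _, rfl⟩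

theorem h60_IsRat.add {w : ℤ} {F G : ℍ → ℂ} (hF : h60_IsRat Γ w F) (hG : h60_IsRat Γ w G) :
    h60_IsRat Γ w (F + G) := by
  obtain ⟨F', hF', rfl⟩ := hF
  obtain ⟨G', hG', rfl⟩ := hG
  exact ⟨F' + G', Submodule.add_mem _ hF' hG', rfl⟩

theorem h60_IsRat.smul {w : ℤ} {F : ℍ → ℂ} (c : ℂ) (hF : h60_IsRat Γ w F) :
    h60_IsRat Γ w (c • F) := by
  obtain ⟨F', hF', rfl⟩ := hF
  exact ⟨c • F', Submodule.smul_mem _ _ hF', rfl⟩

theorem h60_IsRat.sum {ι : Type*} (s : Finset ι) {w : ℤ} {F : ι → ℍ → ℂ}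
    (hF : ∀ i ∈ s, h60_IsRat Γ w (F i)) : h60_IsRat Γ w (∑ i ∈ s, F i) := by
  classical
  induction s using Finset.induction_on with
  | empty => simpa using h60_IsRat.zero (Γ := Γ) w
  | insert a s ha ih =>
    rw [Finset.sum_insert ha]
    exact (hF a (Finset.mem_insert_self a s)).add
      (ih fun i hi => hF i (Finset.mem_insert_of_mem hi))

/-- The product of two elements of rational spans is in the rational span. -/
theorem h60_ratSpan_mul (h1 : (1 : ℝ) ∈ Γ.strictPeriods) {w w' : ℤ} {F : ModularForm Γ w}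
    {G : ModularForm Γ w'} (hF : F ∈ h60_ratSpan Γ w) (hG : G ∈ h60_ratSpan Γ w') :
    F.mul G ∈ h60_ratSpan Γ (w + w') := by
  induction hF, hG using Submodule.span_induction₂ with
  | mem_mem F G hF hG =>
    apply Submodule.subset_span
    intro n
    rw [ModularForm.qExpansion_mul one_pos h1, PowerSeries.coeff_mul]
    choose rF hrF using hF
    choose rG hrG using hG
    refine ⟨∑ p ∈ Finset.HasAntidiagonal.antidiagonal n, rF p.1 * rG p.2, ?_⟩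
    push_cast
    exact Finset.sum_congr rfl fun p _ => by rw [hrF, hrG]
  | zero_left G hG =>
    have : (0 : ModularForm Γ w).mul G = 0 := by ext τ; simp
    rw [this]; exact Submodule.zero_mem _
  | zero_right F hF =>
    have : F.mul (0 : ModularForm Γ w') = 0 := by ext τ; simp
    rw [this]; exact Submodule.zero_mem _
  | add_left F F' G _ _ _ ih ih' =>
    have : (F + F').mul G = F.mul G + F'.mul G := by ext τ; simp [add_mul]
    rw [this]; exact Submodule.add_mem _ ih ih'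
  | add_right F G G' _ _ _ ih ih' =>
    have : F.mul (G + G') = F.mul G + F.mul G' := by ext τ; simp [mul_add]
    rw [this]; exact Submodule.add_mem _ ih ih'
  | smul_left c F G _ _ ih =>
    have : (c • F).mul G = c • F.mul G := by ext τ; simp [mul_assoc]
    rw [this]; exact Submodule.smul_mem _ _ ih
  | smul_right c F G _ _ ih =>
    have : F.mul (c • G) = c • F.mul G := by ext τ; simp [mul_left_comm]
    rw [this]; exact Submodule.smul_mem _ _ ih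

theorem h60_IsRat.mul (h1 : (1 : ℝ) ∈ Γ.strictPeriods) {w w' : ℤ} {F G : ℍ → ℂ}
    (hF : h60_IsRat Γ w F) (hG : h60_IsRat Γ w' G) : h60_IsRat Γ (w + w') (F * G) := by
  obtain ⟨F', hF', rfl⟩ := hF
  obtain ⟨G', hG', rfl⟩ := hG
  exact ⟨F'.mul G', h60_ratSpan_mul h1 hF' hG', rfl⟩

theorem h60_IsRat.one : h60_IsRat Γ 0 1 := by
  refine ⟨1, Submodule.subset_span ?_, ModularForm.one_coe_eq_one⟩
  intro n
  rw [ModularForm.qExpansion_one]
  refine ⟨if n = 0 then 1 else 0, ?_⟩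
  rw [PowerSeries.coeff_one]
  split_ifs <;> simp

theorem h60_IsRat.pow (h1 : (1 : ℝ) ∈ Γ.strictPeriods) {w : ℤ} {F : ℍ → ℂ}
    (hF : h60_IsRat Γ w F) (n : ℕ) : h60_IsRat Γ (n * w) (F ^ n) := by
  induction n with
  | zero => simpa using h60_IsRat.one (Γ := Γ)
  | succ n ih =>
    rw [pow_succ]
    exact (ih.mul h1 hF).cast (by push_cast; ring)

/-- A level one modular form is in the rational span of every subgroup, given the level one
rational structure. -/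
theorem h60_IsRat.of_levelOne (hΓ : Γ ≤ 𝒮ℒ) (hL1 : ∀ w : ℤ, h60_ratSpan 𝒮ℒ w = ⊤) {w : ℤ}
    {F : ℍ → ℂ} (hF : h60_IsMF 𝒮ℒ w F) : h60_IsRat Γ w F := by
  obtain ⟨G, rfl⟩ := hF
  refine ⟨h60_restrict hΓ G, ?_, rfl⟩
  have hG : G ∈ h60_ratSpan 𝒮ℒ w := by rw [hL1]; trivial
  induction hG using Submodule.span_induction with
  | mem G hG => exact Submodule.subset_span hG
  | zero =>
    have : h60_restrict hΓ (0 : ModularForm 𝒮ℒ w) = 0 := by ext τ; rfl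
    rw [this]; exact Submodule.zero_mem _
  | add G G' _ _ ih ih' =>
    have : h60_restrict hΓ (G + G') = h60_restrict hΓ G + h60_restrict hΓ G' := by ext τ; rfl
    rw [this]; exact Submodule.add_mem _ ih ih'
  | smul c G _ ih =>
    have : h60_restrict hΓ (c • G) = c • h60_restrict hΓ G := by ext τ; rfl
    rw [this]; exact Submodule.smul_mem _ _ ih

theorem h60_IsRat.of_rat {w : ℤ} (V : ModularForm Γ w)
    (hV : ∀ n : ℕ, ∃ r : ℚ, (qExpansion 1 V).coeff n = (r : ℂ)) : h60_IsRat Γ w ⇑V :=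
  ⟨V, Submodule.subset_span hV, rfl⟩

theorem h60_IsRat.of_int {w : ℤ} (V : ModularForm Γ w)
    (hV : ∀ n : ℕ, ∃ z : ℤ, (qExpansion 1 V).coeff n = (z : ℂ)) : h60_IsRat Γ w ⇑V :=
  h60_IsRat.of_rat V fun n => by
    obtain ⟨z, hz⟩ := hV n
    exact ⟨z, by rw [hz]; simp⟩

/-- From a "denominator" representation `D * f = ∑ l, c l * V ^ l` with `D`, `c l` of level one
and `V` with rational `q`-expansion, we get the representation `f * B = A` with `A` in the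
rational span needed by `h60_twist`. -/
theorem h60_rep_of_den (hΓ : Γ ≤ 𝒮ℒ) (h1 : (1 : ℝ) ∈ Γ.strictPeriods)
    (hL1 : ∀ w : ℤ, h60_ratSpan 𝒮ℒ w = ⊤) {wV : ℤ} (V : ModularForm Γ wV)
    (hV : ∀ n : ℕ, ∃ r : ℚ, (qExpansion 1 V).coeff n = (r : ℂ))
    {k w : ℤ} (f : ℍ → ℂ) (D : ModularForm 𝒮ℒ w) (hD : D ≠ 0) (μ : ℕ)
    (c : (l : Fin μ) → ModularForm 𝒮ℒ (w + k - wV * (l : ℤ)))
    (h : ∀ τ : ℍ, D τ * f τ = ∑ l : Fin μ, c l τ * V τ ^ (l : ℕ)) :
    ∃ (b : ℤ) (B : ModularForm 𝒮ℒ b) (A : ModularForm Γ (k + b)),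
      B ≠ 0 ∧ A ∈ h60_ratSpan Γ (k + b) ∧ ∀ τ, f τ * B τ = A τ := by
  have hA : h60_IsRat Γ (k + w) (∑ l : Fin μ, (⇑(c l) : ℍ → ℂ) * (⇑V : ℍ → ℂ) ^ (l : ℕ)) := by
    refine h60_IsRat.sum _ fun l _ => ?_
    exact ((h60_IsRat.of_levelOne hΓ hL1 (h60_IsMF.of _ (c l))).mul h1
      ((h60_IsRat.of_rat V hV).pow h1 (l : ℕ))).cast (by ring)
  obtain ⟨A, hA, hAeq⟩ := hA
  refine ⟨w, D, A, hD, hA, fun τ => ?_⟩
  rw [hAeq, mul_comm, h τ]
  simp

end IsRat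

end Fermat.Agent.S23
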