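import Mathlib
import Fermat.Agent.S23.h60_Rat
import Fermat.Agent.S23.h40_Cramer

set_option autoImplicit false

namespace Fermat.Agent.S23

open UpperHalfPlane Function Matrix
open scoped MatrixGroups ModularForm Manifold

section det

variable {Γ : Subgroup (GL (Fin 2) ℝ)} [Γ.HasDetPlusMinusOne]

/-- Homogeneous determinant: if the entry `(i, j)` of a matrix of functions is a modular form of
weight `r i + c j`, then the determinant is a modular form of weight `∑ r + ∑ c`. -/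
theorem h60_IsMF.det {n : ℕ} (M : Matrix (Fin n) (Fin n) (ℍ → ℂ)) (r c : Fin n → ℤ)
    (hM : ∀ i j, h60_IsMF Γ (r i + c j) (M i j)) :
    h60_IsMF Γ (∑ i, r i + ∑ j, c j) M.det := by
  rw [Matrix.det_apply]
  refine h60_IsMF.sum _ fun σ _ => ?_
  refine h60_IsMF.units_smul _ ?_
  have h := h60_IsMF.prod (Γ := Γ) Finset.univ (w := fun i => r (σ i) + c i)
    (F := fun i => M (σ i) i) (fun i => hM (σ i) i)
  refine h.cast ?_
  rw [Finset.sum_add_distrib, Equiv.sum_comp σ r]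

end det

section trace

variable {Γ : Subgroup (GL (Fin 2) ℝ)}

theorem h60_pow_slash (γ : GL (Fin 2) ℝ) (hγ : γ ∈ 𝒮ℒ) (f : ℍ → ℂ) (a : ℤ) (l : ℕ) :
    (f ^ l) ∣[(l : ℤ) * a] γ = (f ∣[a] γ) ^ l := by
  obtain ⟨g, rfl⟩ := hγ
  induction l with
  | zero =>
    simp only [Nat.cast_zero, zero_mul, pow_zero]
    exact ModularForm.is_invariant_one g
  | succ l ih =>
    have h := ModularForm.mul_slash_SL2 ((l : ℤ) * a) a g (f ^ l) f
    have e : ((l + 1 : ℕ) : ℤ) * a = (l : ℤ) * a + a := by push_cast; ring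
    rw [e, pow_succ, pow_succ, ← ih]
    exact h

theorem h60_quotientFunc_mul [Γ.HasDetPlusMinusOne] {a b : ℤ} (F : ModularForm Γ a) (G : ModularForm Γ b)
    (q : 𝒮ℒ ⧸ Γ.subgroupOf 𝒮ℒ) :
    SlashInvariantForm.quotientFunc (F.mul G) q =
      SlashInvariantForm.quotientFunc F q * SlashInvariantForm.quotientFunc G q := by
  induction q using Quotient.inductionOn with
  | h r =>
    obtain ⟨g, hg⟩ : (r : GL (Fin 2) ℝ)⁻¹ ∈ 𝒮ℒ := inv_mem r.2
    simp only [SlashInvariantForm.quotientFunc_mk, ModularForm.coe_mul, ← hg]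
    exact ModularForm.mul_slash_SL2 a b g F G

theorem h60_quotientFunc_pow [Γ.HasDetPlusMinusOne] {a : ℤ} (F : ModularForm Γ a) (l : ℕ)
    (q : 𝒮ℒ ⧸ Γ.subgroupOf 𝒮ℒ) :
    SlashInvariantForm.quotientFunc (F.pow l) q = SlashInvariantForm.quotientFunc F q ^ l := by
  induction q using Quotient.inductionOn with
  | h r =>
    simp only [SlashInvariantForm.quotientFunc_mk, ModularForm.coe_pow]
    exact h60_pow_slash _ (inv_mem r.2) F a l

theorem h60_quotientFunc_one_coset {a : ℤ} (F : ModularForm Γ a) :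
    SlashInvariantForm.quotientFunc F (⟦1⟧ : 𝒮ℒ ⧸ Γ.subgroupOf 𝒮ℒ) = ⇑F := by
  simp [SlashInvariantForm.quotientFunc_mk]

/-- Twisted power sums of the conjugates are level one modular forms. -/
theorem h60_trace_isMF [Γ.IsArithmetic] [Γ.HasDetPlusMinusOne] [Fintype (𝒮ℒ ⧸ Γ.subgroupOf 𝒮ℒ)] {a k : ℤ} (V : ModularForm Γ a)
    (f : ModularForm Γ k) (l : ℕ) :
    h60_IsMF 𝒮ℒ (l * a + k) (∑ q : 𝒮ℒ ⧸ Γ.subgroupOf 𝒮ℒ,
      SlashInvariantForm.quotientFunc V q ^ l * SlashInvariantForm.quotientFunc f q) := by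
  obtain rfl : ‹Fintype (𝒮ℒ ⧸ Γ.subgroupOf 𝒮ℒ)› = Fintype.ofFinite _ := Subsingleton.elim _ _
  refine ⟨ModularForm.trace 𝒮ℒ ((V.pow l).mul f), ?_⟩
  rw [ModularForm.coe_trace]
  exact Finset.sum_congr rfl fun q _ => by rw [h60_quotientFunc_mul, h60_quotientFunc_pow]

/-- Power sums of the conjugates are level one modular forms. -/
theorem h60_trace_pow_isMF [Γ.IsArithmetic] [Γ.HasDetPlusMinusOne] [Fintype (𝒮ℒ ⧸ Γ.subgroupOf 𝒮ℒ)] {a : ℤ} (V : ModularForm Γ a)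
    (l : ℕ) :
    h60_IsMF 𝒮ℒ (l * a) (∑ q : 𝒮ℒ ⧸ Γ.subgroupOf 𝒮ℒ,
      SlashInvariantForm.quotientFunc V q ^ l) := by
  obtain rfl : ‹Fintype (𝒮ℒ ⧸ Γ.subgroupOf 𝒮ℒ)› = Fintype.ofFinite _ := Subsingleton.elim _ _
  refine ⟨ModularForm.trace 𝒮ℒ (V.pow l), ?_⟩
  rw [ModularForm.coe_trace]
  exact Finset.sum_congr rfl fun q _ => by rw [h60_quotientFunc_pow]

end trace

/-- DEN (general form): a universal level one denominator. If the `SL(2, ℤ)`-conjugates of `V`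
take pairwise distinct values at some point, then there is a nonzero level one form `D` such that
`D * f` is a polynomial in `V` with level one coefficients, for every modular form `f` on `Γ`. -/
theorem h60_exists_denominator_general {Γ : Subgroup (GL (Fin 2) ℝ)} [Γ.IsArithmetic]
    {a : ℤ} (V : ModularForm Γ a)
    (hdist : ∃ τ : ℍ, Function.Injective
      (fun q : 𝒮ℒ ⧸ Γ.subgroupOf 𝒮ℒ => SlashInvariantForm.quotientFunc V q τ)) :
    ∃ (μ : ℕ) (w : ℤ) (D : ModularForm 𝒮ℒ w), D ≠ 0 ∧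
      ∀ (k : ℤ) (f : ModularForm Γ k),
        ∃ c : (l : Fin μ) → ModularForm 𝒮ℒ (w + k - a * (l : ℤ)),
          ∀ τ : ℍ, D τ * f τ = ∑ l : Fin μ, c l τ * V τ ^ (l : ℕ) := by
  classical
  let _ : Fintype (𝒮ℒ ⧸ Γ.subgroupOf 𝒮ℒ) := Fintype.ofFinite _
  let μ : ℕ := Fintype.card (𝒮ℒ ⧸ Γ.subgroupOf 𝒮ℒ)
  let e : (𝒮ℒ ⧸ Γ.subgroupOf 𝒮ℒ) ≃ Fin μ := Fintype.equivFin _
  let x : (𝒮ℒ ⧸ Γ.subgroupOf 𝒮ℒ) → ℍ → ℂ := fun q => SlashInvariantForm.quotientFunc V q
  let P : Matrix (Fin μ) (Fin μ) (ℍ → ℂ) := fun l m => ∑ q, x q ^ ((l : ℕ) + (m : ℕ))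
  let r : Fin μ → ℤ := fun l => ((l : ℕ) : ℤ) * a
  have hP : ∀ l m, h60_IsMF 𝒮ℒ (r l + r m) (P l m) := fun l m =>
    (h60_trace_pow_isMF V ((l : ℕ) + (m : ℕ))).cast (by simp only [r]; push_cast; ring)
  obtain ⟨D, hD⟩ := h60_IsMF.det P r r hP
  refine ⟨μ, ∑ i, r i + ∑ j, r j, D, ?_, ?_⟩
  · obtain ⟨τ0, hτ0⟩ := hdist
    intro h0
    have h1 : P.det τ0 = 0 := by rw [← hD, h0]; rfl
    have hev : P.det τ0 = (P.map (fun g => g τ0)).det :=
      RingHom.map_det (Pi.evalRingHom (fun _ : ℍ => ℂ) τ0) P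
    refine h40_det_powerSums_ne_zero_of_equiv e hτ0 (P.map fun g => g τ0) (fun l m => ?_)
      (hev ▸ h1)
    simp [P, x]
  · intro k f
    let y : (𝒮ℒ ⧸ Γ.subgroupOf 𝒮ℒ) → ℍ → ℂ := fun q => SlashInvariantForm.quotientFunc f q
    let t : Fin μ → ℍ → ℂ := fun l => ∑ q, x q ^ (l : ℕ) * y q
    have ht : ∀ l, h60_IsMF 𝒮ℒ (r l + k) (t l) := fun l => h60_trace_isMF V f l
    have hc : ∀ l : Fin μ, h60_IsMF 𝒮ℒ ((∑ i, r i + ∑ j, r j) + k - a * (l : ℤ))
        ((P.adjugate *ᵥ t) l) := by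
      intro l
      rw [← Matrix.cramer_eq_adjugate_mulVec, Matrix.cramer_apply]
      have h := h60_IsMF.det (Γ := 𝒮ℒ) (P.updateCol l t) r (Function.update r l k) (fun i j => by
        by_cases hj : j = l
        · subst hj
          simpa using ht i
        · simpa [Matrix.updateCol_ne hj, Function.update_of_ne hj] using hP i j)
      refine h.cast ?_
      have h2 : ∑ j, Function.update r l k j = k + ∑ j ∈ Finset.univ.erase l, r j := by
        rw [Finset.sum_update_of_mem (Finset.mem_univ l), Finset.sdiff_singleton_eq_erase]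
      have h3 : r l + ∑ j ∈ Finset.univ.erase l, r j = ∑ j, r j :=
        Finset.add_sum_erase _ _ (Finset.mem_univ l)
      have h4 : r l = a * (l : ℤ) := by simp only [r]; ring
      rw [h2]
      linarith
    choose c hc using hc
    refine ⟨c, fun τ => ?_⟩
    have hcr := h40_cramer_powerSums_of_equiv e x y P t (fun l m => rfl) (fun l => rfl)
      (⟦1⟧ : 𝒮ℒ ⧸ Γ.subgroupOf 𝒮ℒ)
    have hx1 : x ⟦1⟧ = ⇑V := h60_quotientFunc_one_coset V
    have hy1 : y ⟦1⟧ = ⇑f := h60_quotientFunc_one_coset f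
    rw [hx1, hy1, ← hD] at hcr
    have h5 := congrFun hcr τ
    simp only [Pi.mul_apply, Finset.sum_apply, Pi.pow_apply] at h5
    rw [h5]
    exact Finset.sum_congr rfl fun l _ => by rw [hc l]

end Fermat.Agent.S23
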