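import Mathlib
import Fermat.Agent.S22
import Fermat.Agent.S23.h60_Rat
import Fermat.Agent.S23.h60_TwistMain
import Fermat.Agent.S23.h48_BoundedDenom
import Fermat.Agent.S23.h97_VN

set_option autoImplicit false

open UpperHalfPlane ModularForm
open scoped MatrixGroups ModularForm Manifold

namespace Fermat.Agent.S23

/-- The representation `f * B = A` needed by `h60_twist`, from the denominator statement (DEN,
task 53) for a form `V` with integral `q`-expansion. -/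
theorem h60_exists_rep_of_den {N : ℕ} [NeZero N]
    (V : ModularForm (CongruenceSubgroup.Gamma0 N) 12)
    (hVint : ∀ n : ℕ, ∃ z : ℤ, (qExpansion 1 V).coeff n = (z : ℂ))
    (hden : ∃ (μ : ℕ) (w : ℤ) (D : ModularForm 𝒮ℒ w), D ≠ 0 ∧
      ∀ (k : ℤ) (f : ModularForm (CongruenceSubgroup.Gamma0 N) k),
        ∃ c : (l : Fin μ) → ModularForm 𝒮ℒ (w + k - 12 * (l : ℤ)),
          ∀ τ : ℍ, D τ * f τ = ∑ l : Fin μ, c l τ * V τ ^ (l : ℕ))
    {k : ℤ} (f : CuspForm (CongruenceSubgroup.Gamma0 N) k) :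
    ∃ (b : ℤ) (B : ModularForm 𝒮ℒ b)
      (A : ModularForm (CongruenceSubgroup.Gamma0 N) (k + b)),
      B ≠ 0 ∧ A ∈ h60_ratSpan _ (k + b) ∧ ∀ τ, f τ * B τ = A τ := by
  obtain ⟨μ, w, D, hD, hden⟩ := hden
  obtain ⟨c, hc⟩ := hden k (CuspForm.toModularFormₗ f)
  exact h60_rep_of_den (h60_Gamma0_le_SL N) (h60_one_mem_strictPeriods_Gamma0 N)
    h60_ratSpan_levelOne_eq_top V
    (fun n => by obtain ⟨z, hz⟩ := hVint n; exact ⟨z, by rw [hz]; simp⟩)
    (⇑f) D hD μ c hc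

/-- S23 from the denominator statement (DEN, task 53) for `V = h97_VN N`. -/
theorem h60_hasIntegralStructure_of_den (N : ℕ) [NeZero N]
    (hden : ∃ (μ : ℕ) (w : ℤ) (D : ModularForm 𝒮ℒ w), D ≠ 0 ∧
      ∀ (k : ℤ) (f : ModularForm (CongruenceSubgroup.Gamma0 N) k),
        ∃ c : (l : Fin μ) → ModularForm 𝒮ℒ (w + k - 12 * (l : ℤ)),
          ∀ τ : ℍ, D τ * f τ = ∑ l : Fin μ, c l τ * h97_VN N τ ^ (l : ℕ)) :
    CuspForm.HasIntegralStructure N 2 :=
  h48_hasIntegralStructure_of_ratSpan N (Fermat.Agent.S22.result N 2 ∅)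
    (h48_cuspForm_ratSpan_eq_top N 2 fun φ f =>
      h60_twist f (h60_exists_rep_of_den (h97_VN N) (h97_VN_int N) hden f) φ)

end Fermat.Agent.S23
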