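import Mathlib
import Fermat.Prelude.Def_CuspForm_HeckeAlgebra
import Fermat.Prelude.Def_CuspForm_IntegralStructure
import Fermat.Prelude.Thm_ModularFormClass_qCoeff_heckeT
import Fermat.Prelude.Thm_ModularFormClass_qCoeff_heckeU
import Fermat.Prelude.Thm_CongruenceSubgroup_one_mem_strictPeriods_Gamma0

set_option autoImplicit false

open CuspForm CongruenceSubgroup ModularFormClass UpperHalfPlane

namespace Fermat.Agent.S23

variable {N : ℕ} {k : ℤ}

theorem h62_one_mem (N : ℕ) :
    (1 : ℝ) ∈ (Subgroup.map (Matrix.SpecialLinearGroup.mapGL ℝ) (Gamma0 N)).strictPeriods :=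
  CongruenceSubgroup.one_mem_strictPeriods_Gamma0 N

theorem h62_qc_add (f g : CuspForm (Gamma0 N) k) (n : ℕ) :
    qCoeff ⇑(f + g) n = qCoeff ⇑f n + qCoeff ⇑g n := by
  simp only [qCoeff, FunLike.coe_add]
  rw [ModularForm.qExpansion_add one_pos (h62_one_mem N) f g, map_add]

theorem h62_qc_smul (c : ℂ) (f : CuspForm (Gamma0 N) k) (n : ℕ) :
    qCoeff ⇑(c • f) n = c * qCoeff ⇑f n := by
  have h1 : ⇑(c • f) = c • ⇑f := by
    ext z
    simp
  simp only [qCoeff, h1]
  rw [ModularForm.qExpansion_smul one_pos (h62_one_mem N) c f]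
  simp

theorem h62_qc_coeff_zero (f : CuspForm (Gamma0 N) k) : qCoeff ⇑f 0 = 0 :=
  CuspFormClass.qExpansion_coeff_zero f one_pos (h62_one_mem N)

/-- The `n`-th `q`-coefficient as a linear functional on cusp forms. -/
noncomputable def h62_qcLin (N : ℕ) (k : ℤ) (n : ℕ) : CuspForm (Gamma0 N) k →ₗ[ℂ] ℂ where
  toFun f := qCoeff ⇑f n
  map_add' f g := h62_qc_add f g n
  map_smul' c f := (h62_qc_smul c f n).trans (by simp)

theorem h62_qcLin_apply (n : ℕ) (f : CuspForm (Gamma0 N) k) :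
    h62_qcLin N k n f = qCoeff ⇑f n := rfl

/-- Every `q`-coefficient functional is the first coefficient composed with a Hecke operator. -/
theorem h62_exists_hecke_coeff [NeZero N] (hk : 1 ≤ k) (n : ℕ) (hn : n ≠ 0) :
    ∃ t ∈ CuspForm.heckeAlgebra N k ∅, ∀ f : CuspForm (Gamma0 N) k,
      qCoeff ⇑(t f) 1 = qCoeff ⇑f n := by
  induction n using Nat.strong_induction_on with | h n ih =>
  rcases eq_or_ne n 1 with rfl | hn1
  · exact ⟨1, one_mem _, fun f => rfl⟩
  · obtain ⟨p, hp, m, rfl⟩ : ∃ p, p.Prime ∧ ∃ m, n = m * p :=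
      ⟨n.minFac, Nat.minFac_prime hn1, n / n.minFac,
        (Nat.div_mul_cancel (Nat.minFac_dvd n)).symm⟩
    have hm0 : m ≠ 0 := by
      rintro rfl
      simp at hn
    have hmlt : m < m * p := by
      have := hp.two_le
      have := Nat.pos_of_ne_zero hm0
      nlinarith
    obtain ⟨tm, htm, htm'⟩ := ih m hmlt hm0
    by_cases hpN : p ∣ N
    · refine ⟨tm * heckeULin k hpN,
        mul_mem htm (heckeULin_mem_heckeAlgebra hp hpN (Set.notMem_empty p)), fun f => ?_⟩
      rw [Module.End.mul_apply, htm', coe_heckeULin_apply,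
        ModularFormClass.qCoeff_heckeU f (h62_one_mem N) hp.ne_zero m,
        ModularForm.coeffHeckeU_apply]
    · have hT := heckeTLin_mem_heckeAlgebra (k := k) hp hpN (Set.notMem_empty p)
      by_cases hpm : p ∣ m
      · have hmp0 : m / p ≠ 0 := by
          obtain ⟨c, rfl⟩ := hpm
          have hc : c ≠ 0 := by
            rintro rfl
            simp at hm0
          rw [Nat.mul_div_cancel_left c hp.pos]
          exact hc
        have hmplt : m / p < m * p := lt_of_le_of_lt (Nat.div_le_self m p) hmlt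
        obtain ⟨tq, htq, htq'⟩ := ih (m / p) hmplt hmp0
        refine ⟨tm * heckeTLin k hp hpN - ((p ^ (k - 1).toNat : ℕ) : ℤ) • tq,
          sub_mem (mul_mem htm hT) (zsmul_mem htq _), fun f => ?_⟩
        have hpow : (p : ℂ) ^ (k - 1) = (((p ^ (k - 1).toNat : ℕ) : ℤ) : ℂ) := by
          have hk1 : k - 1 = ((k - 1).toNat : ℤ) := (Int.toNat_of_nonneg (by omega)).symm
          rw [hk1, zpow_natCast]
          simp
        have h1 : ((tm * heckeTLin k hp hpN - ((p ^ (k - 1).toNat : ℕ) : ℤ) • tq) f) =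
            tm (heckeTLin k hp hpN f) - (((p ^ (k - 1).toNat : ℕ) : ℤ) : ℂ) • tq f := by
          rw [LinearMap.sub_apply, Module.End.mul_apply, LinearMap.smul_apply,
            Int.cast_smul_eq_zsmul]
        rw [h1, ← h62_qcLin_apply, map_sub, map_smul, h62_qcLin_apply, h62_qcLin_apply, htm',
          htq', coe_heckeTLin_apply, ModularFormClass.qCoeff_heckeT f (h62_one_mem N) hp.ne_zero m,
          ModularForm.coeffHeckeT_of_dvd k hpm, hpow, smul_eq_mul]
        ring
      · refine ⟨tm * heckeTLin k hp hpN, mul_mem htm hT, fun f => ?_⟩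
        rw [Module.End.mul_apply, htm', coe_heckeTLin_apply,
          ModularFormClass.qCoeff_heckeT f (h62_one_mem N) hp.ne_zero m,
          ModularForm.coeffHeckeT_of_not_dvd k hpm]

/-- A finitely generated subgroup of `ℚ` has a common denominator. -/
theorem h62_exists_common_denominator (P : Submodule ℤ ℚ) (hP : P.FG) :
    ∃ d : ℤ, d ≠ 0 ∧ ∀ x ∈ P, ∃ m : ℤ, (d : ℚ) * x = (m : ℚ) := by
  obtain ⟨S, rfl⟩ := hP
  refine ⟨∏ r ∈ S, (r.den : ℤ), ?_, ?_⟩
  · rw [Finset.prod_ne_zero_iff]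
    intro r _
    exact_mod_cast r.den_ne_zero
  · intro x hx
    refine Submodule.span_induction (p := fun x _ => ∃ m : ℤ,
      ((∏ r ∈ S, (r.den : ℤ) : ℤ) : ℚ) * x = (m : ℚ)) ?_ ?_ ?_ ?_ hx
    · intro r hr
      obtain ⟨c, hc⟩ : (r.den : ℤ) ∣ ∏ r ∈ S, (r.den : ℤ) := Finset.dvd_prod_of_mem _ hr
      refine ⟨c * r.num, ?_⟩
      rw [hc]
      have := Rat.den_mul_eq_num r
      push_cast
      rw [mul_comm ((r.den : ℕ) : ℚ) (c : ℚ), mul_assoc, this]
    · exact ⟨0, by simp⟩
    · rintro x y _ _ ⟨m1, h1⟩ ⟨m2, h2⟩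
      exact ⟨m1 + m2, by rw [mul_add, h1, h2]; push_cast; ring⟩
    · rintro z x _ ⟨m, h⟩
      refine ⟨z * m, ?_⟩
      rw [zsmul_eq_mul, mul_left_comm, h]
      push_cast
      ring

/-- A cusp form with rational `q`-coefficients has bounded denominators, provided the
Hecke algebra is a finitely generated module over the integers. -/
theorem h62_bounded_denominators [NeZero N] (hk : 1 ≤ k)
    (hfin : Module.Finite ℤ (CuspForm.heckeAlgebra N k ∅))
    (f : CuspForm (Gamma0 N) k) (hf : ∀ n : ℕ, ∃ r : ℚ, qCoeff ⇑f n = (r : ℂ)) :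
    ∃ d : ℤ, d ≠ 0 ∧ ∀ n : ℕ, ∃ m : ℤ, (d : ℂ) * qCoeff ⇑f n = (m : ℂ) := by
  let ev : CuspForm.heckeAlgebra N k ∅ →ₗ[ℤ] ℂ :=
    { toFun := fun t => qCoeff ⇑((t : Module.End ℂ (CuspForm (Gamma0 N) k)) f) 1
      map_add' := fun s t => by
        show qCoeff ⇑(((s + t : CuspForm.heckeAlgebra N k ∅) :
          Module.End ℂ (CuspForm (Gamma0 N) k)) f) 1 = _
        rw [Subalgebra.coe_add, LinearMap.add_apply, h62_qc_add]
      map_smul' := fun z t => by
        show qCoeff ⇑(((z • t : CuspForm.heckeAlgebra N k ∅) :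
          Module.End ℂ (CuspForm (Gamma0 N) k)) f) 1 = _
        rw [Subalgebra.coe_smul, LinearMap.smul_apply, ← Int.cast_smul_eq_zsmul ℂ, h62_qc_smul]
        simp }
  let M : Submodule ℤ ℂ := LinearMap.range ev
  have hMfg : M.FG := by
    have := Module.Finite.range ev
    exact (Submodule.fg_top M).mp (Module.finite_def.mp this)
  have hMnoeth : IsNoetherian ℤ M := isNoetherian_of_fg_of_noetherian M hMfg
  let ι : ℚ →ₗ[ℤ] ℂ := (Rat.castHom ℂ).toAddMonoidHom.toIntLinearMap
  have hι : ∀ r : ℚ, ι r = (r : ℂ) := fun r => rfl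
  let P : Submodule ℤ ℚ := M.comap ι
  have hPfg : P.FG := by
    let g : P →ₗ[ℤ] M := (ι.domRestrict P).codRestrict M (fun x => x.2)
    have hg : Function.Injective g := by
      intro x y hxy
      have h1 : ι x = ι y := congrArg (fun z : M => (z : ℂ)) hxy
      rw [hι, hι] at h1
      exact Subtype.ext (Rat.cast_injective h1)
    have : IsNoetherian ℤ P := isNoetherian_of_injective g hg
    exact (Submodule.fg_top P).mp (Module.finite_def.mp inferInstance)
  obtain ⟨d, hd0, hd⟩ := h62_exists_common_denominator P hPfg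
  refine ⟨d, hd0, fun n => ?_⟩
  rcases eq_or_ne n 0 with rfl | hn
  · exact ⟨0, by rw [h62_qc_coeff_zero]; simp⟩
  · obtain ⟨r, hr⟩ := hf n
    obtain ⟨t, ht, htf⟩ := h62_exists_hecke_coeff (N := N) hk n hn
    have hmem : (r : ℂ) ∈ M := ⟨⟨t, ht⟩, by rw [← hr, ← htf]; rfl⟩
    have hrP : r ∈ P := by
      show ι r ∈ M
      rw [hι]
      exact hmem
    obtain ⟨m, hm⟩ := hd r hrP
    refine ⟨m, ?_⟩
    rw [hr]
    exact_mod_cast congrArg (fun x : ℚ => (x : ℂ)) hm

/-- Rational structure plus finiteness of the Hecke algebra gives the integral structure. -/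
theorem h62_hasIntegralStructure_of [NeZero N] (hk : 1 ≤ k)
    (hfin : Module.Finite ℤ (CuspForm.heckeAlgebra N k ∅))
    (hrat : Submodule.span ℂ {f : CuspForm (Gamma0 N) k |
      ∀ n : ℕ, ∃ r : ℚ, (qExpansion 1 f).coeff n = (r : ℂ)} = ⊤) :
    CuspForm.HasIntegralStructure N k := by
  unfold CuspForm.HasIntegralStructure
  rw [eq_top_iff, ← hrat]
  apply Submodule.span_le.mpr
  intro f hf
  obtain ⟨d, hd0, hd⟩ := h62_bounded_denominators hk hfin f hf
  have h1 : (d : ℂ) • f ∈ CuspForm.intLattice N k := by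
    refine Submodule.subset_span (fun n => ?_)
    obtain ⟨m, hm⟩ := hd n
    exact ⟨m, by rw [h62_qc_smul]; exact hm⟩
  have h2 : f = (d : ℂ)⁻¹ • ((d : ℂ) • f) := by
    rw [smul_smul, inv_mul_cancel₀ (by exact_mod_cast hd0), one_smul]
  rw [h2]
  exact Submodule.smul_mem _ _ (Submodule.subset_span h1)

end Fermat.Agent.S23
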