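import Mathlib
import Fermat.Agent.S23.H85Descent
import Fermat.Agent.S23.h48_Descent

set_option autoImplicit false

namespace Fermat.Agent.S23

/-- Descent for a finite-dimensional space stable under coefficientwise ring endomorphisms
of `ℂ`, given the moving lemma as a hypothesis. -/
theorem h85_span_rational_of_conj_stable_of_move
    (hmove : ∀ x : ℂ, x ∉ Set.range ((↑) : ℚ → ℂ) → ∃ σ : ℂ →+* ℂ, σ x ≠ x)
    {S : Type*} [AddCommGroup S] [Module ℂ S]
    [FiniteDimensional ℂ S] (a : ℕ → S →ₗ[ℂ] ℂ) (hinj : ∀ f : S, (∀ n, a n f = 0) → f = 0)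
    (hconj : ∀ (σ : ℂ →+* ℂ) (f : S), ∃ g : S, ∀ n, a n g = σ (a n f)) :
    Submodule.span ℂ {f : S | ∀ n, ∃ r : ℚ, a n f = (r : ℂ)} = ⊤ := by
  classical
  obtain ⟨k, n, b, h1, h0, hz⟩ := h85_dual_basis a hinj
  have hrat : ∀ i, ∀ m, ∃ r : ℚ, a m (b i) = r := by
    intro i m
    by_contra hno
    have hx : a m (b i) ∉ Set.range ((↑) : ℚ → ℂ) := by
      rintro ⟨r, hr⟩
      exact hno ⟨r, hr.symm⟩
    obtain ⟨σ, hσ⟩ := hmove _ hx
    obtain ⟨g, hg⟩ := hconj σ (b i)
    have hgb : g = b i := by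
      have : g - b i = 0 := hz _ fun j => by
        rw [map_sub, hg (n j)]
        by_cases hij : i = j
        · subst hij
          rw [h1, map_one, sub_self]
        · rw [h0 i j hij, map_zero, sub_self]
      exact sub_eq_zero.1 this
    exact hσ (by rw [← hg m, hgb])
  rw [eq_top_iff]
  intro v _
  have hv : v = ∑ j, a (n j) v • b j := by
    have : v - ∑ j, a (n j) v • b j = 0 := hz _ fun j => by
      rw [map_sub, map_sum, Finset.sum_eq_single j]
      · rw [map_smul, h1, smul_eq_mul, mul_one, sub_self]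
      · intro i _ hij
        rw [map_smul, h0 i j hij, smul_zero]
      · intro hj
        exact absurd (Finset.mem_univ j) hj
    exact sub_eq_zero.1 this
  rw [hv]
  exact Submodule.sum_mem _ fun j _ => Submodule.smul_mem _ _ (Submodule.subset_span (hrat j))

/-- DESC (S23 task 56), exact statement of the task row: the moving lemma is discharged by
helper48's `h48_exists_ringHom_ne`.  (Added by helper38.) -/
theorem h85_span_rational_of_conj_stable {S : Type*} [AddCommGroup S] [Module ℂ S]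
    [FiniteDimensional ℂ S] (a : ℕ → S →ₗ[ℂ] ℂ) (hinj : ∀ f : S, (∀ n, a n f = 0) → f = 0)
    (hconj : ∀ (σ : ℂ →+* ℂ) (f : S), ∃ g : S, ∀ n, a n g = σ (a n f)) :
    Submodule.span ℂ {f : S | ∀ n, ∃ r : ℚ, a n f = (r : ℂ)} = ⊤ :=
  h85_span_rational_of_conj_stable_of_move (fun x hx => h48_exists_ringHom_ne x hx) a hinj hconj

end Fermat.Agent.S23
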