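import Mathlib

set_option autoImplicit false

namespace Fermat.Agent.S23

/-- A ring automorphism of the polynomial ring on a transcendence basis of an algebraically
closed field extends to a ring automorphism of the field. -/
theorem h85_exists_ringEquiv_of_mvPolynomial {R K ι : Type*} [CommRing R] [Field K]
    [Algebra R K] [IsAlgClosed K] (v : ι → K) (hv : IsTranscendenceBasis R v)
    (τ : MvPolynomial ι R ≃+* MvPolynomial ι R) :
    ∃ σ : K ≃+* K, ∀ p : MvPolynomial ι R,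
      σ (MvPolynomial.aeval v p) = MvPolynomial.aeval v (τ p) := by
  have := IsAlgClosed.isAlgClosure_of_transcendence_basis v hv
  let e : Algebra.adjoin R (Set.range v) ≃+* Algebra.adjoin R (Set.range v) :=
    hv.1.aevalEquiv.symm.toRingEquiv.trans (τ.trans hv.1.aevalEquiv.toRingEquiv)
  refine ⟨IsAlgClosure.equivOfEquiv K K e, fun p => ?_⟩
  rw [← hv.1.algebraMap_aevalEquiv, IsAlgClosure.equivOfEquiv_algebraMap,
    ← hv.1.algebraMap_aevalEquiv]
  congr 1
  simp [e]

/-- The transcendental case. -/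
theorem h85_exists_ringHom_ne_of_transcendental {x : ℂ} (hx : Transcendental ℚ x) :
    ∃ σ : ℂ →+* ℂ, σ x ≠ x := by
  have hs : AlgebraicIndepOn ℚ id ({x} : Set ℂ) := by
    have : AlgebraicIndependent ℚ (fun i : ({x} : Set ℂ) => (i : ℂ)) := by
      rw [algebraicIndependent_unique_type_iff]
      exact hx
    exact this
  obtain ⟨t, hxt, ht⟩ := exists_isTranscendenceBasis_superset hs
  have hxt' : x ∈ t := hxt (Set.mem_singleton x)
  let neg : MvPolynomial t ℚ →ₐ[ℚ] MvPolynomial t ℚ :=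
    MvPolynomial.aeval (fun b => - MvPolynomial.X b)
  have hneg : neg.comp neg = AlgHom.id ℚ _ := by
    ext b
    simp [neg]
  let τ : MvPolynomial t ℚ ≃ₐ[ℚ] MvPolynomial t ℚ := AlgEquiv.ofAlgHom neg neg hneg hneg
  obtain ⟨σ, hσ⟩ := h85_exists_ringEquiv_of_mvPolynomial (fun i : t => (i : ℂ)) ht τ.toRingEquiv
  refine ⟨σ.toRingHom, ?_⟩
  have h1 := hσ (MvPolynomial.X ⟨x, hxt'⟩)
  have hx0 : x ≠ 0 := by
    rintro rfl
    exact hx isAlgebraic_zero
  simp [τ, neg] at h1
  intro h2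
  have h3 : σ x = x := h2
  rw [h3] at h1
  have : (2 : ℂ) * x = 0 := by linear_combination h1
  simp [hx0] at this

/-- The algebraic case. -/
theorem h85_exists_ringHom_ne_of_isAlgebraic {x : ℂ} (hx : IsAlgebraic ℚ x)
    (hx' : x ∉ Set.range ((↑) : ℚ → ℂ)) :
    ∃ σ : ℂ →+* ℂ, σ x ≠ x := by
  let K : IntermediateField ℚ ℂ := algebraicClosure ℚ ℂ
  have hxK : x ∈ K := mem_algebraicClosure_iff.mpr hx
  have : IsAlgClosure ℚ K := algebraicClosure.isAlgClosure ℚ ℂ
  have : IsGalois ℚ K := inferInstance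
  -- a Galois automorphism moving `x`
  have hmove : ∃ f : K ≃ₐ[ℚ] K, f ⟨x, hxK⟩ ≠ ⟨x, hxK⟩ := by
    by_contra hcon
    push Not at hcon
    have := (InfiniteGalois.mem_range_algebraMap_iff_fixed (k := ℚ) (K := K) ⟨x, hxK⟩).mpr hcon
    obtain ⟨q, hq⟩ := this
    apply hx'
    refine ⟨q, ?_⟩
    have := congrArg (Subtype.val) hq
    simpa using this
  obtain ⟨f, hf⟩ := hmove
  obtain ⟨ι, v, hv⟩ := exists_isTranscendenceBasis' K ℂ
  obtain ⟨σ, hσ⟩ := h85_exists_ringEquiv_of_mvPolynomial v hv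
    (MvPolynomial.mapEquiv ι f.toRingEquiv)
  refine ⟨σ.toRingHom, ?_⟩
  have h1 := hσ (MvPolynomial.C ⟨x, hxK⟩)
  simp at h1
  intro h2
  apply hf
  apply Subtype.ext
  have h3 : σ x = x := h2
  rw [h3] at h1
  exact h1.symm

theorem h85_exists_ringHom_ne {x : ℂ} (hx : x ∉ Set.range ((↑) : ℚ → ℂ)) :
    ∃ σ : ℂ →+* ℂ, σ x ≠ x := by
  by_cases h : IsAlgebraic ℚ x
  · exact h85_exists_ringHom_ne_of_isAlgebraic h hx
  · exact h85_exists_ringHom_ne_of_transcendental h

end Fermat.Agent.S23
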