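import Mathlib
import Fermat.Agent.S23.h96_DeltaN
import Fermat.Agent.S23.h62_LevelOne

set_option autoImplicit false

namespace Fermat.Agent.S23

open UpperHalfPlane ModularForm CongruenceSubgroup
open scoped ModularForm MatrixGroups Manifold

theorem h96_ofComplex_natCast_mul (N : ℕ) [NeZero N] (τ : ℍ) :
    UpperHalfPlane.ofComplex ((N : ℂ) * (τ : ℂ)) = heckeDiagMatrix N • τ := by
  rw [← coe_heckeDiagMatrix_smul (NeZero.ne N), UpperHalfPlane.ofComplex_apply]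

/-- The modular form `τ ↦ 1728 * Δ (N τ)` of weight 12 on `Γ₀(N)`. -/
noncomputable def h96_VN (N : ℕ) [NeZero N] : ModularForm (Gamma0 N) 12 :=
  ((1728 : ℂ) * ((N : ℂ) ^ 11)⁻¹) • CuspForm.toModularFormₗ (h96_DeltaN N)

theorem h96_VN_coe (N : ℕ) [NeZero N] :
    (⇑(h96_VN N) : ℍ → ℂ) = ((1728 : ℂ) * ((N : ℂ) ^ 11)⁻¹) • ⇑(h96_DeltaN N) := rfl

theorem h96_VN_coe' (N : ℕ) [NeZero N] :
    (⇑(h96_VN N) : ℍ → ℂ) = ((1728 : ℂ) * ((N : ℂ) ^ 11)⁻¹) •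
      (ModularForm.discriminant ∣[(12 : ℤ)] heckeDiagMatrix N) := rfl

theorem h96_VN_apply (N : ℕ) [NeZero N] (τ : ℍ) :
    h96_VN N τ = 1728 * ModularForm.discriminant (heckeDiagMatrix N • τ) := by
  have hN : ((N : ℂ) ^ 11) ≠ 0 := pow_ne_zero _ (Nat.cast_ne_zero.mpr (NeZero.ne N))
  rw [h96_VN_coe, Pi.smul_apply, h96_DeltaN_apply, smul_eq_mul, mul_assoc,
    inv_mul_cancel_left₀ hN]

theorem h96_VN_apply' (N : ℕ) [NeZero N] (τ : ℍ) :
    h96_VN N τ = 1728 * ModularForm.discriminant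
      (UpperHalfPlane.ofComplex ((N : ℂ) * (τ : ℂ))) := by
  rw [h96_VN_apply, h96_ofComplex_natCast_mul]

theorem h96_VN_qExpansion_coeff (N : ℕ) [NeZero N] (n : ℕ) :
    (qExpansion 1 (h96_VN N)).coeff n =
      if N ∣ n then (1728 : ℂ) * (qExpansion 1 ModularForm.discriminant).coeff (n / N)
      else 0 := by
  have hN : ((N : ℂ) ^ 11) ≠ 0 := pow_ne_zero _ (Nat.cast_ne_zero.mpr (NeZero.ne N))
  rw [h96_VN_coe, ModularForm.qExpansion_smul one_pos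
    (CongruenceSubgroup.one_mem_strictPeriods_Gamma0 N), PowerSeries.coeff_smul,
    h96_DeltaN_qExpansion_coeff]
  split_ifs
  · rw [smul_eq_mul, mul_assoc, inv_mul_cancel_left₀ hN]
  · simp

theorem h96_VN_isInt (N : ℕ) [NeZero N] (n : ℕ) :
    ∃ z : ℤ, (qExpansion 1 (h96_VN N)).coeff n = (z : ℂ) := by
  rw [h96_VN_qExpansion_coeff]
  split_ifs
  · obtain ⟨z, hz⟩ := h62_isIntPS_discriminant (n / N)
    refine ⟨z, ?_⟩
    rw [← hz, PowerSeries.coeff_smul, smul_eq_mul, CuspForm.coe_discriminant]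
  · exact ⟨0, by simp⟩

/-- Task VN: a weight 12 form on `Γ₀(N)` equal to `c * Δ (N τ)` with integral `q`-expansion. -/
theorem h96_exists_VN (N : ℕ) [NeZero N] :
    ∃ V : ModularForm (CongruenceSubgroup.Gamma0 N) 12,
      (∀ n : ℕ, ∃ z : ℤ, (qExpansion 1 V).coeff n = (z : ℂ)) ∧
      ∃ c : ℂ, c ≠ 0 ∧ ∀ τ : ℍ,
        V τ = c * ModularForm.discriminant (UpperHalfPlane.ofComplex ((N : ℂ) * (τ : ℂ))) :=
  ⟨h96_VN N, h96_VN_isInt N, 1728, by norm_num, h96_VN_apply' N⟩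

end Fermat.Agent.S23
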