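import Mathlib
import Fermat.Prelude.Def_CuspForm_HeckeAlgebra
import Fermat.Prelude.Def_CuspForm_IntegralStructure
import Fermat.Prelude.Thm_CuspForm_mem_intLattice_of_mem_heckeAlgebra
import Fermat.Prelude.Thm_CuspForm_intLattice_fg

set_option autoImplicit false

namespace Fermat.Agent.S23

open CuspForm

/-- An integral structure in weight `k ≥ 1` makes the Hecke algebra a finite `ℤ`-module. -/
theorem h97_finite_heckeAlgebra_of_hasIntegralStructure {N : ℕ} [NeZero N] {k : ℤ} (hk : 1 ≤ k)
    (hint : CuspForm.HasIntegralStructure N k) (S : Set ℕ) :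
    Module.Finite ℤ (CuspForm.heckeAlgebra N k S) := by
  have hfin : Module.Finite ℤ ↥(intLattice N k) := Module.Finite.iff_fg.mpr (intLattice_fg N k)
  have htf : IsAddTorsionFree (CuspForm (CongruenceSubgroup.Gamma0 N) k) :=
    .of_isTorsionFree ℂ _
  have hfree : Module.Free ℤ ↥(intLattice N k) := Module.free_of_finite_type_torsion_free'
  let φ : ↥(heckeAlgebra N k S) →ₗ[ℤ] Module.End ℤ ↥(intLattice N k) :=
    { toFun := fun t => LinearMap.restrict ((t : Module.End ℂ
          (CuspForm (CongruenceSubgroup.Gamma0 N) k)).restrictScalars ℤ)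
          (fun _f hf => mem_intLattice_of_mem_heckeAlgebra hk t.2 hf)
      map_add' := fun _ _ => LinearMap.ext fun _ => Subtype.ext rfl
      map_smul' := fun _ _ => LinearMap.ext fun _ => Subtype.ext rfl }
  have hφ : Function.Injective φ := by
    rw [← LinearMap.ker_eq_bot, LinearMap.ker_eq_bot']
    intro t ht
    refine Subtype.ext (LinearMap.ext_on hint fun f hf => ?_)
    exact congrArg Subtype.val (LinearMap.congr_fun ht ⟨f, hf⟩)
  exact Module.Finite.of_injective φ hφ

end Fermat.Agent.S23
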